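import Fermat.Agent.BrauerLocal.Models

/-!
# Unramified extensions of a completion and their Frobenius automorphisms

An extension is unramified if its norms are the elements of valuation divisible by the degree; an
automorphism is a Frobenius if it is the `q`-th power modulo the maximal ideal, measured by the
norm. Both notions are intrinsic, and there is exactly one Frobenius, which generates the group.
-/

set_option autoImplicit false
set_option linter.style.haveILetI false

noncomputable section

open NumberField IsDedekindDomain Module WithZero IsMulCommutative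
open FA.ArtinRec FA.Ideles FA.LocalCFT FA.NormResidue FA.BrauerLocal
open FA.QuadFormsNF (valued_algebraMap exists_element_near)
open scoped Pointwise

namespace FA.BrauerInvariant

variable {K : Type} [Field K] [NumberField K] (v : HeightOneSpectrum (𝓞 K))

/-- The order of a unit of the completion. -/
def locOrd (z : (v.adicCompletion K)ˣ) : ℤ := -log (Valued.v (z : v.adicCompletion K))

theorem valued_eq_exp (z : (v.adicCompletion K)ˣ) :
    Valued.v (z : v.adicCompletion K) = exp (-locOrd v z) := by
  rw [locOrd, neg_neg, exp_log ((Valuation.ne_zero_iff _).2 z.ne_zero)]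

theorem locOrd_mul (a b : (v.adicCompletion K)ˣ) : locOrd v (a * b) = locOrd v a + locOrd v b := by
  rw [locOrd, locOrd, locOrd, Units.val_mul, map_mul,
    log_mul ((Valuation.ne_zero_iff _).2 a.ne_zero) ((Valuation.ne_zero_iff _).2 b.ne_zero), neg_add]

/-- The order as a homomorphism. -/
def locOrdHom : (v.adicCompletion K)ˣ →* Multiplicative ℤ :=
  MonoidHom.mk' (fun z => Multiplicative.ofAdd (locOrd v z)) fun a b => by
    rw [locOrd_mul, ofAdd_add]

theorem locOrd_pow (a : (v.adicCompletion K)ˣ) (n : ℕ) : locOrd v (a ^ n) = n * locOrd v a := by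
  have h := congrArg Multiplicative.toAdd (map_pow (locOrdHom v) a n)
  simpa [locOrdHom] using h

theorem locOrd_zpow (a : (v.adicCompletion K)ˣ) (n : ℤ) : locOrd v (a ^ n) = n * locOrd v a := by
  have h := congrArg Multiplicative.toAdd (map_zpow (locOrdHom v) a n)
  simpa [locOrdHom] using h

theorem locOrd_div (a b : (v.adicCompletion K)ˣ) : locOrd v (a / b) = locOrd v a - locOrd v b := by
  have h := congrArg Multiplicative.toAdd (map_div (locOrdHom v) a b)
  simpa [locOrdHom] using h

theorem locOrd_localEmb (a : Kˣ) : locOrd v (localEmb v a) = ord v a := by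
  rw [locOrd, localEmb_val, valued_algebraMap, valuation_eq_exp, log_exp, neg_neg]

theorem exists_locOrd_eq_one : ∃ π : (v.adicCompletion K)ˣ, locOrd v π = 1 := by
  obtain ⟨π, hπ⟩ := exists_ord_eq_one v
  exact ⟨localEmb v π, (locOrd_localEmb v π).trans hπ⟩

theorem mem_ker_valMod {n : ℕ} {z : (v.adicCompletion K)ˣ} :
    z ∈ (valMod v n).ker ↔ (n : ℤ) ∣ locOrd v z := by
  rw [MonoidHom.mem_ker, locOrd, Int.dvd_neg, ← ZMod.intCast_zmod_eq_zero_iff_dvd]
  exact ⟨fun h => ofAdd_eq_one.1 h, fun h => ofAdd_eq_one.2 h⟩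

theorem index_ker_valMod (n : ℕ) [NeZero n] : (valMod v n).ker.index = n := by
  rw [Subgroup.index_ker, MonoidHom.range_eq_top.2 (valMod_surjective v n), Subgroup.card_top,
    Nat.card_congr Multiplicative.toAdd, Nat.card_zmod]

variable {E E' : Type} [Field E] [Algebra (v.adicCompletion K) E] [Field E']
  [Algebra (v.adicCompletion K) E']

variable (E) in
/-- **An unramified extension**: its norms are the elements of order divisible by the degree. -/
def IsUnramified : Prop :=
  normGroup (v.adicCompletion K) E = (valMod v (finrank (v.adicCompletion K) E)).ker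

/-- **A Frobenius**: the `q`-th power modulo the maximal ideal. -/
def IsFrobenius (σ : E ≃ₐ[v.adicCompletion K] E) : Prop :=
  ∀ y : E, Valued.v (Algebra.norm (v.adicCompletion K) y) ≤ 1 →
    Valued.v (Algebra.norm (v.adicCompletion K) (σ y - y ^ Nat.card (𝓞 K ⧸ v.asIdeal))) < 1

variable {v}

theorem IsFrobenius.map {σ : E ≃ₐ[v.adicCompletion K] E} (h : IsFrobenius v σ)
    (e : E ≃ₐ[v.adicCompletion K] E') : IsFrobenius v ((e.symm.trans σ).trans e) := fun y hy => by
  have h' := h (e.symm y) (by rwa [← Algebra.norm_eq_of_algEquiv e, e.apply_symm_apply])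
  rwa [← Algebra.norm_eq_of_algEquiv e, map_sub, map_pow, e.apply_symm_apply] at h'

/-- The restriction of a Frobenius is a Frobenius. -/
theorem IsFrobenius.of_algHom [FiniteDimensional (v.adicCompletion K) E']
    {σ : E ≃ₐ[v.adicCompletion K] E} {σ' : E' ≃ₐ[v.adicCompletion K] E'} (h : IsFrobenius v σ')
    (i : E →ₐ[v.adicCompletion K] E') (hi : ∀ x, σ' (i x) = i (σ x)) : IsFrobenius v σ := by
  let _ : Algebra E E' := i.toRingHom.toAlgebra
  haveI : IsScalarTower (v.adicCompletion K) E E' :=
    IsScalarTower.of_algebraMap_eq fun c => (i.commutes c).symm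
  haveI : FiniteDimensional E E' :=
    Module.Finite.of_restrictScalars_finite (v.adicCompletion K) E E'
  have hN : ∀ x : E, Algebra.norm (v.adicCompletion K) (i x) =
      Algebra.norm (v.adicCompletion K) x ^ finrank E E' := fun x => by
    rw [show i x = algebraMap E E' x from rfl, ← Algebra.norm_norm (S := E),
      Algebra.norm_algebraMap, map_pow]
  intro y hy
  have hm : finrank E E' ≠ 0 := Module.finrank_pos.ne'
  have h' := h (i y) (by rw [hN, map_pow]; exact pow_le_one₀ zero_le hy)
  rw [hi, ← map_pow, ← map_sub, hN, map_pow] at h'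
  exact (pow_lt_one_iff_of_nonneg zero_le hm).1 h'

section completion

variable {L : Type} [Field L] [NumberField L] [Algebra K L] [IsGalois K L]
  [IsMulCommutative (L ≃ₐ[K] L)] (Q : HeightOneSpectrum (𝓞 L))

omit [IsMulCommutative (L ≃ₐ[K] L)] in
theorem valued_norm_le_one_iff (z : Q.adicCompletion L) :
    (Valued.v (Algebra.norm ((belowP K Q).adicCompletion K) z) ≤ 1 ↔ Valued.v z ≤ 1) ∧
      (Valued.v (Algebra.norm ((belowP K Q).adicCompletion K) z) < 1 ↔ Valued.v z < 1) := by
  classical
  have h : Valued.v (Algebra.norm ((belowP K Q).adicCompletion K) z) ^ eIdx K Q =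
      Valued.v z ^ Nat.card (MulAction.stabilizer (L ≃ₐ[K] L) Q.asIdeal) := by
    rw [← valued_belowHom, belowHom_norm, map_prod, Finset.prod_congr rfl fun g _ => valued_decHom Q g z,
      Finset.prod_const, Finset.card_univ, Nat.card_eq_fintype_card]
  refine ⟨?_, ?_⟩
  · rw [← pow_le_one_iff_of_nonneg zero_le (eIdx_pos (K := K) Q).ne', h,
      pow_le_one_iff_of_nonneg zero_le Nat.card_pos.ne']
  · rw [← pow_lt_one_iff_of_nonneg zero_le (eIdx_pos (K := K) Q).ne', h,
      pow_lt_one_iff_of_nonneg zero_le Nat.card_pos.ne']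

theorem valued_pow_sub_pow {y a : Q.adicCompletion L} (hy : Valued.v y ≤ 1) (ha : Valued.v a ≤ 1) :
    ∀ q : ℕ, Valued.v (y ^ q - a ^ q) ≤ Valued.v (y - a)
  | 0 => by simp
  | q + 1 => by
    rw [show y ^ (q + 1) - a ^ (q + 1) = y ^ q * (y - a) + (y ^ q - a ^ q) * a by ring]
    refine Valuation.map_add_le _ ?_ ?_
    · rw [map_mul, map_pow]
      exact mul_le_of_le_one_left zero_le (pow_le_one₀ zero_le hy)
    · rw [map_mul]
      exact (mul_le_of_le_one_right zero_le ha).trans (valued_pow_sub_pow hy ha q)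

variable {Q}

/-- The Frobenius of an unramified completion is the Artin symbol. -/
theorem isFrobenius_iff (hv : ¬ IsRam L (belowP K Q))
    (d : MulAction.stabilizer (L ≃ₐ[K] L) Q.asIdeal) :
    IsFrobenius (belowP K Q) (IsGaloisGroup.mulEquivAlgEquiv
      (MulAction.stabilizer (L ≃ₐ[K] L) Q.asIdeal) ((belowP K Q).adicCompletion K)
      (Q.adicCompletion L) d) ↔ (d : L ≃ₐ[K] L) = artinAt L (belowP K Q) := by
  constructor
  · refine fun h => artinAt_eq hv rfl fun x => (Q.valuation_lt_one_iff_mem (K := L) _).1 ?_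
    have h' := h (algebraMap L (Q.adicCompletion L) (x : L)) ((valued_norm_le_one_iff Q _).1.2 (by
      rw [valued_algebraMap]; exact Q.valuation_le_one x))
    rw [(valued_norm_le_one_iff Q _).2] at h'
    change Valued.v (decHom Q d (algebraMap L (Q.adicCompletion L) (x : L)) - _) < 1 at h'
    rw [decHom_algebraMap, ← map_pow, ← map_sub, valued_algebraMap] at h'
    exact h'
  · intro hd y hy
    rw [(valued_norm_le_one_iff Q _).2]
    rw [(valued_norm_le_one_iff Q _).1] at hy
    show Valued.v (decHom Q d y - y ^ _) < 1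
    obtain ⟨b, hb⟩ := exists_element_near Q y 1
    have h1 : exp (-((1 : ℕ) : ℤ)) < (1 : ℤᵐ⁰) := by rw [← exp_zero, exp_lt_exp]; norm_num
    have hbv : Q.valuation L (b : L) ≤ 1 := by
      rw [← valued_algebraMap, ← sub_add_cancel (algebraMap L (Q.adicCompletion L) (b : L)) y]
      exact Valuation.map_add_le _ (hb.trans h1.le) hy
    obtain ⟨a, ha⟩ := Q.exists_valuation_sub_lt_of_integer hbv 1
    rw [Units.val_one] at ha
    set A := algebraMap L (Q.adicCompletion L) ((a : 𝓞 L) : L)
    have hya : Valued.v (y - A) < 1 := by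
      rw [Valuation.map_sub_swap,
        ← sub_add_sub_cancel A (algebraMap L (Q.adicCompletion L) (b : L)) y]
      refine Valuation.map_add_lt _ ?_ (hb.trans_lt h1)
      rwa [← map_sub, valued_algebraMap]
    have hA : Valued.v A ≤ 1 := by rw [valued_algebraMap]; exact Q.valuation_le_one a
    set q := Nat.card (𝓞 K ⧸ (belowP K Q).asIdeal)
    rw [show decHom Q d y - y ^ q =
      (decHom Q d A - A ^ q) + (decHom Q d (y - A) - (y ^ q - A ^ q)) by rw [map_sub]; ring]
    refine Valuation.map_add_lt _ ?_ (lt_of_le_of_lt (Valued.v.map_sub_le ?_ ?_) hya)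
    · rw [decHom_algebraMap, ← map_pow, ← map_sub, valued_algebraMap, hd]
      obtain ⟨τ, hτ⟩ := exists_frob (K := K) Q
      rw [← artinAt_eq hv rfl hτ]
      exact (Q.valuation_lt_one_iff_mem (K := L) _).2 (hτ a)
    · rw [valued_decHom]
    · exact valued_pow_sub_pow Q hy hA q

/-- **The completion at an unramified prime.** -/
theorem completion_facts (hv : ¬ IsRam L (belowP K Q)) :
    IsUnramified (belowP K Q) (Q.adicCompletion L) ∧
      ∃ σ : Q.adicCompletion L ≃ₐ[(belowP K Q).adicCompletion K] Q.adicCompletion L,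
        IsFrobenius (belowP K Q) σ ∧ (∀ g, g ∈ Subgroup.zpowers σ) ∧
        (∀ τ, IsFrobenius (belowP K Q) τ → τ = σ) ∧
        ∀ z, galArtin Q z = σ ^ locOrd (belowP K Q) z := by
  set k := (belowP K Q).adicCompletion K
  set e := IsGaloisGroup.mulEquivAlgEquiv (MulAction.stabilizer (L ≃ₐ[K] L) Q.asIdeal) k
    (Q.adicCompletion L)
  obtain ⟨π, hπ⟩ := exists_locOrd_eq_one (belowP K Q)
  have hart : ∀ z, localArtin L (belowP K Q) z =
      artinAt L (belowP K Q) ^ locOrd (belowP K Q) z := fun z =>
    localArtin_of_not_isRam hv (valued_eq_exp _ z)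
  have hgal : ∀ z, galArtin Q z = galArtin Q π ^ locOrd (belowP K Q) z := fun z => by
    rw [← map_zpow]
    show e _ = e _
    refine congrArg e (Subtype.ext ?_)
    show localArtin L (belowP K Q) z = localArtin L (belowP K Q) (π ^ _)
    rw [hart, hart, locOrd_zpow, hπ, mul_one]
  have hπd : (decArtin Q π : L ≃ₐ[K] L) = artinAt L (belowP K Q) :=
    (hart π).trans (by rw [hπ, zpow_one])
  have hgen : ∀ g, g ∈ Subgroup.zpowers (galArtin Q π) := fun g => by
    obtain ⟨z, rfl⟩ := galArtin_surjective Q g
    exact ⟨_, (hgal z).symm⟩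
  refine ⟨?_, galArtin Q π, (isFrobenius_iff hv _).2 hπd, hgen, fun τ hτ => ?_, hgal⟩
  · show (normC (K := K) Q).range = _
    rw [← ker_galArtin]
    ext z
    rw [MonoidHom.mem_ker, mem_ker_valMod, hgal, ← orderOf_dvd_iff_zpow_eq_one,
      orderOf_eq_card_of_forall_mem_zpowers hgen, IsGalois.card_aut_eq_finrank]
  · obtain ⟨d, rfl⟩ := e.surjective τ
    show e d = e (decArtin Q π)
    exact congrArg e (Subtype.ext (((isFrobenius_iff hv d).1 hτ).trans hπd.symm))

/-- A prime whose local units have trivial symbol is unramified. -/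
theorem not_isRam_of_ker_le {v : HeightOneSpectrum (𝓞 K)} {n : ℕ}
    (h : (valMod v n).ker ≤ (localArtin L v).ker) : ¬ IsRam L v := by
  rintro ⟨P, hP, hne⟩
  refine hne ((Subgroup.eq_bot_iff_forall _).2 fun g hg => ?_)
  obtain ⟨c, hc, rfl⟩ := (image_units_normSymbol hP g).1 hg
  rw [← localArtin_localEmb]
  exact h ((mem_ker_valMod v).2 (by rw [locOrd_localEmb, hc]; exact dvd_zero _))

end completion

variable (v)

/-- **There is an unramified extension of every degree.** -/
theorem exists_unramified (n : ℕ) [NeZero n] :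
    ∃ (E : Type) (_ : Field E) (_ : Algebra (v.adicCompletion K) E)
      (_ : FiniteDimensional (v.adicCompletion K) E) (_ : IsGalois (v.adicCompletion K) E)
      (σ : E ≃ₐ[v.adicCompletion K] E), finrank (v.adicCompletion K) E = n ∧ IsUnramified v E ∧
        IsFrobenius v σ ∧ (∀ g, g ∈ Subgroup.zpowers σ) ∧ ∀ τ, IsFrobenius v τ → τ = σ := by
  obtain ⟨L, _, _, _, _, _, h⟩ := exists_ker_localArtin_eq v (isOpen_ker_valMod v n)
    (by rw [index_ker_valMod]; exact NeZero.ne n)
  obtain ⟨Q, hQ⟩ := exists_belowP K L v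
  subst hQ
  obtain ⟨hun, σ, h1, h2, h3, -⟩ :=
    completion_facts (Q := Q) (not_isRam_of_ker_le (K := K) h.ge)
  refine ⟨Q.adicCompletion L, inferInstance, inferInstance, inferInstance, inferInstance, σ, ?_,
    hun, h1, h2, h3⟩
  have hg : normGroup _ (Q.adicCompletion L) = (valMod (belowP K Q) n).ker :=
    (range_normC Q).trans h
  rw [hun] at hg
  haveI : NeZero (finrank ((belowP K Q).adicCompletion K) (Q.adicCompletion L)) :=
    ⟨Module.finrank_pos.ne'⟩
  rw [← index_ker_valMod (belowP K Q)
    (finrank ((belowP K Q).adicCompletion K) (Q.adicCompletion L)), hg, index_ker_valMod]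

variable {v}
variable [FiniteDimensional (v.adicCompletion K) E] [IsGalois (v.adicCompletion K) E]
  [FiniteDimensional (v.adicCompletion K) E'] [IsGalois (v.adicCompletion K) E']

/-- **The Frobenius of an unramified extension.** -/
theorem IsUnramified.exists_frobenius [IsMulCommutative (E ≃ₐ[v.adicCompletion K] E)]
    (h : IsUnramified v E) :
    ∃ σ : E ≃ₐ[v.adicCompletion K] E, IsFrobenius v σ ∧ (∀ g, g ∈ Subgroup.zpowers σ) ∧
      ∀ τ, IsFrobenius v τ → τ = σ := by
  haveI : NeZero (finrank (v.adicCompletion K) E) := ⟨Module.finrank_pos.ne'⟩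
  obtain ⟨F, _, _, _, _, σ, hn, hun, h1, h2, h3⟩ :=
    exists_unramified v (finrank (v.adicCompletion K) E)
  haveI : IsCyclic (F ≃ₐ[v.adicCompletion K] F) := ⟨⟨σ, h2⟩⟩
  haveI : IsMulCommutative (F ≃ₐ[v.adicCompletion K] F) := IsCyclic.isMulCommutative
  obtain ⟨e⟩ := algEquiv_of_normGroup_eq v (E := F) (E' := E) (by rw [hun, hn]; exact h.symm)
  refine ⟨e.autCongr σ, h1.map e, fun g => ?_, fun τ hτ => ?_⟩
  · obtain ⟨g, rfl⟩ := e.autCongr.surjective g
    obtain ⟨i, rfl⟩ := Subgroup.mem_zpowers_iff.1 (h2 g)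
    exact ⟨i, (map_zpow e.autCongr σ i).symm⟩
  · rw [← h3 _ (hτ.map e.symm)]
    refine AlgEquiv.ext fun x => ?_
    simp

/-- **Unramified extensions grow with the degree**, compatibly with the Frobenius. -/
theorem exists_algHom_of_dvd [IsMulCommutative (E ≃ₐ[v.adicCompletion K] E)]
    (hE : IsUnramified v E) (hE' : IsUnramified v E')
    (hdvd : finrank (v.adicCompletion K) E ∣ finrank (v.adicCompletion K) E')
    {σ : E ≃ₐ[v.adicCompletion K] E} (hσ : IsFrobenius v σ)
    {σ' : E' ≃ₐ[v.adicCompletion K] E'} (hσ' : IsFrobenius v σ')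
    (hgen : ∀ g, g ∈ Subgroup.zpowers σ') :
    ∃ i : E →ₐ[v.adicCompletion K] E', ∀ x, σ' (i x) = i (σ x) := by
  set k := v.adicCompletion K
  set n := finrank k E
  set N := finrank k E'
  have hn : n ≠ 0 := Module.finrank_pos.ne'
  haveI : NeZero n := ⟨hn⟩
  haveI : IsCyclic (E' ≃ₐ[k] E') := ⟨⟨σ', hgen⟩⟩
  haveI : IsMulCommutative (E' ≃ₐ[k] E') := IsCyclic.isMulCommutative
  set H := Subgroup.zpowers (σ' ^ n)
  haveI : H.Normal := ⟨fun a ha g => by rwa [mul_comm g a, mul_inv_cancel_right]⟩
  set F := IntermediateField.fixedField H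
  haveI : IsGalois k F := IsGalois.of_fixedField_normal_subgroup H
  haveI : IsCyclic (F ≃ₐ[k] F) := isCyclic_of_surjective (AlgEquiv.restrictNormalHom F)
    (AlgEquiv.restrictNormalHom_surjective E')
  haveI : IsMulCommutative (F ≃ₐ[k] F) := IsCyclic.isMulCommutative
  have hN : orderOf σ' = N := by
    rw [orderOf_eq_card_of_forall_mem_zpowers hgen, IsGalois.card_aut_eq_finrank]
  have hFn : finrank k F = n := by
    have h1 : finrank F E' = N / n := by
      rw [IntermediateField.finrank_fixedField_eq_card, Nat.card_zpowers,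
        orderOf_pow_of_dvd hn (hN ▸ hdvd), hN]
    have h2 := Module.finrank_mul_finrank k F E'
    rw [h1] at h2
    exact Nat.eq_of_mul_eq_mul_right (Nat.div_pos (Nat.le_of_dvd Module.finrank_pos hdvd)
      (Nat.pos_of_ne_zero hn)) (h2.trans (Nat.mul_div_cancel' hdvd).symm)
  have hle : (valMod v N).ker ≤ normGroup k F := by
    rw [← hE']
    rintro _ ⟨z, rfl⟩
    refine ⟨Units.map (Algebra.norm F : E' →* F) z, Units.ext ?_⟩
    exact Algebra.norm_norm
  have hFu : normGroup k F = (valMod v n).ker := by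
    obtain ⟨π, hπ⟩ := exists_locOrd_eq_one v
    have hidx : (normGroup k F).index = n := (index_normGroup v F).trans hFn
    have hle' : (valMod v n).ker ≤ normGroup k F := fun z hz => by
      obtain ⟨j, hj⟩ := (mem_ker_valMod v).1 hz
      rw [← div_mul_cancel z ((π ^ j) ^ n)]
      refine mul_mem (hle ((mem_ker_valMod v).2 ?_)) ?_
      · rw [locOrd_div, locOrd_pow, locOrd_zpow, hπ, mul_one, hj, sub_self]
        exact dvd_zero _
      · have := (normGroup k F).pow_index_mem (π ^ j)
        rwa [hidx] at this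
    refine le_antisymm (Subgroup.relIndex_eq_one.1 ?_) hle'
    have h2 := Subgroup.relIndex_mul_index hle'
    rw [hidx, index_ker_valMod] at h2
    exact Nat.eq_of_mul_eq_mul_right (Nat.pos_of_ne_zero hn) (h2.trans (one_mul n).symm)
  obtain ⟨e⟩ := algEquiv_of_normGroup_eq v (E := E) (E' := F) (hE.trans hFu.symm)
  have hFunr : IsUnramified v F := by rw [IsUnramified, hFn]; exact hFu
  obtain ⟨τ, -, -, huniq⟩ := hFunr.exists_frobenius
  have h1 : IsFrobenius v (σ'.restrictNormal F) :=
    hσ'.of_algHom F.val fun x => (σ'.restrictNormal_commutes F x).symm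
  have h2 : σ'.restrictNormal F = (e.symm.trans σ).trans e :=
    (huniq _ h1).trans (huniq _ (hσ.map e)).symm
  refine ⟨F.val.comp e.toAlgHom, fun x => ?_⟩
  show σ' (algebraMap F E' (e x)) = algebraMap F E' (e (σ x))
  rw [← σ'.restrictNormal_commutes F (e x), h2]
  simp

end FA.BrauerInvariant

end
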