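import Fermat.Agent.BrauerGlobal.Characters
import Fermat.Agent.BrauerInvariant.Unramified

/-!
# A cyclic extension adapted to a finite set

For a finite set of primes there is a cyclic extension of degree `2 N`, unramified of local degree
`N` at the set and ramified at all real places. The local characters are the squares of unramified
ones, so they are trivial at the special elements, which are `N`-th powers.
-/

set_option autoImplicit false
set_option linter.style.haveILetI false

noncomputable section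

open NumberField NumberField.InfinitePlace NumberField.InfinitePlace.Completion IsDedekindDomain
open WithZero IsMulCommutative
open FA.ArtinRec FA.Ideles FA.LocalCFT FA.GrunwaldWang FA.NormResidue FA.BrauerLocal FA.BrauerGlobal
open FA.QuadFormsNF (valued_algebraMap)
open scoped Pointwise Classical

namespace FA.BrauerInvariant

variable {K : Type} [Field K] [NumberField K]

/-- **The adapted cyclic extension.** -/
theorem exists_adapted (S : Finset (HeightOneSpectrum (𝓞 K))) {N : ℕ} (hN : N ≠ 0) :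
    ∃ (L : Type) (_ : Field L) (_ : NumberField L) (_ : Algebra K L) (_ : IsGalois K L)
      (_ : IsMulCommutative (L ≃ₐ[K] L)),
      IsCyclic (L ≃ₐ[K] L) ∧ Module.finrank K L = 2 * N ∧
      (∀ v ∈ S, ¬ IsRam L v ∧ ∀ Q : HeightOneSpectrum (𝓞 L), belowP K Q = v →
        Nat.card (MulAction.stabilizer (L ≃ₐ[K] L) Q.asIdeal) = N) ∧
      ∀ w : InfinitePlace K, IsReal w → ¬ w.IsUnramifiedIn L := by
  have hn : 2 * N ≠ 0 := mul_ne_zero two_ne_zero hN
  haveI : NeZero (2 * N) := ⟨hn⟩
  haveI : NeZero N := ⟨hN⟩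
  obtain ⟨ζ₀, hζ₀⟩ := HasEnoughRootsOfUnity.exists_primitiveRoot ℂ (2 * N)
  set ζ := (hζ₀.isUnit hn).unit
  have hζ : IsPrimitiveRoot ζ (2 * N) :=
    IsPrimitiveRoot.coe_units_iff.1 (by simpa [ζ] using hζ₀)
  have hζ2 : IsPrimitiveRoot (ζ ^ 2) N := hζ.pow (Nat.pos_of_ne_zero hn) rfl
  have hker : ∀ v : HeightOneSpectrum (𝓞 K),
      (unramChar v (ζ ^ 2)).ker = (valMod v N).ker := fun v => by
    ext z
    rw [MonoidHom.mem_ker, mem_ker_valMod, unramChar_apply, hζ2.zpow_eq_one_iff_dvd, locOrd,
      Int.dvd_neg]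
  set S₂ := S ∪ ((Ideal.finite_factors (I := Ideal.span {(2 : 𝓞 K)}) (by simp)).subset
    fun Q (hQ : (2 : 𝓞 K) ∈ Q.asIdeal) => Ideal.dvd_span_singleton.2 hQ).toFinset
  obtain ⟨u, huS⟩ : ∃ u : HeightOneSpectrum (𝓞 K), u ∉ S₂ := by
    obtain ⟨u, -, hu⟩ :=
      ((infinite_artinAt (K := K) (1 : K ≃ₐ[K] K)).sdiff S₂.finite_toSet).nonempty
    exact ⟨u, hu⟩
  set χ := Function.update (fun v => unramChar (K := K) v (ζ ^ 2)) u (unramChar u ζ) with hχdef
  have hχS : ∀ v ∈ S₂, χ v = unramChar v (ζ ^ 2) := fun v hv =>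
    Function.update_of_ne (by rintro rfl; exact huS hv) _ _
  have hroot : ∀ (v : HeightOneSpectrum (𝓞 K)) (η : ℂˣ), η ^ (2 * N) = 1 →
      ∀ z, unramChar v η z ^ (2 * N) = 1 := fun v η hη z => by
    rw [unramChar_apply, ← zpow_natCast, ← zpow_mul, mul_comm, zpow_mul, zpow_natCast, hη, one_zpow]
  have hsq : (ζ ^ 2) ^ N = 1 := hζ2.pow_eq_one
  have hχ : ∀ v, IsOpen ((χ v).ker : Set (v.adicCompletion K)ˣ) ∧
      ∀ z, χ v z ^ (2 * N) = 1 := fun v => by
    rcases eq_or_ne v u with rfl | h
    · rw [show χ v = unramChar v ζ from Function.update_self _ _ _]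
      exact ⟨isOpen_ker_unramChar _ _, hroot v ζ hζ.pow_eq_one⟩
    · rw [show χ v = unramChar v (ζ ^ 2) from Function.update_of_ne h _ _]
      exact ⟨isOpen_ker_unramChar _ _, hroot v _ (by rw [mul_comm, pow_mul, hsq, one_pow])⟩
  have hψn : ∀ (w : InfinitePlace K) z, signHom w z ^ (2 * N) = 1 := fun w z => by
    rw [pow_mul, signHom_sq, one_pow]
  obtain ⟨Θ, hopen, hp, hΘn, hΘS, hΘw⟩ := exists_character (S := insert u S₂) (χ := χ)
    (ψ := fun w => signHom w) (Nat.pos_of_ne_zero hn) (fun v _ => (hχ v).1) (fun v _ => (hχ v).2)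
    hψn (fun w z h => signHom_of_pos h)
    fun η hη hsub A hA => by
      have hsub' : {v : HeightOneSpectrum (𝓞 K) | NoSquares (v.adicCompletion K) η} ⊆ S₂ :=
        fun v hv => Finset.mem_coe.2 (Finset.mem_union_right _ ((Set.Finite.mem_toFinset _).2 (by
          obtain ⟨⟨s, hs, -⟩, -⟩ := hη
          exact NoSquares.two_mem hs hv)))
      rw [Finset.prod_insert huS, Finset.prod_eq_one fun v hv => ?_, mul_one, hχdef,
        Function.update_self, unramChar_apply]
      · have hord : Valued.v ((localEmb u A : (u.adicCompletion K)ˣ) : u.adicCompletion K) = 1 := by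
          obtain ⟨c, hc⟩ := (exists_pow_completion_iff hn hη u).2 fun h => huS (hsub' h)
          obtain ⟨⟨s, hs, -⟩, -⟩ := hη
          have h2 : (2 : 𝓞 K) ∉ u.asIdeal := fun h => huS
            (Finset.mem_union_right _ ((Set.Finite.mem_toFinset _).2 h))
          rw [localEmb_val, hA, wangElt, map_pow, map_pow, valued_algebraMap,
            valuation_two_add hs h2, one_pow]
        rw [hord, log_one, zpow_zero]
      · obtain ⟨⟨s, hs, -⟩, -⟩ := hη
        rw [hχS v hv, show A = Units.mk0 (2 + η) hs.two_add_ne_zero ^ N from Units.ext (by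
          simp [hA, wangElt]), map_pow, map_pow, unramChar_apply, ← zpow_natCast, ← zpow_mul,
          mul_comm, zpow_mul, zpow_natCast, hsq, one_zpow]
  obtain ⟨L, i1, i2, i3, i4, i5, hcyc, -, hL, hdeg⟩ :=
    exists_cyclic_of_character (Nat.pos_of_ne_zero hn) hopen hp hΘn
  refine ⟨L, i1, i2, i3, i4, i5, hcyc, ?_, fun v hv => ?_, fun w hr hun => ?_⟩
  · refine hdeg ⟨single u (localEmb u (unif u)), ?_⟩
    rw [hΘS u (Finset.mem_insert_self u S₂), hχdef, Function.update_self, unramChar_apply,
      valued_localEmb_unif, log_exp, zpow_neg_one, orderOf_inv, hζ.eq_orderOf]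
  · have hv₂ : v ∈ S₂ := Finset.mem_union_left _ hv
    have h : (localArtin L v).ker = (valMod v N).ker := by
      rw [← hker, ← hχS v hv₂]
      ext z
      rw [MonoidHom.mem_ker, MonoidHom.mem_ker, ← hΘS v (Finset.mem_insert_of_mem hv₂) z,
        ← artinIdele_single, ← MonoidHom.mem_ker, hL, MonoidHom.mem_ker]
    refine ⟨not_isRam_of_ker_le h.ge, fun Q hQ => ?_⟩
    rw [← range_localArtin hQ, ← Subgroup.index_ker, h, index_ker_valMod]
  · have h1 : artinIdele L (infSingle w (-1)) = 1 := by
      rw [artinIdele_apply, finprod_eq_one_of_forall_eq_one fun v => by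
        rw [finComp_infSingle, map_one], one_mul]
      refine Finset.prod_eq_one fun w' _ => ?_
      rcases eq_or_ne w' w with rfl | hne
      · rw [infComp_infSingle_self]
        exact (localArtinInf_eq_one_iff _ _).2 fun hn' => absurd hun hn'
      · rw [infComp_infSingle_of_ne hne, map_one]
    rw [← MonoidHom.mem_ker, hL, MonoidHom.mem_ker, hΘw, signHom_neg_one hr] at h1
    exact absurd (congrArg Units.val h1) (by norm_num)

end FA.BrauerInvariant

end
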