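import Fermat.Agent.BrauerTheory.Relative
import Mathlib.Algebra.Central.Matrix
import Mathlib.RingTheory.Norm.Basic

/-!
# Restriction, inflation and change of generator for cyclic algebras
-/

set_option autoImplicit false
set_option linter.style.haveILetI false

noncomputable section

universe u

open Module
open scoped TensorProduct

namespace FA.BrauerInvariant

open FA.BrauerTheory FA.CyclicAlgebra

variable {K : Type u} [Field K] {L : Type u} [Field L] [Algebra K L] [FiniteDimensional K L]
  [IsGalois K L] {σ : L ≃ₐ[K] L}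

/-- A presentation gives a homomorphism from the cyclic algebra. -/
theorem exists_algHom {a : K} (hσ : ∀ g, g ∈ Subgroup.zpowers σ) (ha : a ≠ 0) {A B : Type*}
    [Ring A] [Algebra K A] [Ring B] [Algebra K B] [Nontrivial A] [FiniteDimensional K A]
    (P : Presentation σ a A) (hA : finrank K A = finrank K L ^ 2) (Q : Presentation σ a B) :
    Nonempty (A →ₐ[K] B) := by
  let e := LinearEquiv.ofBijective P.coeff (P.coeff_bijective hσ ha hA)
  have he : ∀ c, e c = P.coeff c := fun c => rfl
  refine ⟨AlgHom.ofLinearMap (Q.coeff ∘ₗ e.symm.toLinearMap) ?_ fun x y => ?_⟩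
  · rw [← P.coeff_one, ← he, LinearMap.comp_apply, LinearEquiv.coe_coe,
      LinearEquiv.symm_apply_apply, Q.coeff_one]
  · obtain ⟨c, rfl⟩ := e.surjective x
    obtain ⟨d, rfl⟩ := e.surjective y
    rw [show e c * e d = e (Presentation.mulCoord σ a c d) from P.coeff_mul c d]
    simp only [LinearMap.comp_apply, LinearEquiv.coe_coe, LinearEquiv.symm_apply_apply,
      Q.coeff_mul]

variable {M : Type u} [Field M] [Algebra K M] {L' : Type u} [Field L'] [Algebra M L']
  [Algebra K L'] [IsScalarTower K M L'] [FiniteDimensional M L'] [IsGalois M L'] {σ' : L' ≃ₐ[M] L'}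

/-- The shift by one with the last step through `w`. -/
def shift {C : Type*} [Ring C] (g : ℕ) (w : C) : Matrix (Fin g) (Fin g) C :=
  Matrix.of fun r c => if (r : ℕ) + 1 = c then 1 else if (r : ℕ) + 1 = c + g then w else 0

theorem shift_pow {C : Type*} [Ring C] {g : ℕ} (w : C) {k : ℕ} (hk : k ≤ g) (r c : Fin g) :
    (shift g w ^ k) r c =
      if (r : ℕ) + k = c then 1 else if (r : ℕ) + k = c + g then w else 0 := by
  induction k generalizing c with
  | zero =>
    rw [pow_zero, Matrix.one_apply, add_zero]
    by_cases h : r = c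
    · rw [if_pos h, if_pos (congrArg Fin.val h)]
    · rw [if_neg h, if_neg fun h' => h (Fin.ext h'), if_neg fun h' : (r : ℕ) = c + g => by omega]
  | succ k ih =>
    rw [pow_succ, Matrix.mul_apply]
    have hr := r.isLt
    have hc := c.isLt
    by_cases h : (r : ℕ) + k < g
    · rw [Finset.sum_eq_single ⟨r + k, h⟩ (fun s _ hs => ?_) fun h' => (h' (Finset.mem_univ _)).elim]
      · rw [ih (by omega), if_pos rfl, one_mul]
        simp only [shift, Matrix.of_apply, add_assoc]
      · rw [ih (by omega), if_neg fun h' => hs (Fin.ext h'.symm), if_neg fun h' => by omega,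
          zero_mul]
    · rw [Finset.sum_eq_single ⟨r + k - g, by omega⟩ (fun s _ hs => ?_) fun h' =>
        (h' (Finset.mem_univ _)).elim]
      · rw [ih (by omega), if_neg (by simp only; omega), if_pos (by simp only; omega)]
        simp only [shift, Matrix.of_apply]
        by_cases h1 : (r : ℕ) + k - g + 1 = c
        · rw [if_pos h1, if_neg (by omega), if_pos (by omega), mul_one]
        · rw [if_neg h1, if_neg (by omega), mul_zero, if_neg (by omega), if_neg (by omega)]
      · rw [ih (by omega), if_neg fun h' => by omega,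
          if_neg fun h' => hs (Fin.ext (by simp only; omega)), zero_mul]

/-- **The restriction of a cyclic algebra**: if `L'` is generated over `M` by a copy of `L` on which
`σ'` is `σ ^ g`, the class of `(L/K, σ, a)` restricts to that of `(L'/M, σ', a)`. -/
theorem restriction_cyclicHom_general (hσ : ∀ g, g ∈ Subgroup.zpowers σ)
    (hσ' : ∀ g, g ∈ Subgroup.zpowers σ') (j : L →ₐ[K] L') {g : ℕ}
    (hg : g * finrank M L' = finrank K L) (hj : ∀ l, σ' (j l) = j ((σ ^ g) l)) (a : Kˣ) :
    restriction M (cyclicHom hσ a) = cyclicHom hσ' (Units.map (algebraMap K M).toMonoidHom a) := by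
  classical
  obtain ⟨P, hA⟩ := (exists_cyclicCSA hσ a).choose_spec
  set A := (exists_cyclicCSA hσ a).choose
  set a' := Units.map (algebraMap K M).toMonoidHom a
  obtain ⟨Q, hC⟩ := (exists_cyclicCSA hσ' a').choose_spec
  set C := (exists_cyclicCSA hσ' a').choose
  have hg0 : g ≠ 0 := fun h0 => by
    rw [h0, zero_mul] at hg
    exact (Module.finrank_pos (R := K) (M := L)).ne hg
  haveI : NeZero g := ⟨hg0⟩
  letI : Algebra K C := Algebra.compHom C (algebraMap K M)
  haveI : IsScalarTower K M C := IsScalarTower.of_algebraMap_eq fun _ => rfl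
  let fC : L' →ₐ[K] C := Q.f.restrictScalars K
  let fB : L →ₐ[K] Matrix (Fin g) (Fin g) C :=
    { toFun := fun l => Matrix.diagonal fun i => fC (j ((σ ^ (i : ℕ)) l))
      map_one' := by simp
      map_mul' := fun x y => by simp [Matrix.diagonal_mul_diagonal]
      map_zero' := by simp
      map_add' := fun x y => by simp [Matrix.diagonal_add]
      commutes' := fun c => by
        simp only [AlgEquiv.commutes, AlgHom.commutes]
        rfl }
  let S := shift g Q.u
  have hS : S ^ g = Matrix.diagonal fun _ => Q.u := by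
    refine Matrix.ext fun r c => ?_
    rw [shift_pow _ le_rfl, if_neg (by omega)]
    by_cases h : r = c
    · subst h; simp
    · rw [if_neg fun h' => h (Fin.ext (by omega)), Matrix.diagonal_apply_ne _ h]
  let R : Presentation σ (a : K) (Matrix (Fin g) (Fin g) C) :=
    { f := fB
      u := S
      conj := fun l => by
        refine Matrix.ext fun r c => ?_
        show ((S * Matrix.diagonal fun i : Fin g => fC (j ((σ ^ (i : ℕ)) l)) :
            Matrix (Fin g) (Fin g) C)) r c =
          (((Matrix.diagonal fun i : Fin g => fC (j ((σ ^ (i : ℕ)) (σ l)))) * S :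
            Matrix (Fin g) (Fin g) C)) r c
        rw [Matrix.mul_diagonal, Matrix.diagonal_mul]
        simp only [S, shift, Matrix.of_apply]
        by_cases h1 : (r : ℕ) + 1 = c
        · rw [if_pos h1, one_mul, mul_one, ← h1, pow_succ, AlgEquiv.mul_apply]
        · rw [if_neg h1]
          by_cases h2 : (r : ℕ) + 1 = c + g
          · rw [if_pos h2, ← AlgEquiv.mul_apply, ← pow_succ, h2, pow_add,
              show (σ ^ (c : ℕ) * σ ^ g) l = (σ ^ g) ((σ ^ (c : ℕ)) l) by
                rw [← pow_add, add_comm, pow_add, AlgEquiv.mul_apply], ← hj]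
            exact Q.conj _
          · rw [if_neg h2, zero_mul, mul_zero]
      pow_eq := by
        rw [← hg, pow_mul, hS, Matrix.diagonal_pow]
        show (Matrix.diagonal fun _ : Fin g => Q.u ^ finrank M L') = _
        rw [Q.pow_eq]
        rfl }
  obtain ⟨ψ⟩ := exists_algHom hσ a.ne_zero P hA R
  let Ψ : M ⊗[K] (A : Type u) →ₐ[M] Matrix (Fin g) (Fin g) C :=
    Algebra.TensorProduct.lift (Algebra.ofId M _) ψ fun m x => Algebra.commutes m (ψ x)
  haveI : IsSimpleRing (M ⊗[K] (A : Type u)) := FA.CSA.isSimpleRing_tensorProduct K M A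
  have hdim : finrank M (M ⊗[K] (A : Type u)) = finrank M (Matrix (Fin g) (Fin g) C) := by
    rw [Module.finrank_baseChange, Module.finrank_matrix, Fintype.card_fin, hA, hC, ← hg]
    ring
  exact Quotient.sound (equivalent_of_algEquiv_matrix (A := baseChangeCSA M A) (B := C) hg0
    (equivOfFinrankEq Ψ hdim))

omit M [Field M] [Algebra K M] L' [Field L'] [Algebra M L'] [Algebra K L'] [IsScalarTower K M L']
  [FiniteDimensional M L'] [IsGalois M L'] in
/-- **Change of generator**: `(L/K, σ ^ e, a ^ e) = (L/K, σ, a)`. -/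
theorem cyclicHom_pow_generator (hσ : ∀ g, g ∈ Subgroup.zpowers σ) {e : ℕ}
    (he : ∀ g, g ∈ Subgroup.zpowers (σ ^ e)) (a : Kˣ) :
    cyclicHom he (a ^ e) = cyclicHom hσ a := by
  obtain ⟨P, hA⟩ := (exists_cyclicCSA hσ a).choose_spec
  exact cyclicClass_eq he (a ^ e) (A := (exists_cyclicCSA hσ a).choose)
    { f := P.f
      u := P.u ^ e
      conj := fun x => P.pow_conj e x
      pow_eq := by
        rw [← pow_mul, mul_comm, pow_mul, P.pow_eq, ← map_pow, Units.val_pow_eq_pow_val] } hA

section Inflation

variable {E : Type u} [Field E] [Algebra K E] [FiniteDimensional K E] [IsGalois K E]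
  {τ : E ≃ₐ[K] E}

omit M [Field M] [Algebra K M] L' [Field L'] [Algebra M L'] [Algebra K L'] [IsScalarTower K M L']
  [FiniteDimensional M L'] [IsGalois M L'] in
/-- **Inflation**: if `σ` restricts to `τ` on `E ⊆ L` then `(E/K, τ, a) = (L/K, σ, a ^ [L:E])`. -/
theorem cyclicHom_inflation (hσ : ∀ g, g ∈ Subgroup.zpowers σ)
    (hτ : ∀ g, g ∈ Subgroup.zpowers τ) (i : E →ₐ[K] L) (hi : ∀ x, σ (i x) = i (τ x)) {m : ℕ}
    (hm : finrank K E * m = finrank K L) (a : Kˣ) :
    cyclicHom hτ a = cyclicHom hσ (a ^ m) := by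
  classical
  obtain ⟨P, hA⟩ := (exists_cyclicCSA hτ a).choose_spec
  set A := (exists_cyclicCSA hτ a).choose
  letI : Algebra E L := i.toRingHom.toAlgebra
  haveI : IsScalarTower K E L := IsScalarTower.of_algebraMap_eq fun c => (i.commutes c).symm
  haveI : FiniteDimensional E L := Module.Finite.of_restrictScalars_finite K E L
  have hm' : finrank E L = m := Nat.eq_of_mul_eq_mul_left Module.finrank_pos
    ((Module.finrank_mul_finrank K E L).trans hm.symm)
  have hm0 : m ≠ 0 := hm' ▸ Module.finrank_pos.ne'
  haveI : NeZero m := ⟨hm0⟩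
  let b : Basis (Fin m) E L := Module.finBasisOfFinrankEq E L hm'
  have hik : ∀ (k : ℕ) (x : E), (σ ^ k) (i x) = i ((τ ^ k) x) := fun k => by
    induction k with
    | zero => intro x; rfl
    | succ k ih => intro x; rw [pow_succ, AlgEquiv.mul_apply, hi, ih, pow_succ, AlgEquiv.mul_apply]
  have hsemi : ∀ (k : ℕ) (y : L), (σ ^ k) y = ∑ l, (τ ^ k) (b.repr y l) • (σ ^ k) (b l) := by
    intro k y
    conv_lhs => rw [← b.sum_repr y, map_sum]
    refine Finset.sum_congr rfl fun l _ => ?_
    rw [Algebra.smul_def, map_mul, Algebra.smul_def]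
    congr 1
    exact hik k _
  -- the matrices of the powers of `σ`
  let T : ℕ → Matrix (Fin m) (Fin m) E := fun k => Matrix.of fun r c => b.repr ((σ ^ k) (b c)) r
  have hT : ∀ (k : ℕ) (y : L) (r : Fin m),
      b.repr ((σ ^ k) y) r = ∑ l, T k r l * (τ ^ k) (b.repr y l) := fun k y r => by
    conv_lhs => rw [hsemi k y, map_sum, Finsupp.finsetSum_apply]
    refine Finset.sum_congr rfl fun l _ => ?_
    rw [map_smul, Finsupp.smul_apply, smul_eq_mul, mul_comm]
    rfl
  let ft : Matrix (Fin m) (Fin m) E →ₐ[K] Matrix (Fin m) (Fin m) A := P.f.mapMatrix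
  let fL : L →ₐ[K] Matrix (Fin m) (Fin m) A := ft.comp ((Algebra.leftMulMatrix b).restrictScalars K)
  let D : Matrix (Fin m) (Fin m) A := Matrix.scalar (Fin m) P.u
  have hcomm : ∀ (X : Matrix (Fin m) (Fin m) E) (k : ℕ),
      D ^ k * ft X = ft (X.map ⇑(τ ^ k)) * D ^ k := fun X k => by
    refine Matrix.ext fun r c => ?_
    rw [← map_pow, Matrix.scalar_apply, Matrix.diagonal_mul, Matrix.mul_diagonal]
    exact P.pow_conj k (X r c)
  have hTone : ∀ k, ft (T k) * D ^ k * (ft (T 1) * D) = ft (T (k + 1)) * D ^ (k + 1) := fun k => by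
    rw [← mul_assoc, mul_assoc (ft (T k)), hcomm, ← mul_assoc, ← map_mul, mul_assoc, ← pow_succ]
    congr 2
    refine Matrix.ext fun r c => ?_
    rw [Matrix.mul_apply]
    simp only [Matrix.map_apply]
    exact (hT k ((σ ^ 1) (b c)) r).symm.trans (by rw [← AlgEquiv.mul_apply, ← pow_add]; rfl)
  have hpow : ∀ k, (ft (T 1) * D) ^ k = ft (T k) * D ^ k := fun k => by
    induction k with
    | zero =>
      rw [pow_zero, pow_zero, mul_one, show T 0 = 1 from Matrix.ext fun r c => by
        simp [T, Matrix.one_apply, Finsupp.single_apply, eq_comm], map_one]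
    | succ k ih => rw [pow_succ, ih, hTone]
  let Q : Presentation σ ((a ^ m : Kˣ) : K) (Matrix (Fin m) (Fin m) A) :=
    { f := fL
      u := ft (T 1) * D
      conj := fun x => by
        show ft (T 1) * D * ft (Algebra.leftMulMatrix b x) =
          ft (Algebra.leftMulMatrix b (σ x)) * (ft (T 1) * D)
        rw [mul_assoc, ← pow_one D, hcomm, ← mul_assoc, ← mul_assoc, ← map_mul, ← map_mul]
        congr 2
        refine Matrix.ext fun r c => ?_
        rw [Matrix.mul_apply, Matrix.mul_apply]
        simp only [Matrix.map_apply, Algebra.leftMulMatrix_eq_repr_mul]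
        rw [← hT 1 (x * b c) r, pow_one, map_mul]
        conv_lhs => rw [← b.sum_repr (σ (b c)), Finset.mul_sum, map_sum, Finsupp.finsetSum_apply]
        refine Finset.sum_congr rfl fun l _ => ?_
        rw [mul_smul_comm, map_smul, Finsupp.smul_apply, smul_eq_mul, mul_comm]
        simp [T]
      pow_eq := by
        have hσn : σ ^ finrank K L = 1 := by
          rw [← IsGalois.card_aut_eq_finrank]; exact pow_card_eq_one'
        rw [hpow, show T (finrank K L) = 1 from Matrix.ext fun r c => by
          show b.repr ((σ ^ finrank K L) (b c)) r = _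
          rw [hσn]
          simp [Matrix.one_apply, Finsupp.single_apply, eq_comm], map_one, one_mul, ← hm,
          pow_mul, ← map_pow, P.pow_eq, Units.val_pow_eq_pow_val, map_pow]
        rfl }
  haveI : IsSimpleRing (Matrix (Fin m) (Fin m) A) := inferInstance
  let B : CSA.{u, u} K := { __ := AlgCat.of K (Matrix (Fin m) (Fin m) A) }
  rw [show cyclicHom hσ (a ^ m) = mk B from cyclicClass_eq hσ (a ^ m) (A := B) Q (by
    rw [Module.finrank_matrix, Fintype.card_fin, hA, ← hm]
    ring)]
  exact (mk_eq_iff.2 (equivalent_of_algEquiv_matrix (A := B) (B := A) hm0 AlgEquiv.refl)).symm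

end Inflation

end FA.BrauerInvariant

end
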