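import Fermat.Agent.BrauerInvariant.Exact

/-!
# Division algebras over number fields by their invariants

A central division algebra is determined by its invariants, every admissible family occurs, and the
degree is the least common multiple of the orders of the invariants, which are the local indices. So
the quaternion division algebras correspond to the nonempty even sets of noncomplex places.
-/

set_option autoImplicit false
set_option linter.style.haveILetI false

noncomputable section

open NumberField NumberField.InfinitePlace IsDedekindDomain Module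
open FA.BrauerTheory
open scoped Classical TensorProduct

namespace FA.BrauerInvariant

variable {K : Type} [Field K] [NumberField K]

/-- The class of a central division algebra. -/
def classOf (K : Type) [Field K] (D : Type) [DivisionRing D] [Algebra K D] [FiniteDimensional K D]
    [Algebra.IsCentral K D] : BrauerGroup.{0, 0} K :=
  mk ({ __ := AlgCat.of K D } : CSA.{0, 0} K)

theorem invAt_pow (v : HeightOneSpectrum (𝓞 K)) (x : BrauerGroup.{0, 0} K) (m : ℕ) :
    invAt v (x ^ m) = m • invAt v x := by
  rw [invAt, invAt, map_pow, ofMul_pow, map_nsmul]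

omit [NumberField K] in
theorem invAtInf_pow (w : InfinitePlace K) (x : BrauerGroup.{0, 0} K) (m : ℕ) :
    invAtInf w (x ^ m) = m • invAtInf w x := by
  unfold invAtInf
  split_ifs with hr
  · rw [map_pow, ofMul_pow, map_nsmul]
  · exact (nsmul_zero m).symm

theorem invAt_one (v : HeightOneSpectrum (𝓞 K)) : invAt v (1 : BrauerGroup.{0, 0} K) = 0 := by
  rw [invAt, map_one, ofMul_one, map_zero]

omit [NumberField K] in
theorem invAtInf_one (w : InfinitePlace K) : invAtInf w (1 : BrauerGroup.{0, 0} K) = 0 := by
  simpa using invAtInf_pow w 1 0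

/-- **The order of a class is decided by the invariants.** -/
theorem orderOf_dvd_iff (x : BrauerGroup.{0, 0} K) (m : ℕ) :
    orderOf x ∣ m ↔ (∀ v, addOrderOf (invAt v x) ∣ m) ∧ ∀ w, addOrderOf (invAtInf w x) ∣ m := by
  simp only [addOrderOf_dvd_iff_nsmul_eq_zero, ← invAt_pow, ← invAtInf_pow,
    orderOf_dvd_iff_pow_eq_one]
  exact ⟨fun h => ⟨fun v => by rw [h, invAt_one], fun w => by rw [h, invAtInf_one]⟩,
    fun h => eq_one_of_invariants h.1 h.2⟩

/-- **The order is the least common multiple of the local orders.** -/
theorem orderOf_eq_lcm (x : BrauerGroup.{0, 0} K) :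
    orderOf x = Nat.lcm ((finite_invAt x).toFinset.lcm fun v => addOrderOf (invAt v x))
      (Finset.univ.lcm fun w => addOrderOf (invAtInf w x)) := by
  refine Nat.dvd_antisymm ((orderOf_dvd_iff x _).2 ⟨fun v => ?_, fun w => ?_⟩)
    (Nat.lcm_dvd (Finset.lcm_dvd fun v _ => ((orderOf_dvd_iff x _).1 dvd_rfl).1 v)
      (Finset.lcm_dvd fun w _ => ((orderOf_dvd_iff x _).1 dvd_rfl).2 w))
  · by_cases hv : invAt v x = 0
    · rw [hv, addOrderOf_zero]
      exact one_dvd _
    · exact dvd_trans (Finset.dvd_lcm (f := fun v => addOrderOf (invAt v x))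
        ((Set.Finite.mem_toFinset _).2 hv)) (Nat.dvd_lcm_left _ _)
  · exact dvd_trans (Finset.dvd_lcm (f := fun w => addOrderOf (invAtInf w x)) (Finset.mem_univ w))
      (Nat.dvd_lcm_right _ _)

section division

variable {D : Type} [DivisionRing D] [Algebra K D] [FiniteDimensional K D] [Algebra.IsCentral K D]

theorem finrank_eq_sq : finrank K D = orderOf (classOf K D) ^ 2 := by
  obtain ⟨L, _, _, _, _, hL⟩ := exists_separable_restriction_eq_one (classOf K D)
  obtain ⟨d, -, ⟨e⟩⟩ := (restriction_eq_one_iff L _).1 hL
  obtain ⟨hd, -⟩ := dvd_finrank_of_split (D := D) e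
  rw [classOf, FA.BrauerGlobal.orderOf_eq_degree hd]
  exact hd

/-- The local index is the order of the invariant. -/
theorem local_index (v : HeightOneSpectrum (𝓞 K)) {E : Type} [DivisionRing E]
    [Algebra (v.adicCompletion K) E] [FiniteDimensional (v.adicCompletion K) E]
    [Algebra.IsCentral (v.adicCompletion K) E] {r : ℕ} (hr : r ≠ 0)
    (e : v.adicCompletion K ⊗[K] D ≃ₐ[v.adicCompletion K] Matrix (Fin r) (Fin r) E) :
    finrank (v.adicCompletion K) E = addOrderOf (invAt v (classOf K D)) ^ 2 := by
  set y := mk ({ __ := AlgCat.of (v.adicCompletion K) E } : CSA.{0, 0} (v.adicCompletion K))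
  have h : restriction (v.adicCompletion K) (classOf K D) = y := by
    rw [classOf, restriction_mk]
    exact mk_eq_iff.2 (equivalent_of_algEquiv_matrix hr e)
  obtain ⟨L, _, _, _, _, hL⟩ := exists_separable_restriction_eq_one y
  obtain ⟨d, -, ⟨e'⟩⟩ := (restriction_eq_one_iff L _).1 hL
  obtain ⟨hd, -⟩ := dvd_finrank_of_split (D := E) e'
  have hord : addOrderOf (invAt v (classOf K D)) = orderOf y := by
    rw [invAt, h, ← orderOf_ofAdd_eq_addOrderOf]
    exact (orderOf_ofAdd_eq_addOrderOf _).trans (((invariant v).addOrderOf_eq _).trans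
      (addOrderOf_ofMul_eq_orderOf y))
  rw [hord, FA.BrauerLocal.orderOf_eq_degree hd]
  exact hd

variable {D' : Type} [DivisionRing D'] [Algebra K D'] [FiniteDimensional K D']
  [Algebra.IsCentral K D']

/-- **A division algebra is determined by its invariants.** -/
theorem nonempty_algEquiv_iff :
    Nonempty (D ≃ₐ[K] D') ↔ (∀ v, invAt v (classOf K D) = invAt v (classOf K D')) ∧
      ∀ w, invAtInf w (classOf K D) = invAtInf w (classOf K D') := by
  constructor
  · rintro ⟨e⟩
    have h : classOf K D = classOf K D' := mk_eq_iff.2 (equivalent_of_algEquiv e)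
    exact ⟨fun v => by rw [h], fun w => by rw [h]⟩
  · rintro ⟨h1, h2⟩
    have h : classOf K D = classOf K D' := by
      refine div_eq_one.1 (eq_one_of_invariants (fun v => ?_) fun w => ?_)
      · have h := invAt_mul v (classOf K D / classOf K D') (classOf K D')
        rw [div_mul_cancel, h1 v, right_eq_add] at h
        exact h
      · have h := invAtInf_mul w (classOf K D / classOf K D') (classOf K D')
        rw [div_mul_cancel, h2 w, right_eq_add] at h
        exact h
    exact nonempty_algEquiv_of_mk_eq h (by
      show finrank K D = finrank K D'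
      rw [finrank_eq_sq, finrank_eq_sq (D := D'), h])

end division

/-- **Every admissible family belongs to a division algebra.** -/
theorem exists_division (r : HeightOneSpectrum (𝓞 K) → AddCircle (1 : ℚ))
    (hfin : (Function.support r).Finite) (s : InfinitePlace K → AddCircle (1 : ℚ))
    (hs : ∀ w, s w + s w = 0) (hcx : ∀ w, ¬ IsReal w → s w = 0)
    (hsum : (∑ᶠ v, r v) + ∑ w, s w = 0) :
    ∃ (D : Type) (_ : DivisionRing D) (_ : Algebra K D) (_ : FiniteDimensional K D)
      (_ : Algebra.IsCentral K D),
      (∀ v, invAt v (classOf K D) = r v) ∧ ∀ w, invAtInf w (classOf K D) = s w := by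
  obtain ⟨x, hv, hw⟩ := exists_invariants_eq r hfin s hs hcx hsum
  obtain ⟨A, rfl⟩ := Quotient.exists_rep x
  obtain ⟨D, _, _, _, _, n, hn, ⟨g⟩⟩ := exists_algEquiv_matrix_division A
  have h : classOf K D = mk A := (mk_eq_iff.2 (equivalent_of_algEquiv_matrix hn g)).symm
  exact ⟨D, inferInstance, inferInstance, inferInstance, inferInstance,
    fun v => by rw [h]; exact hv v, fun w => by rw [h]; exact hw w⟩

theorem half_order : addOrderOf ((1 / 2 : ℚ) : AddCircle (1 : ℚ)) = 2 := by
  haveI : Fact (Nat.Prime 2) := ⟨Nat.prime_two⟩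
  exact addOrderOf_eq_prime ((two_nsmul _).trans half_add_half) half_ne_zero

theorem nsmul_half_eq_zero_iff (n : ℕ) :
    n • ((1 / 2 : ℚ) : AddCircle (1 : ℚ)) = 0 ↔ Even n := by
  rw [← addOrderOf_dvd_iff_nsmul_eq_zero, half_order, even_iff_two_dvd]

/-- **Quaternion division algebras and nonempty even sets of places.** -/
theorem exists_quaternion_iff (S : Finset (HeightOneSpectrum (𝓞 K)))
    (T : Finset (InfinitePlace K)) (hT : ∀ w ∈ T, IsReal w) :
    (∃ (D : Type) (_ : DivisionRing D) (_ : Algebra K D) (_ : FiniteDimensional K D)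
      (_ : Algebra.IsCentral K D), finrank K D = 4 ∧
        (∀ v, invAt v (classOf K D) ≠ 0 ↔ v ∈ S) ∧ ∀ w, invAtInf w (classOf K D) ≠ 0 ↔ w ∈ T) ↔
      Even (S.card + T.card) ∧ (S.Nonempty ∨ T.Nonempty) := by
  set η : AddCircle (1 : ℚ) := ((1 / 2 : ℚ) : AddCircle (1 : ℚ))
  set r : HeightOneSpectrum (𝓞 K) → AddCircle (1 : ℚ) := fun v => if v ∈ S then η else 0
  set s : InfinitePlace K → AddCircle (1 : ℚ) := fun w => if w ∈ T then η else 0
  have hsum : (∑ᶠ v, r v) + ∑ w, s w = (S.card + T.card) • η := by
    rw [finsum_eq_sum_of_support_subset r (s := S) fun v hv => ?_, Finset.sum_ite_mem,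
      Finset.inter_self, Finset.sum_const, Finset.sum_ite_mem, Finset.univ_inter, Finset.sum_const,
      ← add_nsmul]
    by_contra h
    exact hv (if_neg h)
  constructor
  · rintro ⟨D, _, _, _, _, h4, hS, hT'⟩
    have h2 : orderOf (classOf K D) = 2 := Nat.pow_left_injective two_ne_zero
      (show orderOf (classOf K D) ^ 2 = 2 ^ 2 by rw [← finrank_eq_sq, h4])
    obtain ⟨hv2, hw2⟩ := (orderOf_dvd_iff (classOf K D) 2).1 h2.dvd
    have hr : ∀ v, invAt v (classOf K D) = r v := fun v => by
      by_cases hv : v ∈ S
      · exact (eq_half_of_add_self ((two_nsmul _).symm.trans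
          (addOrderOf_dvd_iff_nsmul_eq_zero.1 (hv2 v))) ((hS v).2 hv)).trans (if_pos hv).symm
      · exact (not_not.1 (mt (hS v).1 hv)).trans (if_neg hv).symm
    have hs : ∀ w, invAtInf w (classOf K D) = s w := fun w => by
      by_cases hw : w ∈ T
      · exact (eq_half_of_add_self ((two_nsmul _).symm.trans
          (addOrderOf_dvd_iff_nsmul_eq_zero.1 (hw2 w))) ((hT' w).2 hw)).trans (if_pos hw).symm
      · exact (not_not.1 (mt (hT' w).1 hw)).trans (if_neg hw).symm
    refine ⟨?_, ?_⟩
    · rw [← nsmul_half_eq_zero_iff, ← hsum]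
      simpa only [hr, hs] using sum_invariants (classOf K D)
    · by_contra! hne
      have h1 : classOf K D = 1 := eq_one_of_invariants
        (fun v => by rw [hr]; exact if_neg (by simp [hne.1]))
        (fun w => by rw [hs]; exact if_neg (by simp [hne.2]))
      rw [h1, orderOf_one] at h2
      exact absurd h2 (by norm_num)
  · rintro ⟨he, hne⟩
    obtain ⟨D, _, _, _, _, hr, hs⟩ := exists_division r
      (S.finite_toSet.subset fun v hv => by by_contra h; exact hv (if_neg h)) s
      (fun w => by
        simp only [s]
        split_ifs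
        · exact half_add_half
        · exact add_zero _)
      (fun w hw => if_neg fun h => hw (hT w h))
      (hsum.trans ((nsmul_half_eq_zero_iff _).2 he))
    have hηne : η ≠ 0 := half_ne_zero
    refine ⟨D, inferInstance, inferInstance, inferInstance, inferInstance, ?_, fun v => ?_,
      fun w => ?_⟩
    · have h2 : orderOf (classOf K D) = 2 := by
        refine Nat.dvd_antisymm ((orderOf_dvd_iff _ 2).2 ⟨fun v => ?_, fun w => ?_⟩) ?_
        · rw [hr]; simp only [r]; split_ifs
          · exact half_order.dvd
          · rw [addOrderOf_zero]; exact one_dvd _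
        · rw [hs]; simp only [s]; split_ifs
          · exact half_order.dvd
          · rw [addOrderOf_zero]; exact one_dvd _
        · obtain ⟨h1, h1'⟩ := (orderOf_dvd_iff (classOf K D) _).1 dvd_rfl
          rcases hne with ⟨v, hv⟩ | ⟨w, hw⟩
          · have h3 := h1 v
            rw [hr, show r v = η from if_pos hv, half_order] at h3
            exact h3
          · have h3 := h1' w
            rw [hs, show s w = η from if_pos hw, half_order] at h3
            exact h3
      rw [finrank_eq_sq, h2]; norm_num
    · rw [hr]; simp only [r]; split_ifs with h <;> simp [h, hηne]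
    · rw [hs]; simp only [s]; split_ifs with h <;> simp [h, hηne]

end FA.BrauerInvariant

end
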