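import Fermat.Agent.BrauerInvariant.Algebra
import Fermat.Agent.NormResidue.Functorial
import Mathlib.FieldTheory.Normal.Closure
import Mathlib.FieldTheory.IsAlgClosed.AlgebraicClosure

/-!
# A cyclic extension over a larger number field

The compositum of a cyclic extension with a number field is cyclic, unramified where the extension
was, and its Frobenius elements restrict to powers of those below.
-/

set_option autoImplicit false
set_option linter.style.haveILetI false

noncomputable section

open NumberField IsDedekindDomain Module IsMulCommutative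
open FA.ArtinRec FA.BrauerTheory
open scoped Pointwise

namespace FA.BrauerInvariant

variable {K : Type} [Field K] [NumberField K] {L : Type} [Field L] [NumberField L] [Algebra K L]
  [IsGalois K L] {σ : L ≃ₐ[K] L} {F : Type} [Field F] [NumberField F] [Algebra K F]

variable (F) in
/-- **The compositum.** -/
theorem exists_compositum (hσ : ∀ g, g ∈ Subgroup.zpowers σ) :
    ∃ (L' : Type) (_ : Field L') (_ : NumberField L') (_ : Algebra F L') (_ : Algebra L L')
      (_ : Algebra K L') (_ : IsScalarTower K F L') (_ : IsScalarTower K L L') (_ : IsGalois F L')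
      (_ : IsMulCommutative (L' ≃ₐ[F] L')) (σ' : L' ≃ₐ[F] L')
      (_ : ∀ t, t ∈ Subgroup.zpowers σ') (g : ℕ) (r : (L' ≃ₐ[F] L') →* (L ≃ₐ[K] L)),
      g * finrank F L' = finrank K L ∧ r σ' = σ ^ g ∧ Function.Injective r ∧
        ∀ τ l, algebraMap L L' (r τ l) = τ (algebraMap L L' l) := by
  classical
  let Ω := AlgebraicClosure F
  haveI : Algebra.IsAlgebraic F Ω := AlgebraicClosure.isAlgebraic F
  let j₀ : L →ₐ[K] Ω := IsAlgClosed.lift
  set L' : IntermediateField F Ω := IntermediateField.adjoin F (Set.range j₀) with hL'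
  haveI : FiniteDimensional F L' := by
    obtain ⟨s, hs⟩ := (inferInstance : FiniteDimensional K L).fg_top
    have hsub : L' ≤ IntermediateField.adjoin F (j₀ '' (s : Set L)) := by
      refine IntermediateField.adjoin_le_iff.2 ?_
      rintro _ ⟨l, rfl⟩
      have hl : l ∈ Submodule.span K (s : Set L) := hs ▸ Submodule.mem_top
      induction hl using Submodule.span_induction with
      | mem x hx => exact IntermediateField.subset_adjoin F _ ⟨x, hx, rfl⟩
      | zero => rw [map_zero]; exact zero_mem _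
      | add x y _ _ hx hy => rw [map_add]; exact add_mem hx hy
      | smul c x _ hx =>
        rw [Algebra.smul_def, map_mul, AlgHom.commutes, IsScalarTower.algebraMap_apply K F Ω]
        exact mul_mem (IntermediateField.algebraMap_mem _ _) hx
    haveI : Finite (j₀ '' (s : Set L)) := (s.finite_toSet.image _).to_subtype
    haveI : FiniteDimensional F (IntermediateField.adjoin F (j₀ '' (s : Set L))) :=
      IntermediateField.finiteDimensional_adjoin fun x _ => Algebra.IsIntegral.isIntegral x
    exact FiniteDimensional.of_injective (IntermediateField.inclusion hsub).toLinearMap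
      (IntermediateField.inclusion hsub).injective
  haveI : Normal F L' := IntermediateField.normal_iff_forall_map_le.2 fun τ => by
    rw [IntermediateField.adjoin_map]
    refine IntermediateField.adjoin.mono F _ _ ?_
    rintro _ ⟨_, ⟨l, rfl⟩, rfl⟩
    have hroot : τ (j₀ l) ∈ ((minpoly K l).rootSet Ω) := by
      refine Polynomial.mem_rootSet.2 ⟨minpoly.ne_zero (Algebra.IsIntegral.isIntegral l), ?_⟩
      show Polynomial.aeval (((τ.restrictScalars K).comp j₀) l) (minpoly K l) = 0
      rw [Polynomial.aeval_algHom_apply, minpoly.aeval, map_zero]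
    obtain ⟨y, hy⟩ : ∃ y : L, j₀ y = τ (j₀ l) := by
      have hspl : ((minpoly K l).map (algebraMap K L)).Splits := Normal.splits inferInstance l
      rw [← hspl.image_rootSet j₀] at hroot
      obtain ⟨y, -, hy⟩ := hroot
      exact ⟨y, hy⟩
    exact ⟨y, hy⟩
  haveI : IsGalois F L' := ⟨⟩
  haveI : NumberField L' := NumberField.of_module_finite F L'
  let j : L →ₐ[K] L' := AlgHom.codRestrict j₀ (L'.toSubalgebra.restrictScalars K)
    fun l => IntermediateField.subset_adjoin F _ ⟨l, rfl⟩
  letI : Algebra L L' := j.toRingHom.toAlgebra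
  haveI : IsScalarTower K L L' := IsScalarTower.of_algebraMap_eq fun c => (j.commutes c).symm
  let r : (L' ≃ₐ[F] L') →* (L ≃ₐ[K] L) :=
    (AlgEquiv.restrictNormalHom (F := K) (K₁ := L') L).comp
      { toFun := fun τ => τ.restrictScalars K, map_one' := rfl, map_mul' := fun _ _ => rfl }
  have hr : ∀ τ l, algebraMap L L' (r τ l) = τ (algebraMap L L' l) := fun τ l =>
    AlgEquiv.restrictNormal_commutes (τ.restrictScalars K) L l
  have hinj : Function.Injective r := by
    refine (injective_iff_map_eq_one _).2 fun τ hτ => ?_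
    have hfix : ∀ z : Ω, ∀ hz : z ∈ L', (τ ⟨z, hz⟩ : Ω) = z := fun z hz => by
      induction hz using IntermediateField.adjoin_induction with
      | mem x hx =>
        obtain ⟨l, rfl⟩ := hx
        have h := hr τ l
        rw [hτ, AlgEquiv.one_apply] at h
        exact (congrArg Subtype.val h).symm
      | algebraMap c => exact congrArg Subtype.val (τ.commutes c)
      | add x y hx hy hx' hy' =>
        rw [show (⟨x + y, add_mem hx hy⟩ : L') = ⟨x, hx⟩ + ⟨y, hy⟩ from rfl, map_add]
        exact congrArg₂ (· + ·) hx' hy'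
      | inv x hx hx' =>
        rw [show (⟨x⁻¹, inv_mem hx⟩ : L') = (⟨x, hx⟩ : L')⁻¹ from rfl, map_inv₀]
        exact congrArg (·⁻¹) hx'
      | mul x y hx hy hx' hy' =>
        rw [show (⟨x * y, mul_mem hx hy⟩ : L') = ⟨x, hx⟩ * ⟨y, hy⟩ from rfl, map_mul]
        exact congrArg₂ (· * ·) hx' hy'
    exact AlgEquiv.ext fun z => Subtype.ext (hfix z.1 z.2)
  haveI : IsCyclic (L ≃ₐ[K] L) := ⟨⟨σ, hσ⟩⟩
  haveI : IsMulCommutative (L ≃ₐ[K] L) := IsCyclic.isMulCommutative
  haveI : IsCyclic (L' ≃ₐ[F] L') := isCyclic_of_injective r hinj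
  set g := r.range.index
  haveI : r.range.Normal := ⟨fun a ha b => by rwa [mul_comm b a, mul_inv_cancel_right]⟩
  obtain ⟨σ', hσ'⟩ : σ ^ g ∈ r.range := r.range.pow_index_mem σ
  have hcard : g * finrank F L' = finrank K L := by
    rw [← IsGalois.card_aut_eq_finrank, ← IsGalois.card_aut_eq_finrank,
      Nat.card_congr (MonoidHom.ofInjective hinj).toEquiv, mul_comm, r.range.card_mul_index]
  refine ⟨L', inferInstance, inferInstance, inferInstance, inferInstance, inferInstance,
    inferInstance, inferInstance, inferInstance, IsCyclic.isMulCommutative, σ', ?_, g, r, hcard,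
    hσ', hinj, hr⟩
  have hg0 : g ≠ 0 := Subgroup.index_ne_zero_of_finite
  have hord : orderOf σ' = Nat.card (L' ≃ₐ[F] L') := by
    rw [← orderOf_injective r hinj, hσ', orderOf_pow_of_dvd hg0 (by
      rw [orderOf_eq_card_of_forall_mem_zpowers hσ, IsGalois.card_aut_eq_finrank, ← hcard]
      exact dvd_mul_right _ _), orderOf_eq_card_of_forall_mem_zpowers hσ,
      IsGalois.card_aut_eq_finrank, ← hcard, Nat.mul_div_cancel_left _ (Nat.pos_of_ne_zero hg0),
      IsGalois.card_aut_eq_finrank]
  exact fun t => (Subgroup.eq_top_of_card_eq _ ((Nat.card_zpowers σ').trans hord)).symm ▸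
    Subgroup.mem_top t

variable {L' : Type} [Field L'] [NumberField L'] [Algebra F L'] [Algebra L L'] [Algebra K L']
  [IsScalarTower K F L'] [IsScalarTower K L L'] [IsGalois F L'] [IsMulCommutative (L' ≃ₐ[F] L')]
  [IsMulCommutative (L ≃ₐ[K] L)]
  {r : (L' ≃ₐ[F] L') →* (L ≃ₐ[K] L)}

omit [IsMulCommutative (L' ≃ₐ[F] L')] in
/-- **Unramified primes stay unramified and their Frobenius elements restrict to powers.** -/
theorem frob_compositum (hr : ∀ τ l, algebraMap L L' (r τ l) = τ (algebraMap L L' l))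
    (hinj : Function.Injective r) {w : HeightOneSpectrum (𝓞 F)}
    (hv : ¬ IsRam L (belowP K w)) :
    ¬ IsRam L' w ∧ r (artinAt L' w) = artinAt L (belowP K w) ^ w.asIdeal.inertiaDeg (𝓞 K) := by
  have hsmul : ∀ (τ : L' ≃ₐ[F] L') (y : 𝓞 L),
      algebraMap (𝓞 L) (𝓞 L') (r τ • y) = τ • algebraMap (𝓞 L) (𝓞 L') y := fun τ y =>
    RingOfIntegers.ext (hr τ y)
  have hmem : ∀ (P : HeightOneSpectrum (𝓞 L')) (z : 𝓞 L),
      algebraMap (𝓞 L) (𝓞 L') z ∈ P.asIdeal → z ∈ (belowP L P).asIdeal := fun _ _ h => h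
  have hbelow : ∀ P : HeightOneSpectrum (𝓞 L'), belowP F P = w →
      belowP K (belowP L P) = belowP K w := fun P hP => by
    rw [← hP]
    exact HeightOneSpectrum.ext ((Ideal.under_under P.asIdeal).trans
      (Ideal.under_under P.asIdeal).symm)
  refine ⟨fun ⟨P, hP, hne⟩ => hne ((Subgroup.eq_bot_iff_forall _).2 fun τ hτ => hinj ?_), ?_⟩
  · have h : r τ ∈ (belowP L P).asIdeal.inertia (L ≃ₐ[K] L) := fun y => hmem P _ (by
      rw [map_sub, hsmul]
      exact hτ _)
    rw [inertia_eq_bot hv (hbelow P hP), Subgroup.mem_bot] at h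
    rw [h, map_one]
  obtain ⟨P, hP, hτ⟩ := artinAt_spec (L := L') w
  set Q := belowP L P
  set a := artinAt L (belowP K w)
  have hQ : belowP K Q = belowP K w := hbelow P hP
  have ha : IsArithFrobAt (𝓞 K) a Q.asIdeal := by
    obtain ⟨t, ht⟩ := exists_frob (K := K) Q
    rwa [artinAt_eq hv hQ ht] at ht
  set q := Nat.card (𝓞 K ⧸ Q.asIdeal.under (𝓞 K))
  have hiter : ∀ (i : ℕ) (y : 𝓞 L), a ^ i • y - y ^ q ^ i ∈ Q.asIdeal := by
    intro i
    induction i with
    | zero => intro y; simp
    | succ i ih =>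
      intro y
      rw [pow_succ' a, mul_smul, show a • a ^ i • y - y ^ q ^ (i + 1) =
        (a • (a ^ i • y) - (a ^ i • y) ^ q) + ((a ^ i • y) ^ q - (y ^ q ^ i) ^ q) by
          rw [← pow_mul, ← pow_succ]; ring]
      exact add_mem (ha _) (Ideal.mem_of_dvd _ (sub_dvd_pow_sub_pow _ _ q) (ih y))
  set f := w.asIdeal.inertiaDeg (𝓞 K)
  have hcard : Nat.card (𝓞 F ⧸ P.asIdeal.under (𝓞 F)) = q ^ f := by
    have hw : P.asIdeal.under (𝓞 F) = w.asIdeal := congrArg HeightOneSpectrum.asIdeal hP
    have hv' : Q.asIdeal.under (𝓞 K) = (belowP K w).asIdeal :=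
      congrArg HeightOneSpectrum.asIdeal hQ
    haveI : w.asIdeal.LiesOver (belowP K w).asIdeal := ⟨rfl⟩
    haveI := w.isMaximal
    haveI := (belowP K w).isMaximal
    haveI : Finite (𝓞 K ⧸ (belowP K w).asIdeal) :=
      Ideal.finiteQuotientOfFreeOfNeBot _ (belowP K w).ne_bot
    simp only [q, hw, hv', f, Ideal.inertiaDeg_eq_of_isMaximal (belowP K w).asIdeal w.asIdeal]
    letI := Ideal.Quotient.field (belowP K w).asIdeal
    exact Module.natCard_eq_pow_finrank
  rw [← mul_inv_eq_one, ← Subgroup.mem_bot, ← inertia_eq_bot hv hQ]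
  intro z
  set y := (a ^ f)⁻¹ • z
  rw [show (r (artinAt L' w) * (a ^ f)⁻¹) • z - z =
    (r (artinAt L' w) • y - y ^ q ^ f) - (a ^ f • y - y ^ q ^ f) by
      rw [mul_smul, smul_inv_smul]; ring]
  refine sub_mem (hmem P _ ?_) (hiter f y)
  rw [map_sub, map_pow, hsmul, ← hcard]
  exact hτ _

end FA.BrauerInvariant

end
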