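import Fermat.Agent.BrauerInvariant.Sum
import Fermat.Agent.Ideles.Compare

/-!
# Every family of invariants with sum zero comes from a global class

In the adapted cyclic extension the prescribed symbols are those of an idele with trivial Artin
symbol; such an idele is a principal one times local norms, and the element has the symbols.
-/

set_option autoImplicit false
set_option linter.style.haveILetI false

noncomputable section

open NumberField NumberField.InfinitePlace NumberField.InfinitePlace.Completion IsDedekindDomain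
open Module IsMulCommutative
open FA.ArtinRec FA.Ideles FA.LocalCFT FA.NormResidue FA.BrauerTheory FA.BrauerLocal
open scoped Pointwise Classical

namespace FA.BrauerInvariant

/-- An element of `ℚ / ℤ` is a fraction with any multiple of its order as denominator. -/
theorem exists_eq_coe_div (r : AddCircle (1 : ℚ)) :
    ∃ d : ℕ, d ≠ 0 ∧ ∀ N : ℕ, N ≠ 0 → d ∣ N →
      ∃ j : ℤ, r = (((j : ℚ) / N : ℚ) : AddCircle (1 : ℚ)) := by
  obtain ⟨q, rfl⟩ := QuotientAddGroup.mk_surjective r
  refine ⟨q.den, q.den_nz, fun N hN ⟨m, hm⟩ => ⟨q.num * m, congrArg _ ?_⟩⟩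
  subst hm
  have hm0 : (m : ℚ) ≠ 0 := Nat.cast_ne_zero.2 fun h => hN (by rw [h, mul_zero])
  push_cast
  rw [mul_div_mul_right _ _ hm0, Rat.num_div_den]

/-- The only element of order two of `ℚ / ℤ` is `1 / 2`. -/
theorem eq_half_of_add_self {s : AddCircle (1 : ℚ)} (h : s + s = 0) (hne : s ≠ 0) :
    s = ((1 / 2 : ℚ) : AddCircle (1 : ℚ)) := by
  obtain ⟨q, rfl⟩ := QuotientAddGroup.mk_surjective s
  obtain ⟨j, hj⟩ := AddSubgroup.mem_zmultiples_iff.1 ((QuotientAddGroup.eq_zero_iff _).1
    ((QuotientAddGroup.mk_add _ q q).trans h))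
  have hq : q = ((j : ℚ)) / ((2 : ℕ) : ℚ) := by
    rw [zsmul_one] at hj
    push_cast
    linarith
  subst hq
  rw [show (1 / 2 : ℚ) = ((1 : ℤ) : ℚ) / ((2 : ℕ) : ℚ) by norm_num]
  have hj' : ¬ ((2 : ℕ) : ℤ) ∣ j := fun hd => hne ((coe_div_eq_zero_iff two_ne_zero).2 hd)
  refine (coe_div_eq_iff two_ne_zero two_ne_zero).2 ?_
  push_cast at hj' ⊢
  omega

variable {K : Type} [Field K] [NumberField K]

theorem genChar_eq_one_iff {L : Type} [Field L] [NumberField L] [Algebra K L] [IsGalois K L]
    {σ : L ≃ₐ[K] L} (hσ : ∀ g, g ∈ Subgroup.zpowers σ) {g : L ≃ₐ[K] L} :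
    (genChar hσ g).toAdd = 0 ↔ g = 1 := by
  obtain ⟨i, rfl⟩ := Subgroup.mem_zpowers_iff.1 (hσ g)
  rw [genChar_zpow, coe_div_eq_zero_iff Module.finrank_pos.ne', ← orderOf_dvd_iff_zpow_eq_one,
    orderOf_eq_card_of_forall_mem_zpowers hσ, IsGalois.card_aut_eq_finrank]

/-- **Every family of invariants with sum zero is attained.** -/
theorem exists_invariants_eq (r : HeightOneSpectrum (𝓞 K) → AddCircle (1 : ℚ))
    (hfin : (Function.support r).Finite) (s : InfinitePlace K → AddCircle (1 : ℚ))
    (hs : ∀ w, s w + s w = 0) (hcx : ∀ w, ¬ IsReal w → s w = 0)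
    (hsum : (∑ᶠ v, r v) + ∑ w, s w = 0) :
    ∃ x : BrauerGroup.{0, 0} K, (∀ v, invAt v x = r v) ∧ ∀ w, invAtInf w x = s w := by
  set S := hfin.toFinset
  choose d hd0 hd using fun v => exists_eq_coe_div (r v)
  set N := ∏ v ∈ S, d v
  have hN : N ≠ 0 := Finset.prod_ne_zero_iff.2 fun v _ => hd0 v
  obtain ⟨L, _, _, _, _, _, hcyc, hdeg, hS, hreal⟩ := exists_adapted S hN
  obtain ⟨σ, hσ⟩ := IsCyclic.exists_generator (α := L ≃ₐ[K] L)
  set Λ := genChar hσ
  -- the finite components
  have hfinite : ∀ v, ∃ z : (v.adicCompletion K)ˣ,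
      (v ∈ S → (Λ (localArtin L v z)).toAdd = r v) ∧ (v ∉ S → z = 1) := fun v => by
    by_cases hv : v ∈ S
    swap
    · exact ⟨1, fun h => absurd h hv, fun _ => rfl⟩
    obtain ⟨j, hj⟩ := hd v N hN (Finset.dvd_prod_of_mem d hv)
    obtain ⟨Q, rfl⟩ := exists_belowP K L v
    obtain ⟨g, δ, -, hgdeg, hδ, -, -⟩ := exists_restriction_completion hσ Q
    rw [finrank_above, (hS _ hv).2 Q rfl, hdeg] at hgdeg
    obtain rfl : g = 2 := Nat.eq_of_mul_eq_mul_right (Nat.pos_of_ne_zero hN) hgdeg
    obtain ⟨z, hz⟩ : σ ^ (2 * j) ∈ (localArtin L (belowP K Q)).range := by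
      rw [range_localArtin (Q := Q) rfl, zpow_mul, zpow_ofNat, ← hδ]
      exact zpow_mem δ.2 j
    refine ⟨z, fun _ => ?_, fun h => absurd hv h⟩
    rw [hz, genChar_zpow, hj, hdeg]
    congr 1
    push_cast
    rw [mul_div_mul_left _ _ (two_ne_zero (α := ℚ))]
  choose z hz hz' using hfinite
  -- the infinite components
  have hinf : ∀ w, ∃ t : w.Completionˣ, (Λ (localArtinInf L w t)).toAdd = s w := fun w => by
    by_cases h0 : s w = 0
    · exact ⟨1, by rw [map_one, map_one, toAdd_one, h0]⟩
    have hr : IsReal w := not_not.1 fun hr => h0 (hcx w hr)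
    refine ⟨Units.map (algebraMap K w.Completion : K →* w.Completion) (-1), ?_⟩
    rw [localArtinInf_coe, eq_pow_half hσ (h := N) (hdeg.trans (mul_comm 2 N))
      (d := infSymbol L w (-1)) (by rw [← map_pow, neg_one_sq, map_one])
      (fun h => ((infSymbol_neg_one_eq_one_iff w).1 h).elim (hreal w hr) fun h' => h' hr),
      ← zpow_natCast, genChar_zpow, hdeg, eq_half_of_add_self (hs w) h0]
    congr 1
    have hN' : (N : ℚ) ≠ 0 := Nat.cast_ne_zero.2 hN
    push_cast
    field_simp
  choose t ht using hinf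
  -- the idele
  set X : Idele K := (∏ v ∈ S, single v (z v)) * ∏ w : InfinitePlace K, infSingle w (t w)
  have hXv : ∀ v, finComp v X = z v := fun v => by
    rw [map_mul, map_prod, map_prod, Finset.prod_eq_one (s := (Finset.univ : Finset (InfinitePlace K)))
      fun w _ => finComp_infSingle _ _ _, mul_one]
    by_cases hv : v ∈ S
    · rw [Finset.prod_eq_single_of_mem v hv fun u _ hne => finComp_single_of_ne hne.symm _,
        finComp_single_self]
    · rw [hz' v hv]
      exact Finset.prod_eq_one fun u hu =>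
        finComp_single_of_ne (fun h : v = u => hv (h ▸ hu)) _
  have hXw : ∀ w, infComp w X = t w := fun w => by
    rw [map_mul, map_prod, map_prod, Finset.prod_eq_one (s := S) fun v _ => infComp_single _ _ _,
      one_mul, Finset.prod_eq_single_of_mem w (Finset.mem_univ w)
        fun u _ hne => infComp_infSingle_of_ne hne.symm _, infComp_infSingle_self]
  have hsupp : (Function.mulSupport fun v => localArtin L v (finComp v X)) ⊆ S := fun v hv => by
    by_contra h
    exact hv (by simp [hXv, hz' v h])
  have hX : artinIdele L X = 1 := by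
    rw [← genChar_eq_one_iff hσ, artinIdele_apply,
      finprod_eq_prod_of_mulSupport_subset _ hsupp, map_mul, toAdd_mul, map_prod (genChar hσ),
      map_prod (genChar hσ),
      toAdd_prod, toAdd_prod]
    rw [← hsum, finsum_eq_sum_of_support_subset r (Set.Finite.coe_toFinset hfin).ge]
    congr 1
    · exact Finset.sum_congr rfl fun v hv => by rw [hXv]; exact hz v hv
    · exact Finset.sum_congr rfl fun w _ => by rw [hXw]; exact ht w
  rw [← MonoidHom.mem_ker, ker_artinIdele, Subgroup.mem_sup] at hX
  obtain ⟨_, ⟨a, rfl⟩, m, hm, ham⟩ := hX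
  rw [mem_normSub] at hm
  have hav : ∀ v, normSymbol L v a = localArtin L v (z v) := fun v => by
    rw [← hXv, ← ham, map_mul, map_mul, hm.1, mul_one, finComp_principal, localArtin_localEmb]
  have haw : ∀ w, infSymbol L w a = localArtinInf L w (t w) := fun w => by
    rw [← hXw, ← ham, map_mul, map_mul, hm.2, mul_one, infComp_principal, localArtinInf_coe]
  refine ⟨cyclicHom hσ a, fun v => ?_, fun w => ?_⟩
  · by_cases hv : v ∈ S
    · rw [invAt_cyclicHom hσ a (hS v hv).1, hav]
      exact hz v hv
    · have h1 : normSymbol L v a = 1 := by rw [hav, hz' v hv, map_one]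
      rw [invAt, (restriction_eq_one_iff_normSymbol hσ a v).2 h1, ofMul_one, map_zero]
      exact (by simpa [S] using hv : r v = 0).symm
  · rw [invAtInf_cyclicHom hσ a (hdeg.trans (mul_comm 2 N)) w (hreal w), haw]
    exact ht w

theorem invariantReal_add_self (x : Additive (BrauerGroup.{0, 0} ℝ)) :
    invariantReal x + invariantReal x = 0 := by
  rw [← map_add]
  have h : x + x = 0 := Additive.toMul.injective (by
    show x.toMul * x.toMul = 1
    rw [← sq, ← FA.Summary.brauerGroup_real]
    exact pow_card_eq_one')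
  rw [h, map_zero]

omit [NumberField K] in
/-- The invariant at an infinite place is killed by `2` and vanishes at the complex ones. -/
theorem invAtInf_facts (w : InfinitePlace K) (x : BrauerGroup.{0, 0} K) :
    invAtInf w x + invAtInf w x = 0 ∧ (¬ IsReal w → invAtInf w x = 0) := by
  unfold invAtInf
  split_ifs with hr
  · exact ⟨invariantReal_add_self _, fun h => absurd hr h⟩
  · exact ⟨add_zero _, fun _ => rfl⟩

theorem invAt_mul (v : HeightOneSpectrum (𝓞 K)) (x y : BrauerGroup.{0, 0} K) :
    invAt v (x * y) = invAt v x + invAt v y := by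
  rw [invAt, map_mul, ofMul_mul, map_add]
  rfl

omit [NumberField K] in
theorem invAtInf_mul (w : InfinitePlace K) (x y : BrauerGroup.{0, 0} K) :
    invAtInf w (x * y) = invAtInf w x + invAtInf w y := by
  unfold invAtInf
  split_ifs with hr
  · rw [map_mul, ofMul_mul, map_add]
  · exact (add_zero _).symm

/-- **The exact sequence**: a family of invariants is that of exactly one class if and only if it is
finitely supported, of order at most two at the real places, zero at the complex ones, and has sum
zero. -/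
theorem existsUnique_iff (r : HeightOneSpectrum (𝓞 K) → AddCircle (1 : ℚ))
    (s : InfinitePlace K → AddCircle (1 : ℚ)) :
    (∃! x : BrauerGroup.{0, 0} K, (∀ v, invAt v x = r v) ∧ ∀ w, invAtInf w x = s w) ↔
      (Function.support r).Finite ∧ (∀ w, s w + s w = 0) ∧ (∀ w, ¬ IsReal w → s w = 0) ∧
        (∑ᶠ v, r v) + ∑ w, s w = 0 := by
  constructor
  · rintro ⟨x, ⟨hv, hw⟩, -⟩
    obtain rfl : r = fun v => invAt v x := funext fun v => (hv v).symm
    obtain rfl : s = fun w => invAtInf w x := funext fun w => (hw w).symm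
    exact ⟨finite_invAt x, fun w => (invAtInf_facts w x).1, fun w => (invAtInf_facts w x).2,
      sum_invariants x⟩
  · rintro ⟨h1, h2, h3, h4⟩
    obtain ⟨x, hv, hw⟩ := exists_invariants_eq r h1 s h2 h3 h4
    refine ⟨x, ⟨hv, hw⟩, fun y hy => ?_⟩
    refine div_eq_one.1 (eq_one_of_invariants (fun v => ?_) fun w => ?_)
    · have h := invAt_mul v (y / x) x
      rw [div_mul_cancel, hy.1 v, hv v, right_eq_add] at h
      exact h
    · have h := invAtInf_mul w (y / x) x
      rw [div_mul_cancel, hy.2 w, hw w, right_eq_add] at h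
      exact h

end FA.BrauerInvariant

end
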