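import Fermat.Agent.BrauerInvariant.Algebra
import Fermat.Agent.BrauerInvariant.Unramified
import Fermat.Agent.BrauerLocal.Invariant
import Fermat.Agent.Root.SummarySkolemNoether
import Mathlib.Topology.Instances.AddCircle.Defs

/-!
# The invariant map

A class over a completion is `(E, Frob, a)` with `E` unramified of degree `n`; its invariant is
`ord a / n` modulo `1`. This does not depend on the choices and is an isomorphism onto `ℚ / ℤ`.
-/

set_option autoImplicit false
set_option linter.style.haveILetI false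

noncomputable section

open NumberField NumberField.InfinitePlace IsDedekindDomain Module
open FA.BrauerTheory FA.LocalCFT FA.BrauerLocal
open scoped Classical

namespace FA.BrauerInvariant

variable {K : Type} [Field K] [NumberField K] (v : HeightOneSpectrum (𝓞 K))

/-- **The defining property of the invariant.** -/
def HasInvariant (x : BrauerGroup.{0, 0} (v.adicCompletion K)) (r : AddCircle (1 : ℚ)) : Prop :=
  ∃ (E : Type) (_ : Field E) (_ : Algebra (v.adicCompletion K) E)
    (_ : FiniteDimensional (v.adicCompletion K) E) (_ : IsGalois (v.adicCompletion K) E)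
    (σ : E ≃ₐ[v.adicCompletion K] E) (hσ : ∀ g, g ∈ Subgroup.zpowers σ)
    (a : (v.adicCompletion K)ˣ),
    IsUnramified v E ∧ IsFrobenius v σ ∧ cyclicHom hσ a = x ∧
      r = (((locOrd v a : ℚ) / finrank (v.adicCompletion K) E : ℚ) : AddCircle (1 : ℚ))

variable {v}

theorem coe_div_eq_iff {a b : ℤ} {n m : ℕ} (hn : n ≠ 0) (hm : m ≠ 0) :
    (((a : ℚ) / n : ℚ) : AddCircle (1 : ℚ)) = (((b : ℚ) / m : ℚ) : AddCircle (1 : ℚ)) ↔
      ((n * m : ℕ) : ℤ) ∣ a * m - b * n := by
  rw [QuotientAddGroup.eq_iff_sub_mem, AddSubgroup.mem_zmultiples_iff]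
  have hn' : (n : ℚ) ≠ 0 := Nat.cast_ne_zero.2 hn
  have hm' : (m : ℚ) ≠ 0 := Nat.cast_ne_zero.2 hm
  have key : ∀ j : ℤ, j • (1 : ℚ) = (a : ℚ) / n - b / m ↔ a * m - b * n = ((n * m : ℕ) : ℤ) * j :=
    fun j => by
      rw [zsmul_one, div_sub_div _ _ hn' hm', eq_div_iff (mul_ne_zero hn' hm')]
      constructor
      · intro h
        apply Int.cast_injective (α := ℚ)
        push_cast
        linarith
      · intro h
        have h' := congrArg (Int.cast : ℤ → ℚ) h
        push_cast at h'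
        linarith
  exact ⟨fun ⟨j, hj⟩ => ⟨j, (key j).1 hj⟩, fun ⟨j, hj⟩ => ⟨j, (key j).2 hj⟩⟩

theorem coe_div_eq_zero_iff {a : ℤ} {n : ℕ} (hn : n ≠ 0) :
    (((a : ℚ) / n : ℚ) : AddCircle (1 : ℚ)) = 0 ↔ (n : ℤ) ∣ a := by
  have h := coe_div_eq_iff (a := a) (b := 0) hn one_ne_zero
  simpa using h

variable {E : Type} [Field E] [Algebra (v.adicCompletion K) E]
  [FiniteDimensional (v.adicCompletion K) E] [IsGalois (v.adicCompletion K) E]
  {σ : E ≃ₐ[v.adicCompletion K] E}

/-- For an unramified extension the kernel of `a ↦ (E, σ, a)` is given by the order. -/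
theorem cyclicHom_eq_one_iff (hσ : ∀ g, g ∈ Subgroup.zpowers σ) (hE : IsUnramified v E)
    (a : (v.adicCompletion K)ˣ) :
    cyclicHom hσ a = 1 ↔ (finrank (v.adicCompletion K) E : ℤ) ∣ locOrd v a := by
  rw [← MonoidHom.mem_ker, cyclicHom_ker, ← mem_ker_valMod]
  exact SetLike.ext_iff.1 hE a

/-- Every class killed by the degree is split by an unramified extension. -/
theorem exists_cyclicHom_eq_of_pow (hσ : ∀ g, g ∈ Subgroup.zpowers σ)
    {x : BrauerGroup.{0, 0} (v.adicCompletion K)} (hx : x ^ finrank (v.adicCompletion K) E = 1) :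
    ∃ a, cyclicHom hσ a = x := by
  haveI : IsCyclic (E ≃ₐ[v.adicCompletion K] E) := ⟨⟨σ, hσ⟩⟩
  have h : x ∈ (restriction (K := v.adicCompletion K) E).ker := (mem_ker_iff E rfl x).2 hx
  rwa [← cyclicHom_range hσ] at h

variable (v) in
theorem exists_hasInvariant (x : BrauerGroup.{0, 0} (v.adicCompletion K)) :
    ∃ r, HasInvariant v x r := by
  obtain ⟨n, hn, hx⟩ := exists_pow_eq_one x
  haveI : NeZero n := ⟨hn⟩
  obtain ⟨E, _, _, _, _, σ, hE, hun, h1, h2, -⟩ := exists_unramified v n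
  obtain ⟨a, ha⟩ := exists_cyclicHom_eq_of_pow h2 (x := x) (by rwa [hE])
  exact ⟨_, E, inferInstance, inferInstance, inferInstance, inferInstance, σ, h2, a, hun, h1, ha,
    rfl⟩

/-- **The invariant does not depend on the choices.** -/
theorem HasInvariant.unique {x : BrauerGroup.{0, 0} (v.adicCompletion K)} {r r' : AddCircle (1 : ℚ)}
    (h : HasInvariant v x r) (h' : HasInvariant v x r') : r = r' := by
  obtain ⟨E₁, _, _, _, _, σ₁, hσ₁, a₁, hu₁, hf₁, ha₁, rfl⟩ := h
  obtain ⟨E₂, _, _, _, _, σ₂, hσ₂, a₂, hu₂, hf₂, ha₂, rfl⟩ := h'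
  set n₁ := finrank (v.adicCompletion K) E₁
  set n₂ := finrank (v.adicCompletion K) E₂
  have hn₁ : n₁ ≠ 0 := Module.finrank_pos.ne'
  have hn₂ : n₂ ≠ 0 := Module.finrank_pos.ne'
  haveI : NeZero (n₁ * n₂) := ⟨mul_ne_zero hn₁ hn₂⟩
  haveI : IsCyclic (E₁ ≃ₐ[v.adicCompletion K] E₁) := ⟨⟨σ₁, hσ₁⟩⟩
  haveI : IsMulCommutative (E₁ ≃ₐ[v.adicCompletion K] E₁) := IsCyclic.isMulCommutative
  haveI : IsCyclic (E₂ ≃ₐ[v.adicCompletion K] E₂) := ⟨⟨σ₂, hσ₂⟩⟩
  haveI : IsMulCommutative (E₂ ≃ₐ[v.adicCompletion K] E₂) := IsCyclic.isMulCommutative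
  obtain ⟨F, _, _, _, _, τ, hF, huF, hfF, hτ, -⟩ := exists_unramified v (n₁ * n₂)
  obtain ⟨i₁, hi₁⟩ := exists_algHom_of_dvd hu₁ huF (hF ▸ dvd_mul_right n₁ n₂) hf₁ hfF hτ
  obtain ⟨i₂, hi₂⟩ := exists_algHom_of_dvd hu₂ huF (hF ▸ dvd_mul_left n₂ n₁) hf₂ hfF hτ
  have e₁ := cyclicHom_inflation hτ hσ₁ i₁ hi₁ (m := n₂) hF.symm a₁
  have e₂ := cyclicHom_inflation hτ hσ₂ i₂ hi₂ (m := n₁) ((mul_comm _ _).trans hF.symm) a₂
  have h1 : cyclicHom hτ (a₁ ^ n₂ / a₂ ^ n₁) = 1 := by
    rw [map_div, ← e₁, ← e₂, ha₁, ha₂, div_self']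
  rw [cyclicHom_eq_one_iff hτ huF, hF, locOrd_div, locOrd_pow, locOrd_pow,
    mul_comm (n₂ : ℤ), mul_comm (n₁ : ℤ)] at h1
  exact (coe_div_eq_iff hn₁ hn₂).2 h1

variable (v)

/-- The invariant of a class. -/
def invFun (x : BrauerGroup.{0, 0} (v.adicCompletion K)) : AddCircle (1 : ℚ) :=
  (exists_hasInvariant v x).choose

variable {v}

theorem invFun_eq {x : BrauerGroup.{0, 0} (v.adicCompletion K)} {r : AddCircle (1 : ℚ)}
    (h : HasInvariant v x r) : invFun v x = r :=
  (exists_hasInvariant v x).choose_spec.unique h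

theorem invFun_cyclicHom (hσ : ∀ g, g ∈ Subgroup.zpowers σ) (hE : IsUnramified v E)
    (hfrob : IsFrobenius v σ) (a : (v.adicCompletion K)ˣ) :
    invFun v (cyclicHom hσ a) =
      (((locOrd v a : ℚ) / finrank (v.adicCompletion K) E : ℚ) : AddCircle (1 : ℚ)) :=
  invFun_eq ⟨E, inferInstance, inferInstance, inferInstance, inferInstance, σ, hσ, a, hE, hfrob,
    rfl, rfl⟩

variable (v)

theorem invFun_mul (x y : BrauerGroup.{0, 0} (v.adicCompletion K)) :
    invFun v (x * y) = invFun v x + invFun v y := by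
  obtain ⟨n, hn, hx⟩ := exists_pow_eq_one x
  obtain ⟨m, hm, hy⟩ := exists_pow_eq_one y
  haveI : NeZero (n * m) := ⟨mul_ne_zero hn hm⟩
  obtain ⟨E, _, _, _, _, σ, hE, hun, h1, h2, -⟩ := exists_unramified v (n * m)
  obtain ⟨a, rfl⟩ := exists_cyclicHom_eq_of_pow h2 (x := x) (by rw [hE, pow_mul, hx, one_pow])
  obtain ⟨b, rfl⟩ := exists_cyclicHom_eq_of_pow h2 (x := y)
    (by rw [hE, mul_comm, pow_mul, hy, one_pow])
  rw [← map_mul, invFun_cyclicHom h2 hun h1, invFun_cyclicHom h2 hun h1,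
    invFun_cyclicHom h2 hun h1, locOrd_mul, Int.cast_add, add_div]
  rfl

theorem invFun_eq_zero_iff (x : BrauerGroup.{0, 0} (v.adicCompletion K)) :
    invFun v x = 0 ↔ x = 1 := by
  obtain ⟨r, hr⟩ := exists_hasInvariant v x
  obtain ⟨E, _, _, _, _, σ, hσ, a, hun, hf, rfl, -⟩ := hr
  rw [invFun_cyclicHom hσ hun hf, coe_div_eq_zero_iff Module.finrank_pos.ne',
    cyclicHom_eq_one_iff hσ hun]

theorem invFun_surjective : Function.Surjective (invFun v) := by
  intro r
  obtain ⟨q, rfl⟩ := QuotientAddGroup.mk_surjective r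
  haveI : NeZero q.den := ⟨q.den_nz⟩
  obtain ⟨E, _, _, _, _, σ, hE, hun, h1, h2, -⟩ := exists_unramified v q.den
  obtain ⟨π, hπ⟩ := exists_locOrd_eq_one v
  refine ⟨cyclicHom h2 (π ^ q.num), ?_⟩
  rw [invFun_cyclicHom h2 hun h1, hE, locOrd_zpow, hπ, mul_one, Rat.num_div_den]

/-- **The invariant map**, an isomorphism onto `ℚ / ℤ`. -/
def invariant : Additive (BrauerGroup.{0, 0} (v.adicCompletion K)) ≃+ AddCircle (1 : ℚ) :=
  AddEquiv.ofBijective
    (AddMonoidHom.mk' (fun x => invFun v x.toMul) fun x y => invFun_mul v x.toMul y.toMul) <| by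
    refine ⟨fun x y h => ?_, fun r => ?_⟩
    · change invFun v x.toMul = invFun v y.toMul at h
      refine Additive.toMul.injective (div_eq_one.1 ((invFun_eq_zero_iff v _).1 ?_))
      have h2 := invFun_mul v (x.toMul / y.toMul) y.toMul
      rw [div_mul_cancel, h, right_eq_add] at h2
      exact h2
    · obtain ⟨x, hx⟩ := invFun_surjective v r
      exact ⟨Additive.ofMul x, hx⟩

theorem invariant_ofMul (x : BrauerGroup.{0, 0} (v.adicCompletion K)) :
    invariant v (Additive.ofMul x) = invFun v x := rfl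

/-! ### The real places -/

theorem eq_of_ne_one_real {x y : BrauerGroup.{0, 0} ℝ} (hx : x ≠ 1) (hy : y ≠ 1) : x = y :=
  ((Nat.card_eq_two_iff' (1 : BrauerGroup.{0, 0} ℝ)).1 FA.Summary.brauerGroup_real).unique hx hy

/-- The invariant of a class over `ℝ`. -/
def invFunReal (x : BrauerGroup.{0, 0} ℝ) : AddCircle (1 : ℚ) :=
  if x = 1 then 0 else ((1 / 2 : ℚ) : AddCircle (1 : ℚ))

theorem half_add_half : ((1 / 2 : ℚ) : AddCircle (1 : ℚ)) + ((1 / 2 : ℚ) : AddCircle (1 : ℚ)) = 0 := by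
  rw [← AddCircle.coe_add, add_halves, AddCircle.coe_period]

theorem half_ne_zero : ((1 / 2 : ℚ) : AddCircle (1 : ℚ)) ≠ 0 := by
  have h := (coe_div_eq_zero_iff (a := 1) (n := 2) two_ne_zero).not.2 (by norm_num)
  simpa using h

/-- **The invariant map over `ℝ`**, injective with image the classes of `0` and `1 / 2`. -/
def invariantReal : Additive (BrauerGroup.{0, 0} ℝ) →+ AddCircle (1 : ℚ) :=
  AddMonoidHom.mk' (fun x => invFunReal x.toMul) fun x y => by
    show invFunReal (x.toMul * y.toMul) = invFunReal x.toMul + invFunReal y.toMul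
    by_cases hx : x.toMul = 1
    · rw [hx, one_mul, invFunReal, invFunReal, if_pos (rfl : (1 : BrauerGroup.{0, 0} ℝ) = 1),
        zero_add]
    by_cases hy : y.toMul = 1
    · rw [hy, mul_one, invFunReal, invFunReal, if_pos (rfl : (1 : BrauerGroup.{0, 0} ℝ) = 1),
        add_zero]
    have h2 : x.toMul * y.toMul = 1 := by
      rw [eq_of_ne_one_real hy hx, ← sq, ← FA.Summary.brauerGroup_real]
      exact pow_card_eq_one'
    rw [h2, invFunReal, invFunReal, invFunReal, if_pos rfl, if_neg hx, if_neg hy, half_add_half]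

theorem invariantReal_injective : Function.Injective invariantReal := by
  refine (injective_iff_map_eq_zero _).2 fun x hx => ?_
  by_contra hne
  change invFunReal x.toMul = 0 at hx
  rw [invFunReal, if_neg (show ¬ x.toMul = 1 from fun h => hne h)] at hx
  exact half_ne_zero hx

/-! ### The invariants of a global class -/

/-- The invariant at a prime. -/
def invAt (x : BrauerGroup.{0, 0} K) : AddCircle (1 : ℚ) :=
  invariant v (Additive.ofMul (restriction (v.adicCompletion K) x))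

/-- The invariant at an infinite place. -/
def invAtInf (w : InfinitePlace K) (x : BrauerGroup.{0, 0} K) : AddCircle (1 : ℚ) :=
  if hr : IsReal w then
    letI : Algebra K ℝ := (embedding_of_isReal hr).toAlgebra
    invariantReal (Additive.ofMul (restriction ℝ x))
  else 0

end FA.BrauerInvariant

end
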