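import Fermat.Agent.BrauerInvariant.Restriction
import Mathlib.FieldTheory.Finite.Extension
import Mathlib.Algebra.Polynomial.Lifts

/-!
# Polynomials of one slope with prescribed constant term

Over a finite field there is an irreducible polynomial of every degree with every nonzero constant
term. If the Newton polygon at a prime is a segment of slope `m / n` and the residual polynomial is
irreducible, then `n` divides every local degree of a root field.
-/

set_option autoImplicit false
set_option linter.style.haveILetI false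

noncomputable section

open NumberField IsDedekindDomain Module Polynomial WithZero
open FA.ArtinRec

namespace FA.BrauerInvariant

/-- **An irreducible polynomial with given degree and constant term over a finite field.** -/
theorem exists_irreducible_coeff_zero {k : Type} [Field k] [Finite k] {d : ℕ} (hd : d ≠ 0) {u : k}
    (hu : u ≠ 0) :
    ∃ g : k[X], g.Monic ∧ Irreducible g ∧ g.natDegree = d ∧ g.coeff 0 = u := by
  classical
  obtain ⟨p, hp⟩ := CharP.exists k
  haveI : Fact p.Prime := ⟨CharP.char_is_prime k p⟩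
  haveI : NeZero d := ⟨hd⟩
  let E := FiniteField.Extension k p d
  haveI : Finite E := Module.finite_of_finite k
  haveI := Fintype.ofFinite E
  have hdeg : finrank k E = d := FiniteField.finrank_extension k p d
  set q := Nat.card k
  have hq : 1 < q := Finite.one_lt_card
  set t₀ : kˣ := Units.mk0 ((-1) ^ d * u) (mul_ne_zero (pow_ne_zero _ (neg_ne_zero.2 one_ne_zero)) hu)
  set N : Eˣ →* kˣ := Units.map (Algebra.norm k (S := E))
  obtain ⟨y₀, hy₀⟩ : ∃ y₀, N y₀ = t₀ := FiniteField.unitsMap_norm_surjective k E t₀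
  have hker : Nat.card N.ker * (q - 1) = (∑ i ∈ Finset.range d, q ^ i) * (q - 1) := by
    have h := Subgroup.card_eq_card_quotient_mul_card_subgroup N.ker
    rw [Nat.card_congr (QuotientGroup.quotientKerEquivOfSurjective N
      (FiniteField.unitsMap_norm_surjective k E)).toEquiv, Nat.card_units, Nat.card_units,
      FiniteField.natCard_extension] at h
    obtain ⟨r, hr⟩ : ∃ r, q = r + 1 := ⟨q - 1, by omega⟩
    have hg := geom_sum_mul_add r d
    rw [mul_comm, ← h]
    show Nat.card k ^ d - 1 = _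
    rw [← show q = Nat.card k from rfl, hr, Nat.add_sub_cancel, ← hg, Nat.add_sub_cancel]
  set B : Finset E := (Finset.Ico 1 d).biUnion fun i => (X ^ q ^ i - X : E[X]).roots.toFinset
  have hB : B.card < Nat.card N.ker := by
    rw [Nat.eq_of_mul_eq_mul_right (by omega : 0 < q - 1) hker]
    refine lt_of_le_of_lt (Finset.card_biUnion_le.trans (Finset.sum_le_sum (g := fun i => q ^ i)
      fun i hi => ((Multiset.toFinset_card_le _).trans (card_roots' _)).trans
        (FiniteField.X_pow_card_pow_sub_X_natDegree_eq E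
          (by rw [Finset.mem_Ico] at hi; omega) hq).le)) ?_
    rw [Finset.range_eq_Ico,
      Finset.sum_eq_sum_Ico_succ_bot (Nat.pos_of_ne_zero hd) fun i => q ^ i, pow_zero, zero_add]
    omega
  obtain ⟨x, hx⟩ : ∃ x : N.ker, (((y₀ * x : Eˣ) : E)) ∉ B := by
    by_contra! h
    have := Nat.card_le_card_of_injective (fun x : N.ker => (⟨_, h x⟩ : B)) fun a b hab => by
      have h1 : ((y₀ * a : Eˣ) : E) = (y₀ * b : Eˣ) := congrArg Subtype.val hab
      exact Subtype.ext (mul_left_cancel (Units.ext h1))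
    rw [Nat.card_eq_fintype_card (α := B), Fintype.card_coe] at this
    omega
  set y : E := ((y₀ * x : Eˣ) : E) with hy
  have hy0 : y ≠ 0 := Units.ne_zero _
  have hint : IsIntegral k y := Algebra.IsIntegral.isIntegral y
  have hNy : Algebra.norm k y = (-1) ^ d * u := by
    have h1 : N (y₀ * x) = t₀ := by rw [map_mul, hy₀, x.2, mul_one]
    exact congrArg Units.val h1
  set d' := (minpoly k y).natDegree
  have hd' : finrank k (IntermediateField.adjoin k {y}) = d' :=
    IntermediateField.adjoin.finrank hint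
  have hfix : y ^ q ^ d' = y := by
    haveI := Fintype.ofFinite (IntermediateField.adjoin k {y})
    have h := FiniteField.pow_card
      (⟨y, IntermediateField.mem_adjoin_simple_self k y⟩ : IntermediateField.adjoin k {y})
    rw [Fintype.card_eq_nat_card, Module.natCard_eq_pow_finrank (K := k), hd'] at h
    exact congrArg Subtype.val h
  have hdd : d' = d := by
    refine le_antisymm (hdeg ▸ minpoly.natDegree_le y) (le_of_not_gt fun hlt => hx ?_)
    have hpos : 0 < d' := minpoly.natDegree_pos hint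
    refine Finset.mem_biUnion.2 ⟨d', Finset.mem_Ico.2 ⟨hpos, hlt⟩, Multiset.mem_toFinset.2 ?_⟩
    rw [mem_roots (FiniteField.X_pow_card_pow_sub_X_ne_zero E hpos.ne' hq), IsRoot, eval_sub,
      eval_pow, eval_X, hfix, sub_self]
  refine ⟨minpoly k y, minpoly.monic hint, minpoly.irreducible hint, hdd, ?_⟩
  have h1 := Algebra.norm_eq_norm_adjoin k y
  have h2 : finrank (IntermediateField.adjoin k {y}) E = 1 := by
    have h := Module.finrank_mul_finrank k (IntermediateField.adjoin k {y}) E
    rw [hd', hdd, hdeg] at h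
    exact Nat.eq_of_mul_eq_mul_left (Nat.pos_of_ne_zero hd) (h.trans (mul_one d).symm)
  rw [h2, pow_one, ← IntermediateField.adjoin.powerBasis_gen hint,
    Algebra.PowerBasis.norm_gen_eq_coeff_zero_minpoly, IntermediateField.adjoin.powerBasis_dim,
    IntermediateField.adjoin.powerBasis_gen, IntermediateField.minpoly_gen, hNy] at h1
  rw [show (minpoly k y).natDegree = d from hdd] at h1
  exact (mul_left_cancel₀ (pow_ne_zero _ (neg_ne_zero.2 one_ne_zero)) h1).symm

/-- Powers of congruent integral elements are congruent. -/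
theorem valuation_pow_sub_pow_lt {R Γ : Type*} [CommRing R] [LinearOrderedCommGroupWithZero Γ]
    (v : Valuation R Γ) {a b : R} (ha : v a ≤ 1) (hb : v b ≤ 1) (h : v (a - b) < 1) :
    ∀ j : ℕ, v (a ^ j - b ^ j) < 1
  | 0 => by simp
  | j + 1 => by
    rw [show a ^ (j + 1) - b ^ (j + 1) = a ^ j * (a - b) + (a ^ j - b ^ j) * b by ring]
    refine Valuation.map_add_lt _ ?_ ?_
    · rw [map_mul, map_pow]
      exact lt_of_le_of_lt (mul_le_of_le_one_left zero_le (pow_le_one₀ zero_le ha)) h
    · rw [map_mul]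
      exact lt_of_le_of_lt (mul_le_of_le_one_right zero_le hb) (valuation_pow_sub_pow_lt v ha hb h j)

variable {K : Type} [Field K] [NumberField K] {L : Type} [Field L] [NumberField L] [Algebra K L]

/-- The coefficients of `π ^ (m' d) G (X ^ e₀ / π ^ m')`. -/
def slopeCoeff (π : K) (m' : ℤ) (e₀ d : ℕ) (G : (𝓞 K)[X]) (i : ℕ) : K :=
  if e₀ ∣ i then π ^ (m' * ((d : ℤ) - (i / e₀ : ℕ))) * (G.coeff (i / e₀) : K) else 0

/-- **One slope and an irreducible residual polynomial force the local degree.** -/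
theorem dvd_locDeg_of_slope {n e₀ d : ℕ} {m' : ℤ} (he : n = d * e₀) (hn : n ≠ 0)
    (hcop : IsCoprime (e₀ : ℤ) m') {π : Kˣ} {v : HeightOneSpectrum (𝓞 K)} (hπ : ord v π = 1)
    {G : (𝓞 K)[X]} (hGm : G.Monic) (hGd : G.natDegree = d)
    (hGirr : Irreducible (G.map (Ideal.Quotient.mk v.asIdeal))) {a : Kˣ}
    (ha : ord v a = d * m') {c : ℕ → K} (hc0 : c 0 = (-1) ^ n * (a : K))
    (hc : ∀ i < n, v.valuation K (c i - slopeCoeff (π : K) m' e₀ d G i) ^ n <
      exp (-((d : ℤ) * m' * ((n : ℤ) - i))))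
    {θ : L} (hθ : θ ^ n + ∑ i ∈ Finset.range n, algebraMap K L (c i) * θ ^ i = 0)
    {w : HeightOneSpectrum (𝓞 L)} (hw : belowP K w = v) : n ∣ locDeg K w := by
  subst hw
  set v := belowP K w
  set e := eIdx K w
  set m : ℤ := d * m' with hmdef
  have he0 : (e : ℤ) ≠ 0 := Int.natCast_ne_zero.2 (eIdx_pos (K := K) w).ne'
  have he₀ : e₀ ≠ 0 := fun h => hn (by rw [he, h, mul_zero])
  have hdne : d ≠ 0 := fun h => hn (by rw [he, h, zero_mul])
  haveI : w.asIdeal.LiesOver v.asIdeal := ⟨rfl⟩
  have halg : ∀ x : K, w.valuation L (algebraMap K L x) = v.valuation K x ^ e :=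
    fun x => (HeightOneSpectrum.valuation_liesOver L v w x).symm
  have hπv : ∀ j : ℤ, v.valuation K ((π : K) ^ j) = exp (-j) := fun j => by
    rw [map_zpow₀, valuation_eq_exp, hπ, ← exp_zsmul, smul_eq_mul, mul_neg, mul_one]
  have hav : v.valuation K (a : K) = exp (-m) := by rw [valuation_eq_exp, ha]
  have hm : ∀ i : ℕ, e₀ ∣ i → (n : ℤ) * (m' * ((d : ℤ) - (i / e₀ : ℕ))) = m * ((n : ℤ) - i) := by
    rintro i ⟨j, rfl⟩
    rw [Nat.mul_div_cancel_left _ (Nat.pos_of_ne_zero he₀), he, hmdef]
    push_cast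
    ring
  have hT : ∀ i : ℕ, v.valuation K (slopeCoeff (π : K) m' e₀ d G i) ^ n ≤
      exp (-(m * ((n : ℤ) - i))) := fun i => by
    unfold slopeCoeff
    split_ifs with hi
    · rw [map_mul, mul_pow, hπv, ← exp_nsmul, nsmul_eq_mul, mul_neg, hm i hi]
      exact mul_le_of_le_one_right zero_le (pow_le_one₀ zero_le (v.valuation_le_one _))
    · rw [map_zero, zero_pow hn]
      exact zero_le
  have hcb : ∀ i < n, v.valuation K (c i) ^ n ≤ exp (-(m * ((n : ℤ) - i))) := fun i hi => by
    rw [show c i = (c i - slopeCoeff (π : K) m' e₀ d G i) + slopeCoeff (π : K) m' e₀ d G i by ring]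
    rcases le_total (v.valuation K (c i - slopeCoeff (π : K) m' e₀ d G i))
        (v.valuation K (slopeCoeff (π : K) m' e₀ d G i)) with h | h
    · exact (pow_le_pow_left₀ zero_le (Valuation.map_add_le _ h le_rfl) n).trans (hT i)
    · exact (pow_le_pow_left₀ zero_le (Valuation.map_add_le _ le_rfl h) n).trans (hc i hi).le
  have hθ0 : θ ≠ 0 := by
    rintro rfl
    rw [zero_pow hn, zero_add, Finset.sum_eq_single_of_mem 0
      (Finset.mem_range.2 (Nat.pos_of_ne_zero hn)) fun i _ hi => by rw [zero_pow hi, mul_zero],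
      pow_zero, mul_one, map_eq_zero, hc0] at hθ
    exact mul_ne_zero (pow_ne_zero _ (neg_ne_zero.2 one_ne_zero)) a.ne_zero hθ
  set t := ord w (Units.mk0 θ hθ0)
  have hθv : w.valuation L θ = exp (-t) := valuation_eq_exp w (Units.mk0 θ hθ0)
  have hc0v : w.valuation L (algebraMap K L (c 0)) = exp (-(e * m)) := by
    rw [halg, hc0, map_mul, map_pow, Valuation.map_neg, map_one, one_pow, one_mul, hav, ← exp_nsmul,
      nsmul_eq_mul, mul_neg]
  -- the slope
  have hslope : (n : ℤ) * t = e * m := by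
    by_contra hne
    have hv1 : w.valuation L (θ ^ n) = exp (-((n : ℤ) * t)) := by
      rw [map_pow, hθv, ← exp_nsmul, nsmul_eq_mul, mul_neg]
    have hmax : w.valuation L (θ ^ n + algebraMap K L (c 0)) =
        exp (max (-((n : ℤ) * t)) (-(e * m))) := by
      rw [Valuation.map_add_of_distinct_val _ (by
        rw [hv1, hc0v]; exact fun h => hne (neg_inj.1 (exp_injective h))), hv1, hc0v]
      rcases le_total (-((n : ℤ) * t)) (-((e : ℤ) * m)) with h | h
      · rw [max_eq_right h, max_eq_right (exp_le_exp.2 h)]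
      · rw [max_eq_left h, max_eq_left (exp_le_exp.2 h)]
    have hlt : w.valuation L (∑ i ∈ Finset.Ico 1 n, algebraMap K L (c i) * θ ^ i) <
        exp (max (-((n : ℤ) * t)) (-(e * m))) := by
      refine Valuation.map_sum_lt _ exp_ne_zero fun i hi => ?_
      rw [Finset.mem_Ico] at hi
      refine (pow_lt_pow_iff_left₀ zero_le zero_le hn).1 ?_
      rw [map_mul, mul_pow, halg, pow_right_comm, map_pow, hθv, ← exp_nsmul, ← exp_nsmul,
        ← exp_nsmul]
      refine lt_of_le_of_lt (mul_le_mul_left (pow_le_pow_left₀ zero_le (hcb i hi.2) e) _) ?_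
      rw [← exp_nsmul, ← exp_add, exp_lt_exp]
      simp only [nsmul_eq_mul]
      have hi1 : (1 : ℤ) ≤ i := by exact_mod_cast hi.1
      have hi2 : (i : ℤ) < n := by exact_mod_cast hi.2
      rcases lt_or_gt_of_ne hne with h | h
      · refine lt_of_lt_of_le ?_ (mul_le_mul_of_nonneg_left (le_max_left _ _) (Int.natCast_nonneg n))
        nlinarith
      · refine lt_of_lt_of_le ?_
          (mul_le_mul_of_nonneg_left (le_max_right _ _) (Int.natCast_nonneg n))
        nlinarith
    rw [Finset.range_eq_Ico, Finset.sum_eq_sum_Ico_succ_bot (Nat.pos_of_ne_zero hn), pow_zero,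
      mul_one, ← add_assoc, add_eq_zero_iff_eq_neg] at hθ
    rw [hθ, Valuation.map_neg] at hmax
    exact hlt.ne hmax
  have hne₀ : (e₀ : ℤ) * t = e * m' := by
    refine mul_left_cancel₀ (Int.natCast_ne_zero.2 hdne) ?_
    rw [← mul_assoc, ← Nat.cast_mul, ← he, hslope, hmdef]
    ring
  have hdvde : e₀ ∣ e := Int.natCast_dvd_natCast.1
    (hcop.dvd_of_dvd_mul_right ⟨t, hne₀.symm⟩)
  -- the residual equation
  set P := algebraMap K L ((π : K) ^ m') with hPdef
  have hP0 : P ≠ 0 := (_root_.map_ne_zero _).2 (zpow_ne_zero _ π.ne_zero)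
  set z := θ ^ e₀ / P
  have hz : w.valuation L z = 1 := by
    rw [map_div₀, map_pow, hθv, halg, hπv, ← exp_nsmul, ← exp_nsmul, ← exp_sub, ← exp_zero,
      exp_inj, nsmul_eq_mul, nsmul_eq_mul]
    linear_combination -hne₀
  set A := algebraMap K L ((π : K) ^ m) with hAdef
  have hA : A = P ^ d := by
    rw [hAdef, hPdef, ← map_pow, ← zpow_natCast, ← zpow_mul, hmdef, mul_comm m' (d : ℤ)]
  set S := ∑ i ∈ Finset.range n,
    algebraMap K L (c i - slopeCoeff (π : K) m' e₀ d G i) * θ ^ i with hS
  have hmain : A * (∑ j ∈ Finset.range (d + 1), algebraMap (𝓞 K) L (G.coeff j) * z ^ j) = -S := by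
    have hTsum : ∑ i ∈ Finset.range n, algebraMap K L (slopeCoeff (π : K) m' e₀ d G i) * θ ^ i =
        ∑ j ∈ Finset.range d, A * (algebraMap (𝓞 K) L (G.coeff j) * z ^ j) := by
      rw [← Finset.sum_filter_of_ne (p := fun i => e₀ ∣ i) fun i _ hi => by
        by_contra h
        exact hi (by rw [slopeCoeff, if_neg h, map_zero, zero_mul])]
      symm
      refine Finset.sum_nbij (fun j => e₀ * j) (fun j hj => ?_) (fun j _ j' _ h => ?_)
        (fun i hi => ?_) fun j _ => ?_
      · replace hj := Finset.mem_range.1 hj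
        simp only [Finset.mem_filter, Finset.mem_range, he, mul_comm d]
        exact ⟨Nat.mul_lt_mul_of_pos_left hj (Nat.pos_of_ne_zero he₀), dvd_mul_right _ _⟩
      · exact Nat.eq_of_mul_eq_mul_left (Nat.pos_of_ne_zero he₀) h
      · simp only [Finset.mem_coe, Finset.mem_filter, Finset.mem_range] at hi
        obtain ⟨hi1, j, rfl⟩ := hi
        refine ⟨j, Finset.mem_coe.2 (Finset.mem_range.2 ?_), rfl⟩
        rw [he, mul_comm d] at hi1
        exact Nat.lt_of_mul_lt_mul_left hi1
      · rw [slopeCoeff, if_pos (dvd_mul_right _ _), Nat.mul_div_cancel_left _ (Nat.pos_of_ne_zero he₀),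
          map_mul, ← IsScalarTower.algebraMap_apply (𝓞 K) K L, hA,
          show m' * ((d : ℤ) - (j : ℕ)) = m' * d - m' * j by ring, zpow_sub₀ π.ne_zero, zpow_mul,
          zpow_mul, zpow_natCast, zpow_natCast, map_div₀, map_pow, map_pow, ← hPdef,
          show z ^ j = θ ^ (e₀ * j) / P ^ j by rw [div_pow, pow_mul]]
        field_simp
    have hlead : θ ^ n = A * (algebraMap (𝓞 K) L (G.coeff d) * z ^ d) := by
      rw [← hGd, hGm.coeff_natDegree, map_one, one_mul, hGd, hA, ← mul_pow,
        mul_div_cancel₀ _ hP0, ← pow_mul, he, mul_comm]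
    rw [Finset.mul_sum, Finset.sum_range_succ, ← hlead, ← hTsum, eq_neg_iff_add_eq_zero, hS,
      add_comm (∑ i ∈ _, _) (θ ^ n), add_assoc, ← Finset.sum_add_distrib]
    simpa only [← add_mul, ← map_add, add_sub_cancel] using hθ
  have hSv : w.valuation L S < w.valuation L A := by
    refine Valuation.map_sum_lt _ ((Valuation.ne_zero_iff _).2 (by
      rw [hA]; exact pow_ne_zero _ hP0)) fun i hi => ?_
    refine (pow_lt_pow_iff_left₀ zero_le zero_le hn).1 ?_
    rw [map_mul, mul_pow, halg, pow_right_comm, map_pow, hθv, hAdef, halg, hπv, ← exp_nsmul,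
      ← exp_nsmul, ← exp_nsmul, ← exp_nsmul]
    refine lt_of_lt_of_le (mul_lt_mul_of_pos_right (pow_lt_pow_left₀ (hc i (Finset.mem_range.1 hi))
      zero_le (eIdx_pos (K := K) w).ne') exp_pos) (le_of_eq ?_)
    rw [← exp_nsmul, ← exp_add, exp_inj, hmdef]
    simp only [nsmul_eq_mul]
    rw [hmdef] at hslope
    linear_combination (-(i : ℤ)) * hslope
  have hsmall : w.valuation L (∑ j ∈ Finset.range (d + 1),
      algebraMap (𝓞 K) L (G.coeff j) * z ^ j) < 1 := by
    have h := congrArg (w.valuation L) hmain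
    rw [map_mul, Valuation.map_neg] at h
    rw [← h] at hSv
    by_contra hge
    exact absurd hSv (not_lt.2 (le_mul_of_one_le_right zero_le (not_lt.1 hge)))
  -- the residue class of `z`
  obtain ⟨b, hb⟩ := w.exists_valuation_sub_lt_of_integer hz.le 1
  rw [Units.val_one] at hb
  have hGb : Polynomial.aeval b G ∈ w.asIdeal := by
    rw [← w.valuation_lt_one_iff_mem (K := L), aeval_eq_sum_range, hGd]
    show w.valuation L (algebraMap (𝓞 L) L (∑ j ∈ Finset.range (d + 1), G.coeff j • b ^ j)) < 1
    rw [map_sum (algebraMap (𝓞 L) L)]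
    simp only [Algebra.smul_def, map_mul, map_pow, ← IsScalarTower.algebraMap_apply (𝓞 K) (𝓞 L) L]
    rw [← add_sub_cancel (∑ j ∈ Finset.range (d + 1), algebraMap (𝓞 K) L (G.coeff j) * z ^ j)
      (∑ j ∈ Finset.range (d + 1), _), ← Finset.sum_sub_distrib]
    refine Valuation.map_add_lt _ hsmall (Valuation.map_sum_lt _ one_ne_zero fun j _ => ?_)
    rw [← mul_sub, map_mul, IsScalarTower.algebraMap_apply (𝓞 K) (𝓞 L) L]
    exact lt_of_le_of_lt (mul_le_of_le_one_left zero_le (w.valuation_le_one _))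
      (valuation_pow_sub_pow_lt _ (w.valuation_le_one _) hz.le hb j)
  haveI : w.asIdeal.LiesOver v.asIdeal := ⟨rfl⟩
  haveI := v.isMaximal
  haveI := w.isMaximal
  haveI : Finite (𝓞 L ⧸ w.asIdeal) := Ideal.finiteQuotientOfFreeOfNeBot _ w.ne_bot
  letI := Ideal.Quotient.field v.asIdeal
  letI := Ideal.Quotient.field w.asIdeal
  haveI : Module.Finite (𝓞 K ⧸ v.asIdeal) (𝓞 L ⧸ w.asIdeal) := Module.Finite.of_finite
  have hroot : Polynomial.aeval (Ideal.Quotient.mk w.asIdeal b)
      (G.map (Ideal.Quotient.mk v.asIdeal)) = 0 := by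
    rw [← Ideal.Quotient.algebraMap_eq v.asIdeal, Polynomial.aeval_map_algebraMap,
      ← Ideal.Quotient.algebraMap_eq w.asIdeal, Polynomial.aeval_algebraMap_apply,
      Ideal.Quotient.algebraMap_eq, Ideal.Quotient.eq_zero_iff_mem]
    exact hGb
  have hdvdf : d ∣ w.asIdeal.inertiaDeg (𝓞 K) := by
    rw [Ideal.inertiaDeg_eq_of_isMaximal v.asIdeal w.asIdeal]
    have h := minpoly.eq_of_irreducible_of_monic hGirr hroot (hGm.map _)
    have h2 := minpoly.degree_dvd (K := 𝓞 K ⧸ v.asIdeal)
      (Algebra.IsIntegral.isIntegral (Ideal.Quotient.mk w.asIdeal b))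
    rwa [← h, hGm.natDegree_map, hGd] at h2
  rw [he, mul_comm d]
  exact mul_dvd_mul hdvde hdvdf

end FA.BrauerInvariant

end
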