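import Fermat.Agent.BrauerInvariant.NormPoly
import Fermat.Agent.ArtinReciprocity.RayNorm

/-!
# The norm theorem of Hasse, Schilling and Maass

A nonzero element is a norm from an extension of degree `n` with full local degree at any finite set
of primes and no real place over the real places where it is positive, `n` even. So it is a norm from
a maximal subfield of a central division algebra iff it is positive where the algebra is ramified.
-/

set_option autoImplicit false
set_option linter.style.haveILetI false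

noncomputable section

open NumberField NumberField.InfinitePlace IsDedekindDomain Module Polynomial WithZero
open FA.ArtinRec FA.BrauerTheory
open FA.QuadFormsNF (exists_weak_approx valued_algebraMap)

namespace FA.BrauerInvariant

variable {K : Type} [Field K] [NumberField K]

theorem exists_coprime_factor (m : ℤ) {n : ℕ} (hn : n ≠ 0) :
    ∃ (d e : ℕ) (m' : ℤ), d ≠ 0 ∧ n = d * e ∧ m = d * m' ∧ IsCoprime (e : ℤ) m' := by
  set d := Int.gcd (n : ℤ) m
  have hd : d ≠ 0 := fun h => hn (by exact_mod_cast (Int.gcd_eq_zero_iff.1 h).1)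
  obtain ⟨e, he⟩ : d ∣ n := Int.natCast_dvd_natCast.1 (Int.gcd_dvd_left _ _)
  obtain ⟨m', hm⟩ : (d : ℤ) ∣ m := Int.gcd_dvd_right _ _
  refine ⟨d, e, m', hd, he, hm, Int.gcdA n m, Int.gcdB n m, ?_⟩
  refine mul_left_cancel₀ (Int.natCast_ne_zero.2 hd) ?_
  have h : (d : ℤ) = (n : ℤ) * Int.gcdA n m + m * Int.gcdB n m := Int.gcd_eq_gcd_ab _ _
  have hn' : (n : ℤ) = (d : ℤ) * (e : ℤ) := by exact_mod_cast he
  linear_combination -h - Int.gcdA n m * hn' - Int.gcdB n m * hm

/-- **Local conditions forcing full local degree and leaving the constant term free.** -/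
theorem exists_slope_targets (v : HeightOneSpectrum (𝓞 K)) (a : Kˣ) {n : ℕ} (hn : n ≠ 0) :
    ∃ T : ℕ → K, ∀ (L : Type) [Field L] [NumberField L] [Algebra K L] (θ : L) (c : ℕ → K),
      c 0 = (-1) ^ n * (a : K) →
      (∀ i, i ≠ 0 → i < n →
        v.valuation K (c i - T i) ≤ exp (-(((ord v a).natAbs + 1 : ℕ) : ℤ))) →
      θ ^ n + ∑ i ∈ Finset.range n, algebraMap K L (c i) * θ ^ i = 0 →
      ∀ w : HeightOneSpectrum (𝓞 L), belowP K w = v → n ∣ locDeg K w := by
  obtain ⟨d, e₀, m', hd, hne, hm, hcop⟩ := exists_coprime_factor (ord v a) hn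
  obtain ⟨π, hπ⟩ := exists_ord_eq_one v
  have he₀ : e₀ ≠ 0 := fun h => hn (by rw [hne, h, mul_zero])
  have hπv : ∀ j : ℤ, v.valuation K ((π : K) ^ j) = exp (-j) := fun j => by
    rw [map_zpow₀, valuation_eq_exp, hπ, ← exp_zsmul, smul_eq_mul, mul_neg, mul_one]
  set P : K := (π : K) ^ ord v a
  have hP : P ≠ 0 := zpow_ne_zero _ π.ne_zero
  set x : K := (-1) ^ n * (a : K) / P with hxdef
  have hx : v.valuation K x = 1 := by
    rw [map_div₀, map_mul, map_pow, Valuation.map_neg, map_one, one_pow, one_mul, hπv,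
      valuation_eq_exp, div_self exp_ne_zero]
  obtain ⟨b, hb⟩ := v.exists_valuation_sub_lt_of_integer hx.le 1
  rw [Units.val_one] at hb
  haveI := v.isMaximal
  haveI : Finite (𝓞 K ⧸ v.asIdeal) := Ideal.finiteQuotientOfFreeOfNeBot _ v.ne_bot
  letI := Ideal.Quotient.field v.asIdeal
  have hb0 : Ideal.Quotient.mk v.asIdeal b ≠ 0 := fun h => by
    rw [Ideal.Quotient.eq_zero_iff_mem, ← v.valuation_lt_one_iff_mem (K := K)] at h
    have h' := lt_of_le_of_lt ((v.valuation K).map_sub _ _) (max_lt h hb)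
    rw [sub_sub_cancel, hx] at h'
    exact lt_irrefl _ h'
  obtain ⟨g, hgm, hgi, hgd, hg0⟩ := exists_irreducible_coeff_zero hd hb0
  obtain ⟨G, hG, hGd, hGm⟩ := lifts_and_natDegree_eq_and_monic
    ((mem_lifts _).2 (map_surjective (Ideal.Quotient.mk v.asIdeal) Ideal.Quotient.mk_surjective g))
    hgm
  refine ⟨slopeCoeff (π : K) m' e₀ d G, fun L _ _ _ θ c hc0 hc hθ w hw => ?_⟩
  refine dvd_locDeg_of_slope hne hn hcop hπ hGm (hGd.trans hgd) (by rwa [hG]) hm hc0
    (fun i hi => ?_) hθ hw
  rcases eq_or_ne i 0 with rfl | h0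
  · have hmem : G.coeff 0 - b ∈ v.asIdeal := by
      rw [← Ideal.Quotient.eq, ← Polynomial.coeff_map, hG, hg0]
    rw [← v.valuation_lt_one_iff_mem (K := K)] at hmem
    have hmem' : v.valuation K ((G.coeff 0 : K) - b) < 1 := hmem
    have h1 : v.valuation K (x - (G.coeff 0 : K)) < 1 := by
      rw [Valuation.map_sub_swap,
        show (G.coeff 0 : K) - x = ((G.coeff 0 : K) - b) + ((b : K) - x) by ring]
      exact Valuation.map_add_lt _ hmem' hb
    have h2 : c 0 - slopeCoeff (π : K) m' e₀ d G 0 = P * (x - (G.coeff 0 : K)) := by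
      rw [hc0, slopeCoeff, if_pos (dvd_zero _), Nat.zero_div, Nat.cast_zero, sub_zero,
        mul_comm m', ← hm, mul_sub, hxdef, mul_div_cancel₀ _ hP]
    rw [h2, map_mul, hπv, Nat.cast_zero, sub_zero, ← hm]
    calc (exp (-ord v a) * v.valuation K (x - (G.coeff 0 : K))) ^ n
        < (exp (-ord v a) * 1) ^ n :=
          pow_lt_pow_left₀ (mul_lt_mul_of_pos_left h1 exp_pos) zero_le hn
      _ = exp (-(ord v a * n)) := by
          rw [mul_one, ← exp_nsmul, nsmul_eq_mul, mul_neg, mul_comm]
  · refine (pow_le_pow_left₀ zero_le (hc i h0 hi) n).trans_lt ?_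
    rw [← exp_nsmul, exp_lt_exp, ← hm, nsmul_eq_mul]
    have hi1 : (i : ℤ) < n := by exact_mod_cast hi
    have hi0 : (0 : ℤ) ≤ i := Int.natCast_nonneg i
    have h1 := le_abs_self (ord v a)
    push_cast
    nlinarith [abs_nonneg (ord v a)]

/-- The local degree is at most the degree. -/
theorem locDeg_le_finrank {L : Type} [Field L] [NumberField L] [Algebra K L]
    (w : HeightOneSpectrum (𝓞 L)) : 0 < locDeg K w ∧ locDeg K w ≤ finrank K L := by
  set v := belowP K w
  haveI : w.asIdeal.LiesOver v.asIdeal := ⟨rfl⟩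
  haveI : v.asIdeal.IsPrime := v.isPrime
  haveI : w.asIdeal.IsPrime := w.isPrime
  haveI : Module.Finite (𝓞 K) (𝓞 L) := Module.Finite.of_restrictScalars_finite ℤ _ _
  haveI : Fintype (v.asIdeal.primesOver (𝓞 L)) :=
    (IsDedekindDomain.primesOver_finite v.asIdeal (𝓞 L)).fintype
  refine ⟨Nat.mul_pos (eIdx_pos w) (Ideal.inertiaDeg_pos _ _), ?_⟩
  rw [IsFractionRing.finrank_eq (𝓞 K) K (𝓞 L) L,
    ← Ideal.sum_ramification_inertia_eq_finrank v.asIdeal (𝓞 L), locDeg, eIdx,
    Ideal.ramificationIdx'_eq_ramificationIdx v.asIdeal w.asIdeal v.ne_bot]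
  exact Finset.single_le_sum (fun q _ => Nat.zero_le _)
    (Finset.mem_univ (⟨w.asIdeal, w.isPrime, ⟨rfl⟩⟩ : v.asIdeal.primesOver (𝓞 L)))
    (f := fun q : v.asIdeal.primesOver (𝓞 L) =>
      q.1.ramificationIdx (𝓞 K) * q.1.inertiaDeg (𝓞 K))

/-- A monic polynomial of even degree with small lower coefficients and positive constant term has no
real root. -/
theorem pow_add_sum_pos {n : ℕ} (hn : Even n) {t A ε : ℝ} (hA : 0 < A)
    (hεA : n * ε < A) (hε1 : n * ε < 1) {b : ℕ → ℝ} (hb : ∀ i, |b i| < ε) :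
    0 < t ^ n + A + ∑ i ∈ Finset.Ico 1 n, b i * t ^ i := by
  have hε0 : 0 ≤ ε := (abs_nonneg _).trans (hb 0).le
  have htn : 0 ≤ t ^ n := hn.pow_nonneg t
  have h1 : |∑ i ∈ Finset.Ico 1 n, b i * t ^ i| ≤ n * ε * max 1 (t ^ n) := by
    refine (Finset.abs_sum_le_sum_abs _ _).trans ?_
    refine (Finset.sum_le_card_nsmul _ _ (ε * max 1 (t ^ n)) fun i hi => ?_).trans ?_
    · rw [abs_mul, abs_pow]
      refine mul_le_mul (hb i).le ?_ (by positivity) hε0
      rcases le_total |t| 1 with h | h
      · exact (pow_le_one₀ (abs_nonneg t) h).trans (le_max_left _ _)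
      · rw [← hn.pow_abs t]
        exact (pow_le_pow_right₀ h (Finset.mem_Ico.1 hi).2.le).trans (le_max_right _ _)
    · rw [Nat.card_Ico, nsmul_eq_mul, ← mul_assoc]
      refine mul_le_mul_of_nonneg_right (mul_le_mul_of_nonneg_right ?_ hε0) (by positivity)
      exact_mod_cast Nat.sub_le n 1
  have h2 := neg_le_of_abs_le h1
  rcases le_total (t ^ n) 1 with h | h
  · rw [max_eq_left h, mul_one] at h2
    linarith
  · rw [max_eq_right h] at h2
    nlinarith

/-- **A norm from an extension with full local degrees.** -/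
theorem exists_extension_norm {n : ℕ} (hn : n ≠ 0) {S : Finset (HeightOneSpectrum (𝓞 K))}
    (hS : S.Nonempty) (a : Kˣ) :
    ∃ (L : Type) (_ : Field L) (_ : NumberField L) (_ : Algebra K L), finrank K L = n ∧
      (∀ w : HeightOneSpectrum (𝓞 L), belowP K w ∈ S → locDeg K w = n) ∧
      (Even n → ∀ ψ : L →+* ℝ, ψ (algebraMap K L (a : K)) < 0) ∧
      ∃ θ : L, Algebra.norm K θ = (a : K) := by
  classical
  choose T hT using fun v : HeightOneSpectrum (𝓞 K) => exists_slope_targets v a hn
  set ε : (K →+* ℝ) → ℝ := fun φ => min 1 |φ (a : K)| / (n + 1)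
  have hεpos : ∀ φ, 0 < ε φ := fun φ =>
    div_pos (lt_min one_pos (abs_pos.2 ((_root_.map_ne_zero φ).2 a.ne_zero))) (by positivity)
  choose x hxv hxr using fun i : ℕ => exists_weak_approx S
    (fun v => {y | Valued.v (y - algebraMap K (v.adicCompletion K) (T v i)) ≤
      exp (-(((ord v a).natAbs + 1 : ℕ) : ℤ))})
    (fun v _ => ⟨_, FA.LocalCFT.ball_mem_nhds v _ _⟩) (fun φ => Metric.ball (0 : ℝ) (ε φ))
    (fun φ => ⟨0, Metric.ball_mem_nhds 0 (hεpos φ)⟩)
  set c : ℕ → K := fun i => if i = 0 then (-1) ^ n * (a : K) else x i with hc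
  have hc0 : c 0 = (-1) ^ n * (a : K) := if_pos rfl
  set f : K[X] := X ^ n + ∑ i ∈ Finset.range n, C (c i) * X ^ i with hf
  have hdeg : (∑ i ∈ Finset.range n, C (c i) * X ^ i : K[X]).degree < (n : WithBot ℕ) :=
    (degree_sum_le _ _).trans_lt ((Finset.sup_lt_iff (WithBot.bot_lt_coe n)).2 fun i hi =>
      (degree_C_mul_X_pow_le i (c i)).trans_lt (WithBot.coe_lt_coe.2 (Finset.mem_range.1 hi)))
  have hfm : f.Monic := monic_X_pow_add hdeg
  have hfd : f.natDegree = n := natDegree_eq_of_degree_eq_some (by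
    rw [hf, degree_add_eq_left_of_degree_lt (by rwa [degree_X_pow]), degree_X_pow])
  obtain ⟨p, hpm, hpi, hpf⟩ :=
    exists_monic_irreducible_factor f fun h => hn (hfd ▸ natDegree_eq_zero_of_isUnit h)
  haveI : Fact (Irreducible p) := ⟨hpi⟩
  let L := AdjoinRoot p
  haveI : FiniteDimensional K L := (AdjoinRoot.powerBasis hpi.ne_zero).finite
  haveI : NumberField L := NumberField.of_module_finite K L
  set θ : L := AdjoinRoot.root p
  have hθ : θ ^ n + ∑ i ∈ Finset.range n, algebraMap K L (c i) * θ ^ i = 0 := by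
    have h := aeval_eq_zero_of_dvd_aeval_eq_zero hpf
      (show aeval θ p = 0 by rw [AdjoinRoot.aeval_eq, AdjoinRoot.mk_self])
    simpa [hf] using h
  have hdim : finrank K L = p.natDegree := by
    rw [(AdjoinRoot.powerBasis hpi.ne_zero).finrank, AdjoinRoot.powerBasis_dim]
  have hloc : ∀ w : HeightOneSpectrum (𝓞 L), belowP K w ∈ S → n ∣ locDeg K w := fun w hw => by
    refine hT (belowP K w) L θ c hc0 (fun i hi0 _ => ?_) hθ w rfl
    have h := hxv i (belowP K w) hw
    rw [Set.mem_ofPred_eq, ← map_sub, valued_algebraMap] at h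
    simpa only [hc, if_neg hi0] using h
  have hpn : p.natDegree = n := by
    refine le_antisymm (hfd ▸ natDegree_le_of_dvd hpf hfm.ne_zero) ?_
    obtain ⟨v, hv⟩ := hS
    obtain ⟨w, rfl⟩ := exists_belowP K L v
    obtain ⟨hpos, hle⟩ := locDeg_le_finrank (K := K) w
    exact (Nat.le_of_dvd hpos (hloc w hv)).trans (hle.trans hdim.le)
  have hpf' : p = f :=
    (eq_of_monic_of_dvd_of_natDegree_le hpm hfm hpf (by rw [hfd, hpn])).symm
  refine ⟨L, inferInstance, inferInstance, inferInstance, hdim.trans hpn, fun w hw => ?_,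
    fun hev ψ => ?_, θ, ?_⟩
  · obtain ⟨hpos, hle⟩ := locDeg_le_finrank (K := K) w
    exact le_antisymm (hle.trans (hdim.trans hpn).le) (Nat.le_of_dvd hpos (hloc w hw))
  · set φ := ψ.comp (algebraMap K L)
    by_contra hneg
    have hA : 0 < φ (a : K) :=
      lt_of_le_of_ne (not_lt.1 hneg) ((_root_.map_ne_zero φ).2 a.ne_zero).symm
    have h := congrArg ψ hθ
    rw [Finset.range_eq_Ico, Finset.sum_eq_sum_Ico_succ_bot (Nat.pos_of_ne_zero hn), map_add,
      map_add, map_sum, map_pow, map_zero, hc0, hev.neg_one_pow, one_mul, pow_zero, mul_one,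
      zero_add, ← add_assoc] at h
    simp only [map_mul, map_pow] at h
    have hn1 : (0 : ℝ) < n + 1 := by positivity
    have hε : (n : ℝ) * ε φ < min 1 |φ (a : K)| := by
      have hmin : 0 < min 1 |φ (a : K)| := lt_min one_pos (abs_pos.2 hA.ne')
      rw [← mul_div_assoc, div_lt_iff₀ hn1]
      nlinarith
    refine (pow_add_sum_pos (t := ψ θ) hev hA (b := fun i => φ (x i))
      (hε.trans_le ((min_le_right _ _).trans (abs_of_pos hA).le))
      (hε.trans_le (min_le_left _ _)) fun i => ?_).ne' ?_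
    · simpa [Metric.mem_ball] using hxr i φ
    · refine Eq.trans ?_ h
      refine congrArg₂ _ rfl (Finset.sum_congr rfl fun i hi => ?_)
      simp only [hc, if_neg (show i ≠ 0 by have := Finset.mem_Ico.1 hi; omega)]
      rfl
  · show Algebra.norm K (AdjoinRoot.root p) = (a : K)
    rw [← AdjoinRoot.powerBasis_gen hpi.ne_zero,
      Algebra.PowerBasis.norm_gen_eq_coeff_zero_minpoly, AdjoinRoot.powerBasis_gen,
      AdjoinRoot.powerBasis_dim, AdjoinRoot.minpoly_root hpi.ne_zero, hpm.leadingCoeff, inv_one,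
      map_one, mul_one, hpn]
    conv_lhs => rw [hpf', hf]
    rw [coeff_add, coeff_X_pow, if_neg (Ne.symm hn), zero_add, finsetSum_coeff,
      Finset.sum_eq_single_of_mem 0 (Finset.mem_range.2 (Nat.pos_of_ne_zero hn)) fun i _ hi => by
        rw [coeff_C_mul, coeff_X_pow, if_neg hi.symm, mul_zero],
      pow_zero, mul_one, coeff_C_zero, hc0, ← mul_assoc, ← mul_pow, neg_mul_neg, one_mul, one_pow,
      one_mul]

omit [NumberField K] in
/-- The infinite place of a real embedding under one above it. -/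
theorem comap_mk_real {L : Type} [Field L] [Algebra K L] (ψ : L →+* ℝ) :
    (InfinitePlace.mk (Complex.ofRealHom.comp ψ)).comap (algebraMap K L) =
      InfinitePlace.mk (Complex.ofRealHom.comp (ψ.comp (algebraMap K L))) := by
  rw [comap_mk, RingHom.comp_assoc]

omit [NumberField K] in
theorem isReal_mk_real (φ : K →+* ℝ) : IsReal (InfinitePlace.mk (Complex.ofRealHom.comp φ)) :=
  isReal_mk_iff.2 (ComplexEmbedding.isReal_iff.2 (RingHom.ext fun _ => Complex.conj_ofReal _))

/-- **The Hasse–Schilling–Maass norm theorem.** -/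
theorem hasse_schilling_maass {D : Type} [DivisionRing D] [Algebra K D] [FiniteDimensional K D]
    [Algebra.IsCentral K D] (a : Kˣ) :
    (∃ (L : Type) (_ : Field L) (_ : NumberField L) (_ : Algebra K L),
      finrank K L ^ 2 = finrank K D ∧ Nonempty (L →ₐ[K] D) ∧
        ∃ θ : L, Algebra.norm K θ = (a : K)) ↔
    ∀ φ : K →+* ℝ, invAtInf (InfinitePlace.mk (Complex.ofRealHom.comp φ)) (classOf K D) ≠ 0 →
      0 < φ (a : K) := by
  classical
  constructor
  · rintro ⟨L, _, _, _, hdim, hemb, θ, hθ⟩ φ hφ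
    haveI : FiniteDimensional K L := Module.Finite.of_restrictScalars_finite ℚ K L
    obtain ⟨-, h2⟩ :=
      (restriction_eq_one_iff_invariants _).1 ((nonempty_algHom_iff hdim.symm).1 hemb)
    rw [← hθ]
    refine norm_pos_of_positive_above ?_ φ fun ψ hψ => absurd ?_ hφ
    · rintro rfl
      rw [Algebra.norm_zero] at hθ
      exact a.ne_zero hθ.symm
    · rw [← hψ, ← comap_mk_real]
      exact h2 _ (isReal_mk_real ψ)
  · intro h
    set x := classOf K D
    set n := orderOf x
    have hD : finrank K D = n ^ 2 := finrank_eq_sq (D := D)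
    have hn : n ≠ 0 := fun h0 => Module.finrank_pos.ne' (hD.trans (by rw [h0]; norm_num))
    obtain ⟨v₀⟩ : Nonempty (HeightOneSpectrum (𝓞 K)) := by
      obtain ⟨M, hM⟩ := Ideal.exists_maximal (𝓞 K)
      exact ⟨⟨M, hM.isPrime,
        Ring.ne_bot_of_isMaximal_of_not_isField hM (RingOfIntegers.not_isField K)⟩⟩
    obtain ⟨L, _, _, _, hdim, hloc, hreal, hθ⟩ := exists_extension_norm hn
      (S := insert v₀ (finite_invAt x).toFinset) (Finset.insert_nonempty _ _) a
    haveI : FiniteDimensional K L := Module.Finite.of_restrictScalars_finite ℚ K L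
    obtain ⟨hv, hw⟩ := (orderOf_dvd_iff x n).1 dvd_rfl
    refine ⟨L, inferInstance, inferInstance, inferInstance, by rw [hdim, hD],
      (nonempty_algHom_iff (by rw [hdim, hD])).2
        ((restriction_eq_one_iff_invariants x).2 ⟨fun w => ?_, fun u hu => ?_⟩), hθ⟩
    · by_cases h0 : invAt (belowP K w) x = 0
      · rw [h0, addOrderOf_zero]
        exact one_dvd _
      · rw [hloc w (Finset.mem_insert_of_mem ((Set.Finite.mem_toFinset _).2 h0))]
        exact hv _
    · by_contra h0
      have hu' : InfinitePlace.mk (Complex.ofRealHom.comp (embedding_of_isReal hu)) = u := by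
        conv_rhs => rw [← mk_embedding u]
        congr 1
        exact RingHom.ext fun l => embedding_of_isReal_apply hu l
      have hev : Even n := by
        rw [even_iff_two_dvd]
        refine (dvd_of_eq (addOrderOf_eq_prime ?_ h0).symm).trans (hw _)
        rw [two_nsmul]
        exact (invAtInf_facts _ x).1
      refine lt_asymm (hreal hev (embedding_of_isReal hu)) ?_
      refine h ((embedding_of_isReal hu).comp (algebraMap K L)) ?_
      rwa [← comap_mk_real, hu']

/-- In odd degree every element is a norm from a maximal subfield. -/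
theorem hasse_schilling_maass_odd {D : Type} [DivisionRing D] [Algebra K D] [FiniteDimensional K D]
    [Algebra.IsCentral K D] (hD : Odd (finrank K D)) (a : Kˣ) :
    ∃ (L : Type) (_ : Field L) (_ : NumberField L) (_ : Algebra K L),
      finrank K L ^ 2 = finrank K D ∧ Nonempty (L →ₐ[K] D) ∧
        ∃ θ : L, Algebra.norm K θ = (a : K) := by
  refine (hasse_schilling_maass a).2 fun φ hφ => absurd ?_ hφ
  set w := InfinitePlace.mk (Complex.ofRealHom.comp φ)
  have h2 : addOrderOf (invAtInf w (classOf K D)) ∣ 2 := by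
    rw [addOrderOf_dvd_iff_nsmul_eq_zero, two_nsmul]
    exact (invAtInf_facts w _).1
  rw [finrank_eq_sq (D := D)] at hD
  rw [← AddMonoid.addOrderOf_eq_one_iff]
  refine Nat.eq_one_of_dvd_coprimes (k := addOrderOf _) ?_ h2
    (((orderOf_dvd_iff _ _).1 dvd_rfl).2 w)
  exact Nat.coprime_two_left.2 ((Nat.odd_pow_iff two_ne_zero).1 hD)

end FA.BrauerInvariant

end
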