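import Fermat.Agent.BrauerInvariant.Classification
import Fermat.Agent.BrauerInvariant.Compositum

/-!
# Invariants over extensions, splitting fields and subfields

The invariant of the restriction at `w` over `v` is `e f` times that at `v`. So an extension splits a
division algebra iff its local degrees are multiples of the local indices, and one of the degree of
the algebra embeds into it under the same condition.
-/

set_option autoImplicit false
set_option linter.style.haveILetI false

noncomputable section

open NumberField NumberField.InfinitePlace IsDedekindDomain Module IsMulCommutative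
open FA.ArtinRec FA.NormResidue FA.BrauerTheory FA.BrauerLocal
open scoped Classical TensorProduct Pointwise

namespace FA.BrauerInvariant

variable {K : Type} [Field K] [NumberField K] {F : Type} [Field F] [NumberField F] [Algebra K F]

variable (K) in
/-- The local degree `e f` at a prime. -/
def locDeg (w : HeightOneSpectrum (𝓞 F)) : ℕ := eIdx K w * w.asIdeal.inertiaDeg (𝓞 K)

/-- **The invariant of a restriction at a prime.** -/
theorem invAt_restriction (x : BrauerGroup.{0, 0} K) (w : HeightOneSpectrum (𝓞 F)) :
    invAt w (restriction F x) = locDeg K w • invAt (belowP K w) x := by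
  obtain ⟨N, hN, hx⟩ := exists_pow_eq_one x
  set S := insert (belowP K w) (FA.BrauerGlobal.finite_nontrivial x).toFinset
  obtain ⟨L, _, _, _, _, _, hcyc, -, hS, hreal⟩ := exists_adapted S hN
  have hsplit : restriction L x = 1 := restriction_eq_one_of_adapted hx
    (fun v hv => (hS v (Finset.mem_insert_of_mem ((Set.Finite.mem_toFinset _).2 hv))).2) hreal
  obtain ⟨σ, hσ⟩ := IsCyclic.exists_generator (α := L ≃ₐ[K] L)
  obtain ⟨a, rfl⟩ : x ∈ (cyclicHom hσ).range := by rw [cyclicHom_range hσ]; exact hsplit
  obtain ⟨L', _, _, _, _, _, _, _, _, _, σ', hσ', g, r, hg, hrσ, hinj, hr⟩ :=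
    exists_compositum F hσ
  have hv := (hS (belowP K w) (Finset.mem_insert_self _ _)).1
  obtain ⟨hw, hfrob⟩ := frob_compositum (K := K) hr hinj (w := w) hv
  have hres : restriction F (cyclicHom hσ a) =
      cyclicHom hσ' (Units.map (algebraMap K F).toMonoidHom a) :=
    restriction_cyclicHom_general hσ hσ' (IsScalarTower.toAlgHom K L L') hg
      (fun l => by rw [← hrσ]; exact (hr σ' l).symm) a
  have hchar : ∀ τ, (genChar hσ' τ).toAdd = (genChar hσ (r τ)).toAdd := fun τ => by
    obtain ⟨i, rfl⟩ := Subgroup.mem_zpowers_iff.1 (hσ' τ)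
    rw [genChar_zpow, map_zpow, hrσ, ← zpow_natCast, ← zpow_mul, genChar_zpow, ← hg]
    congr 1
    have hg0 : (g : ℚ) ≠ 0 := Nat.cast_ne_zero.2 fun h => (Module.finrank_pos (R := K) (M := L)).ne'
      (by rw [← hg, h, zero_mul])
    push_cast
    rw [mul_div_mul_left _ _ hg0]
  rw [hres, invAt_cyclicHom hσ' _ hw, hchar, invAt_cyclicHom hσ a hv, normSymbol_of_not_isRam hw,
    normSymbol_of_not_isRam hv, map_zpow, hfrob, ← toAdd_pow, ← map_pow,
    show ord w (Units.map (algebraMap K F).toMonoidHom a) =
      eIdx K w * ord (belowP K w) a from ord_baseU w a]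
  congr 2
  rw [← zpow_natCast, ← zpow_natCast (_ ^ ord (belowP K w) a), ← zpow_mul, ← zpow_mul, locDeg]
  congr 1
  push_cast
  ring

omit [NumberField K] [NumberField F] in
/-- **The invariant of a restriction at an infinite place.** -/
theorem invAtInf_restriction (x : BrauerGroup.{0, 0} K) (u : InfinitePlace F) :
    invAtInf u (restriction F x) =
      if IsReal u then invAtInf (u.comap (algebraMap K F)) x else 0 := by
  by_cases hu : IsReal u
  swap
  · rw [invAtInf, dif_neg hu, if_neg hu]
  have hw : IsReal (u.comap (algebraMap K F)) := hu.comap _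
  rw [invAtInf, dif_pos hu, if_pos hu, invAtInf, dif_pos hw]
  set φ := embedding_of_isReal hu
  have hφ : embedding_of_isReal hw = φ.comp (algebraMap K F) := RingHom.ext fun c =>
    Complex.ofReal_injective (by
      have h1 : InfinitePlace.mk (u.embedding.comp (algebraMap K F)) =
          u.comap (algebraMap K F) := by rw [← comap_mk, mk_embedding]
      rw [RingHom.comp_apply, embedding_of_isReal_apply, embedding_of_isReal_apply]
      conv_lhs => rw [← h1, embedding_mk_eq_of_isReal (isReal_mk_iff.1 (h1.symm ▸ hw))]
      rfl)
  rw [hφ]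
  letI : Algebra F ℝ := φ.toAlgebra
  letI : Algebra K ℝ := (φ.comp (algebraMap K F)).toAlgebra
  haveI : IsScalarTower K F ℝ := IsScalarTower.of_algebraMap_eq fun _ => rfl
  exact congrArg (fun y => invariantReal (Additive.ofMul y)) (restriction_restriction F ℝ x)

/-- **Splitting fields of a class.** -/
theorem restriction_eq_one_iff_invariants (x : BrauerGroup.{0, 0} K) :
    restriction F x = 1 ↔
      (∀ w : HeightOneSpectrum (𝓞 F), addOrderOf (invAt (belowP K w) x) ∣ locDeg K w) ∧
        ∀ u : InfinitePlace F, IsReal u → invAtInf (u.comap (algebraMap K F)) x = 0 := by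
  simp only [addOrderOf_dvd_iff_nsmul_eq_zero, ← invAt_restriction]
  refine ⟨fun h => ⟨fun w => by rw [h, invAt_one], fun u hu => ?_⟩, fun h => ?_⟩
  · rw [← if_pos (c := IsReal u) (e := (0 : AddCircle (1 : ℚ))) hu
      (t := invAtInf (u.comap (algebraMap K F)) x), ← invAtInf_restriction, h, invAtInf_one]
  · refine eq_one_of_invariants h.1 fun u => ?_
    rw [invAtInf_restriction]
    split_ifs with hu
    exacts [h.2 u hu, rfl]

/-- **An extension of the degree of a division algebra embeds exactly when it splits it.** -/
theorem nonempty_algHom_iff {k L D : Type} [Field k] [Field L] [Algebra k L]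
    [FiniteDimensional k L] [DivisionRing D] [Algebra k D] [FiniteDimensional k D]
    [Algebra.IsCentral k D] (hdim : finrank k D = finrank k L ^ 2) :
    Nonempty (L →ₐ[k] D) ↔ restriction L (classOf k D) = 1 := by
  constructor
  · rintro ⟨f⟩
    rw [← inv_eq_one, ← map_inv]
    exact (restriction_eq_one_iff L _).2
      ⟨_, Module.finrank_pos.ne', nonempty_split_of_embedding hdim f⟩
  · intro h
    obtain ⟨d, -, ⟨e⟩⟩ := (restriction_eq_one_iff L _).1 h
    obtain ⟨hd, -⟩ := dvd_finrank_of_split (D := D) e
    obtain rfl : d = finrank k L := Nat.pow_left_injective two_ne_zero (hd.symm.trans hdim)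
    set n := finrank k L
    let ρ : D →ₐ[k] Module.End L (Fin n → L) :=
      ((Matrix.toLinAlgEquiv'.toAlgHom.comp e.toAlgHom).restrictScalars k).comp
        Algebra.TensorProduct.includeRight
    have hn : 0 < n := Module.finrank_pos
    let v₀ : Fin n → L := fun _ => 1
    have hv₀ : v₀ ≠ 0 := fun h0 => one_ne_zero (congrFun h0 ⟨0, hn⟩)
    let T : D →ₗ[k] (Fin n → L) :=
      { toFun := fun q => ρ q v₀
        map_add' := fun p q => by rw [map_add]; rfl
        map_smul' := fun c q => by rw [map_smul]; rfl }
    have hTinj : Function.Injective T := by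
      refine (injective_iff_map_eq_zero _).2 fun q hq => ?_
      by_contra hq0
      refine hv₀ ?_
      have h1 : ρ q⁻¹ (ρ q v₀) = v₀ := by
        rw [← Module.End.mul_apply, ← map_mul, inv_mul_cancel₀ hq0, map_one, Module.End.one_apply]
      rw [← h1, show ρ q v₀ = 0 from hq, map_zero]
    have hTsurj : Function.Surjective T :=
      (LinearMap.injective_iff_surjective_of_finrank_eq_finrank (by
        rw [hdim, Module.finrank_pi_fintype, Finset.sum_const, Finset.card_univ, Fintype.card_fin,
          smul_eq_mul, sq])).1 hTinj
    choose ι hι using fun l : L => hTsurj (l • v₀)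
    have hι' : ∀ l, ρ (ι l) v₀ = l • v₀ := hι
    refine ⟨{
      toFun := ι
      map_one' := hTinj ?_
      map_mul' := fun l l' => hTinj ?_
      map_zero' := hTinj ?_
      map_add' := fun l l' => hTinj ?_
      commutes' := fun c => hTinj ?_ }⟩
    · rw [hι, one_smul]
      show v₀ = ρ 1 v₀
      rw [map_one, Module.End.one_apply]
    · rw [hι]
      show _ = ρ (ι l * ι l') v₀
      rw [map_mul, Module.End.mul_apply, hι', map_smul, hι', smul_smul, mul_comm]
    · rw [hι, zero_smul, map_zero]
    · rw [hι, map_add, hι, hι, add_smul]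
    · rw [hι, algebraMap_smul]
      show _ = ρ (algebraMap k D c) v₀
      rw [AlgHom.commutes, Module.algebraMap_end_apply]

end FA.BrauerInvariant

end
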