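import Fermat.Agent.BrauerInvariant.Restriction

/-!
# Maximal subfields of division algebras

An extension `L / K` of degree `n` is a maximal subfield of a central division algebra if and only
if for every prime power `m` exactly dividing `n` two places have all local degrees divisible by `m`.
If a single place carried the `p`-part of the degree the sum of the invariants could not vanish, and
two places carry opposite invariants `1 / m` and `- 1 / m`.
-/

set_option autoImplicit false
set_option linter.style.haveILetI false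

noncomputable section

open NumberField NumberField.InfinitePlace IsDedekindDomain Module IsMulCommutative
open FA.ArtinRec FA.LocalCFT FA.BrauerTheory FA.BrauerLocal
open scoped Classical TensorProduct Pointwise

namespace FA.BrauerInvariant

variable {K : Type} [Field K] [NumberField K] {L : Type} [Field L] [NumberField L] [Algebra K L]

/-- The places: primes and infinite places. -/
abbrev Places (K : Type) [Field K] [NumberField K] : Type :=
  HeightOneSpectrum (𝓞 K) ⊕ InfinitePlace K

/-- The invariant at a place. -/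
def placeInv (x : BrauerGroup.{0, 0} K) : Places K → AddCircle (1 : ℚ) :=
  Sum.elim (fun v => invAt v x) fun w => invAtInf w x

variable (L) in
/-- All local degrees at the place are divisible by `m`. -/
def Covers : Places K → ℕ → Prop
  | .inl v, m => ∀ w : HeightOneSpectrum (𝓞 L), belowP K w = v → m ∣ locDeg K w
  | .inr v, m => m ∣ 2 ∧ IsReal v ∧
      ∀ u : InfinitePlace L, u.comap (algebraMap K L) = v → ¬ IsReal u

variable (K L) in
/-- `L` is a maximal subfield of a central division algebra over `K`. -/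
def IsMaximalSubfield : Prop :=
  ∃ (D : Type) (_ : DivisionRing D) (_ : Algebra K D) (_ : FiniteDimensional K D)
    (_ : Algebra.IsCentral K D), finrank K D = finrank K L ^ 2 ∧ Nonempty (L →ₐ[K] D)

theorem total_eq (f : Places K → AddCircle (1 : ℚ)) (T : Finset (Places K))
    (hT : ∀ s, f s ≠ 0 → s ∈ T) :
    (∑ᶠ v, f (.inl v)) + ∑ w, f (.inr w) = ∑ s ∈ T, f s := by
  rw [← Finset.toLeft_disjSum_toRight (u := T), Finset.sum_disjSum,
    finsum_eq_sum_of_support_subset (fun v => f (.inl v)) (s := T.toLeft)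
      fun v hv => Finset.mem_toLeft.2 (hT _ hv),
    Finset.sum_subset (Finset.subset_univ T.toRight) fun w _ hw =>
      not_not.1 fun h => hw (Finset.mem_toRight.2 (hT _ h))]

theorem finite_placeInv (x : BrauerGroup.{0, 0} K) :
    {s : Places K | placeInv x s ≠ 0}.Finite :=
  (((finite_invAt x).image Sum.inl).union (Set.finite_range Sum.inr)).subset fun s hs => by
    rcases s with v | w
    · exact Or.inl ⟨v, hs, rfl⟩
    · exact Or.inr ⟨w, rfl⟩

/-- A divisor of `p ^ k r` not divisible by `p ^ k` divides `p ^ (k - 1) r`. -/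
theorem dvd_pred_pow {p k r a : ℕ} (hp : p.Prime) (ha : a ∣ p ^ k * r) (h : ¬ p ^ k ∣ a) :
    a ∣ p ^ (k - 1) * r := by
  obtain ⟨a₁, a₂, h₁, h₂, rfl⟩ := exists_dvd_and_dvd_of_dvd_mul ha
  obtain ⟨j, hj, rfl⟩ := (Nat.dvd_prime_pow hp).1 h₁
  refine mul_dvd_mul (pow_dvd_pow p ?_) h₂
  by_contra hlt
  exact h ((pow_dvd_pow p (by omega)).trans (dvd_mul_right _ _))

/-- **Two places carry each prime power of the degree.** -/
theorem exists_two_covers {x : BrauerGroup.{0, 0} K} {n : ℕ} (hn : n ≠ 0) (hord : orderOf x = n)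
    (hx : restriction L x = 1) {p : ℕ} (hp : p.Prime) (hpn : p ∣ n) :
    ∃ s t : Places K, s ≠ t ∧ Covers L s (p ^ n.factorization p) ∧
      Covers L t (p ^ n.factorization p) := by
  set k := n.factorization p
  have hk : 0 < k := hp.factorization_pos_of_dvd hn hpn
  set r := n / p ^ k
  have hnr : p ^ k * r = n := Nat.ordProj_mul_ordCompl_eq_self n p
  have hpr : ¬ p ∣ r := Nat.not_dvd_ordCompl hp hn
  have hdvd : ∀ s, addOrderOf (placeInv x s) ∣ n := fun s => by
    obtain ⟨h1, h2⟩ := (orderOf_dvd_iff x n).1 (dvd_of_eq hord)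
    rcases s with v | w
    exacts [h1 v, h2 w]
  set m := p ^ k
  have hbig : ¬ m ∣ p ^ (k - 1) * r := fun h => hpr (by
    have h' : p ^ (k - 1) * p ∣ p ^ (k - 1) * r := by
      rwa [← pow_succ, Nat.sub_add_cancel hk]
    exact Nat.dvd_of_mul_dvd_mul_left (pow_pos hp.pos _) h')
  have hcover : ∀ s, m ∣ addOrderOf (placeInv x s) → Covers L s m := by
    obtain ⟨h1, h2⟩ := (restriction_eq_one_iff_invariants x).1 hx
    intro s hs
    rcases s with v | w
    · intro u hu
      subst hu
      exact hs.trans (h1 u)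
    · have hne : invAtInf w x ≠ 0 := fun h => by
        have h' : m ∣ 1 := by simpa [placeInv, h] using hs
        exact hp.not_dvd_one ((dvd_pow_self p hk.ne').trans h')
      refine ⟨hs.trans ?_, not_not.1 fun h => hne ((invAtInf_facts w x).2 h), fun u hu hr => hne ?_⟩
      · rw [addOrderOf_dvd_iff_nsmul_eq_zero, two_nsmul]
        exact (invAtInf_facts w x).1
      · rw [← hu]; exact h2 u hr
  by_contra! hcon
  set n' := p ^ (k - 1) * r
  have hsmall : ∀ s, ¬ Covers L s m → n' • placeInv x s = 0 := fun s hs =>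
    addOrderOf_dvd_iff_nsmul_eq_zero.1
      (dvd_pred_pow hp (hnr.symm ▸ hdvd s) fun h => hs (hcover s h))
  by_cases hex : ∃ s : Places K, Covers L s m
  swap
  · refine hbig (dvd_trans (dvd_trans (dvd_mul_right m r) (dvd_of_eq (hnr.trans hord.symm))) ?_)
    push Not at hex
    refine (orderOf_dvd_iff x n').2 ⟨fun v => ?_, fun w => ?_⟩
    exacts [addOrderOf_dvd_iff_nsmul_eq_zero.2 (hsmall (.inl v) (hex _)),
      addOrderOf_dvd_iff_nsmul_eq_zero.2 (hsmall (.inr w) (hex _))]
  obtain ⟨s₀, hs₀⟩ := hex
  have hothers : ∀ s, s ≠ s₀ → n' • placeInv x s = 0 := fun s hs =>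
    hsmall s fun h => hcon s s₀ hs h hs₀
  set T := insert s₀ (finite_placeInv x).toFinset
  have hzero : ∑ s ∈ T, placeInv x s = 0 := by
    rw [← total_eq (placeInv x) T fun s hs =>
      Finset.mem_insert_of_mem ((Set.Finite.mem_toFinset _).2 hs)]
    exact sum_invariants x
  have h0 : n' • placeInv x s₀ = 0 := by
    have h := congrArg (n' • ·) hzero
    simp only [Finset.smul_sum, smul_zero] at h
    rwa [Finset.sum_eq_single_of_mem s₀ (Finset.mem_insert_self _ _) fun s _ hs => hothers s hs]
      at h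
  refine hbig (dvd_trans (dvd_trans (dvd_mul_right m r) (dvd_of_eq (hnr.trans hord.symm))) ?_)
  refine (orderOf_dvd_iff x n').2 ⟨fun v => addOrderOf_dvd_iff_nsmul_eq_zero.2 ?_,
    fun w => addOrderOf_dvd_iff_nsmul_eq_zero.2 ?_⟩
  · rcases eq_or_ne (Sum.inl v) s₀ with h | h
    · rw [← h] at h0; exact h0
    · exact hothers (.inl v) h
  · rcases eq_or_ne (Sum.inr w) s₀ with h | h
    · rw [← h] at h0; exact h0
    · exact hothers (.inr w) h

/-- **Two places with all local degrees divisible by `m` give a class of order `m` split by `L`.** -/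
theorem exists_class_of_covers {m : ℕ} (hm : m ≠ 0) {s t : Places K} (hst : s ≠ t)
    (hs : Covers L s m) (ht : Covers L t m) :
    ∃ x : BrauerGroup.{0, 0} K, orderOf x = m ∧ restriction L x = 1 := by
  set η : AddCircle (1 : ℚ) := ((((1 : ℤ) : ℚ) / m : ℚ) : AddCircle (1 : ℚ))
  have hη : ∀ j : ℕ, j • η = 0 ↔ m ∣ j := fun j => by
    rw [← AddCircle.coe_nsmul, nsmul_eq_mul, Int.cast_one, mul_one_div,
      show (j : ℚ) = ((j : ℤ) : ℚ) by norm_cast, coe_div_eq_zero_iff hm, Int.natCast_dvd_natCast]
  set f : Places K → AddCircle (1 : ℚ) := Pi.single s η + Pi.single t (-η) with hf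
  have hfs : f s = η := by simp [hf, hst]
  have hft : f t = -η := by simp [hf, Ne.symm hst]
  have hf0 : ∀ u, u ≠ s → u ≠ t → f u = 0 := fun u h1 h2 => by simp [hf, h1, h2]
  have hcov : ∀ u, f u ≠ 0 → Covers L u m := fun u hu => by
    rcases eq_or_ne u s with rfl | h1
    · exact hs
    rcases eq_or_ne u t with rfl | h2
    · exact ht
    exact absurd (hf0 u h1 h2) hu
  have hmf : ∀ u, m • f u = 0 := fun u => by
    rcases eq_or_ne u s with rfl | h1
    · rw [hfs]; exact (hη m).2 dvd_rfl
    rcases eq_or_ne u t with rfl | h2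
    · rw [hft, smul_neg, (hη m).2 dvd_rfl, neg_zero]
    rw [hf0 u h1 h2, smul_zero]
  have hsupp : ∀ u, f u ≠ 0 → u ∈ ({s, t} : Finset (Places K)) := fun u hu => by
    by_contra h
    rw [Finset.mem_insert, Finset.mem_singleton, not_or] at h
    exact hu (hf0 u h.1 h.2)
  obtain ⟨x, hv, hw⟩ := exists_invariants_eq (fun v => f (.inl v))
    ((({s, t} : Finset (Places K)).toLeft.finite_toSet).subset fun v hv =>
      Finset.mem_toLeft.2 (hsupp _ hv))
    (fun w => f (.inr w))
    (fun w => by
      by_cases h : f (.inr w) = 0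
      · rw [h, add_zero]
      · obtain ⟨j, hj⟩ := (hcov _ h).1
        rw [← two_nsmul, hj, mul_nsmul, hmf, smul_zero])
    (fun w hw => not_not.1 fun h => hw (hcov _ h).2.1)
    ((total_eq f _ hsupp).trans (by rw [Finset.sum_pair hst, hfs, hft, add_neg_cancel]))
  refine ⟨x, Nat.dvd_antisymm ((orderOf_dvd_iff x m).2 ⟨fun v => ?_, fun w => ?_⟩) ?_, ?_⟩
  · rw [hv, addOrderOf_dvd_iff_nsmul_eq_zero]; exact hmf _
  · rw [hw, addOrderOf_dvd_iff_nsmul_eq_zero]; exact hmf _
  · obtain ⟨h1, h2⟩ := (orderOf_dvd_iff x _).1 (dvd_refl (orderOf x))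
    rw [← hη, ← hfs]
    rcases s with v | w
    · rw [← hv, ← addOrderOf_dvd_iff_nsmul_eq_zero]; exact h1 v
    · rw [← hw, ← addOrderOf_dvd_iff_nsmul_eq_zero]; exact h2 w
  refine (restriction_eq_one_iff_invariants x).2 ⟨fun w => ?_, fun u hu => ?_⟩
  · rw [hv]
    by_cases h : f (.inl (belowP K w)) = 0
    · rw [h, addOrderOf_zero]; exact one_dvd _
    · exact (addOrderOf_dvd_iff_nsmul_eq_zero.2 (hmf _)).trans ((hcov _ h) w rfl)
  · rw [hw]
    by_contra h
    exact (hcov _ h).2.2 u rfl hu

/-- **Schacher's criterion.** -/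
theorem isMaximalSubfield_iff :
    IsMaximalSubfield K L ↔ ∀ p : ℕ, p.Prime → p ∣ finrank K L →
      ∃ s t : Places K, s ≠ t ∧ Covers L s (p ^ (finrank K L).factorization p) ∧
        Covers L t (p ^ (finrank K L).factorization p) := by
  haveI : FiniteDimensional K L := Module.Finite.of_restrictScalars_finite ℚ K L
  set n := finrank K L
  have hn : n ≠ 0 := Module.finrank_pos.ne'
  constructor
  · rintro ⟨D, _, _, _, _, hdim, hemb⟩ p hp hpn
    have hord : orderOf (classOf K D) = n :=
      Nat.pow_left_injective two_ne_zero ((finrank_eq_sq (D := D)).symm.trans hdim)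
    exact exists_two_covers hn hord ((nonempty_algHom_iff hdim).1 hemb) hp hpn
  · intro h
    have hex : ∀ p : ℕ, ∃ x : BrauerGroup.{0, 0} K, restriction L x = 1 ∧
        (p ∈ n.primeFactors → orderOf x = p ^ n.factorization p) := fun p => by
      by_cases hp : p ∈ n.primeFactors
      · obtain ⟨hp', hpn, -⟩ := Nat.mem_primeFactors.1 hp
        obtain ⟨s, t, hst, hs, ht⟩ := h p hp' hpn
        obtain ⟨x, h1, h2⟩ := exists_class_of_covers (pow_ne_zero _ hp'.ne_zero) hst hs ht
        exact ⟨x, h2, fun _ => h1⟩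
      · exact ⟨1, map_one _, fun h' => absurd h' hp⟩
    choose X hX hXord using hex
    set x := ∏ p ∈ n.primeFactors, X p
    have hord : orderOf x = n := by
      refine Nat.dvd_antisymm (orderOf_dvd_of_pow_eq_one ?_)
        ((Nat.dvd_iff_prime_pow_dvd_dvd _ _).2 fun q j hq hj => ?_)
      · rw [← Finset.prod_pow]
        refine Finset.prod_eq_one fun p hp => orderOf_dvd_iff_pow_eq_one.1 ?_
        rw [hXord p hp]
        exact Nat.ordProj_dvd n p
      rcases Nat.eq_zero_or_pos j with rfl | hj0
      · rw [pow_zero]; exact one_dvd _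
      have hqn : q ∈ n.primeFactors :=
        Nat.mem_primeFactors.2 ⟨hq, (dvd_pow_self q hj0.ne').trans hj, hn⟩
      refine (pow_dvd_pow q ((hq.pow_dvd_iff_le_factorization hn).1 hj)).trans ?_
      set r := n / q ^ n.factorization q
      have hcop : Nat.Coprime (q ^ n.factorization q) r :=
        (Nat.coprime_ordCompl hq hn).pow_left _
      refine hcop.dvd_of_dvd_mul_right ?_
      rw [← hXord q hqn]
      refine orderOf_dvd_of_pow_eq_one ?_
      have h1 : x ^ (orderOf x * r) = 1 := by rw [pow_mul, pow_orderOf_eq_one, one_pow]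
      rw [← Finset.prod_pow, Finset.prod_eq_single_of_mem q hqn fun p hp hne => ?_] at h1
      · exact h1
      · refine orderOf_dvd_iff_pow_eq_one.1 (Dvd.dvd.mul_left ?_ _)
        rw [hXord p hp]
        obtain ⟨hp', -, -⟩ := Nat.mem_primeFactors.1 hp
        refine (((Nat.coprime_primes hp' hq).2 hne).pow (n.factorization p) (n.factorization q)).dvd_of_dvd_mul_left ?_
        rw [Nat.ordProj_mul_ordCompl_eq_self]
        exact Nat.ordProj_dvd n p
    obtain ⟨D, i1, i2, i3, i4, hD⟩ := exists_division_rep x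
    have hclass : classOf K D = x := hD.symm
    have hdim : finrank K D = n ^ 2 := by rw [finrank_eq_sq (D := D), hclass, hord]
    refine ⟨D, i1, i2, i3, i4, hdim, (nonempty_algHom_iff hdim).2 ?_⟩
    rw [hclass, map_prod]
    exact Finset.prod_eq_one fun p _ => hX p

section galois

variable [IsGalois K L]

/-- In a Galois extension the local degree is the order of the decomposition group. -/
theorem locDeg_eq_card (w : HeightOneSpectrum (𝓞 L)) :
    locDeg K w = Nat.card (MulAction.stabilizer (L ≃ₐ[K] L) w.asIdeal) := by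
  set v := belowP K w
  haveI : w.asIdeal.LiesOver v.asIdeal := ⟨rfl⟩
  haveI := v.isMaximal
  haveI := w.isMaximal
  haveI : Finite (𝓞 K ⧸ v.asIdeal) := Ideal.finiteQuotientOfFreeOfNeBot _ v.ne_bot
  haveI : PerfectField v.asIdeal.ResidueField :=
    haveI : Finite v.asIdeal.ResidueField := Finite.of_surjective _
      (IsFractionRing.surjective_iff_isField.2 (Ideal.Quotient.maximal_ideal_iff_isField_quotient
        v.asIdeal |>.1 inferInstance) : Function.Surjective
          (algebraMap (𝓞 K ⧸ v.asIdeal) v.asIdeal.ResidueField))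
    PerfectField.ofFinite
  rw [Ideal.card_stabilizer_eq (G := L ≃ₐ[K] L) v.asIdeal w.asIdeal, locDeg, eIdx,
    Ideal.ramificationIdx'_eq_ramificationIdx v.asIdeal w.asIdeal v.ne_bot,
    Ideal.ramificationIdxIn_eq_ramificationIdx v.asIdeal w.asIdeal (L ≃ₐ[K] L),
    Ideal.inertiaDegIn_eq_inertiaDeg v.asIdeal w.asIdeal (L ≃ₐ[K] L)]

/-- The covering condition in a Galois extension. -/
theorem covers_iff (s : Places K) (m : ℕ) :
    Covers L s m ↔ match s with
      | .inl v => ∀ Q : HeightOneSpectrum (𝓞 L), belowP K Q = v →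
          m ∣ Nat.card (MulAction.stabilizer (L ≃ₐ[K] L) Q.asIdeal)
      | .inr v => m ∣ 2 ∧ ¬ v.IsUnramifiedIn L := by
  rcases s with v | v
  · simp only [Covers, locDeg_eq_card]
  · refine and_congr_right fun _ => ⟨fun ⟨hr, hall⟩ hun => ?_, fun hram => ?_⟩
    · obtain ⟨u, hu⟩ := InfinitePlace.comap_surjective (K := L) v
      replace hu : u.comap (algebraMap K L) = v := hu
      rcases InfinitePlace.isUnramified_iff.1 (hun u hu) with h | h
      · exact hall u hu h
      · rw [hu] at h
        exact not_isReal_iff_isComplex.2 h hr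
    · have hall : ∀ u : InfinitePlace L, u.comap (algebraMap K L) = v → ¬ u.IsUnramified K :=
        fun u hu hun => hram (hu ▸ InfinitePlace.isUnramifiedIn_comap.2 hun)
      refine ⟨?_, fun u hu hr => hall u hu (InfinitePlace.isUnramified_iff.2 (Or.inl hr))⟩
      obtain ⟨u, hu⟩ := InfinitePlace.comap_surjective (K := L) v
      replace hu : u.comap (algebraMap K L) = v := hu
      exact not_isComplex_iff_isReal.1 fun hc => hall u hu
        (InfinitePlace.isUnramified_iff.2 (Or.inr (hu ▸ hc)))

/-- **Every cyclic extension is a maximal subfield of a division algebra.** -/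
theorem isMaximalSubfield_of_cyclic [IsCyclic (L ≃ₐ[K] L)] : IsMaximalSubfield K L := by
  haveI : IsMulCommutative (L ≃ₐ[K] L) := IsCyclic.isMulCommutative
  obtain ⟨σ, hσ⟩ := IsCyclic.exists_generator (α := L ≃ₐ[K] L)
  refine isMaximalSubfield_iff.2 fun p hp _ => ?_
  have hinf := (infinite_artinAt (K := K) σ).sdiff (finite_isRam K L)
  obtain ⟨u, hu⟩ := hinf.nonempty
  obtain ⟨u', hu'⟩ := (hinf.sdiff (Set.finite_singleton u)).nonempty
  have hcov : ∀ v, ¬ IsRam L v → artinAt L v = σ →
      Covers L (.inl v : Places K) (p ^ (finrank K L).factorization p) := fun v hr ha w hw => by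
    rw [locDeg_eq_card]
    obtain ⟨t, ht⟩ := exists_frob (K := K) w
    have ht' : t = σ := (artinAt_eq hr hw ht).trans ha
    have htop : MulAction.stabilizer (L ≃ₐ[K] L) w.asIdeal = ⊤ := by
      refine eq_top_iff.2 fun g _ => Subgroup.zpowers_le.2 ?_ (hσ g)
      exact ht' ▸ ht.mem_stabilizer
    rw [htop, Subgroup.card_top, IsGalois.card_aut_eq_finrank]
    exact Nat.ordProj_dvd _ _
  exact ⟨.inl u, .inl u', fun h => hu'.2 (Sum.inl_injective h).symm, hcov u hu.2 hu.1,
    hcov u' hu'.1.2 hu'.1.1⟩

end galois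

end FA.BrauerInvariant

end
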