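import Fermat.Agent.BrauerInvariant.Schacher
import Fermat.Agent.TateTwo.Approximation
import Mathlib.RingTheory.IntegralDomain
import Mathlib.NumberTheory.Padics.HeightOneSpectrum
import Mathlib.GroupTheory.Perm.Cycle.Type

/-!
# The Sylow subgroups of an admissible Galois group are metacyclic

The `p`-part of a decomposition group at a prime not over `p` is tame, so it is cyclic by cyclic: the
inertia part embeds into the residue field by the action on a uniformiser and the quotient into the
Galois group of the residue fields. Over `ℚ` one of two covering places is not over `p`.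
-/

set_option autoImplicit false
set_option linter.style.haveILetI false
set_option linter.unusedSectionVars false

noncomputable section

open NumberField IsDedekindDomain Module
open FA.ArtinRec
open scoped Pointwise

namespace FA.BrauerInvariant

/-! ### Tame inertia -/

section tame

variable {B : Type} [CommRing B] [IsDedekindDomain B] {P : Ideal B} (hP : Prime P)
  {I : Type} [Group I] [MulSemiringAction I B] (hI : ∀ (σ : I) (x : B), σ • x - x ∈ P)

include hI in
theorem tame_step {τ : I} (h2 : ∀ x : B, τ • x - x ∈ P ^ 2) :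
    ∀ (m : ℕ) (x : B), x ∈ P ^ m → τ • x - x ∈ P ^ (m + 1) := by
  intro m
  induction m with
  | zero => exact fun x _ => by rw [zero_add, pow_one]; exact hI τ x
  | succ m ih =>
    intro x hx
    rw [pow_succ] at hx
    refine Submodule.mul_induction_on hx (fun a ha b hb => ?_) fun a b ha hb => ?_
    · rw [show τ • (a * b) - a * b = τ • a * (τ • b - b) + (τ • a - a) * b by
        rw [smul_mul']; ring]
      refine add_mem ?_ ?_
      · rw [show m + 1 + 1 = m + 2 by omega, pow_add]
        exact Ideal.mul_mem_mul (FA.TateTwo.smul_mem_pow hI ha) (h2 b)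
      · rw [pow_succ]
        exact Ideal.mul_mem_mul (ih a ha) hb
    · rw [smul_add, show τ • a + τ • b - (a + b) = τ • a - a + (τ • b - b) by ring]
      exact add_mem ha hb

include hP hI in
/-- **Tame inertia is cyclic.** -/
theorem isCyclic_of_tame [Finite I] [FaithfulSMul I B] [Finite (B ⧸ P)] {p : ℕ} (hp : p.Prime)
    (hG : IsPGroup p I) (hpP : (p : B) ∉ P) : IsCyclic I := by
  haveI : P.IsMaximal := (Ideal.isPrime_of_prime hP).isMaximal hP.ne_zero
  letI : Field (B ⧸ P) := Ideal.Quotient.field P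
  obtain ⟨π, hπ, hπ'⟩ := Ideal.exists_mem_pow_notMem_pow_succ P hP.ne_zero
    (Ideal.IsMaximal.ne_top inferInstance) 1
  rw [pow_one] at hπ
  have hmove : ∀ σ : I, ∃ c, σ • π - π * c ∈ P ^ 2 := fun σ => by
    obtain ⟨c, w, hw, hc⟩ := FA.TateTwo.exists_mul_add hP (d := 1) hπ'
      (x := σ • π) (by rw [pow_one]; exact (FA.TateTwo.smul_mem_iff_prime hI σ π).2 hπ) 2
    exact ⟨c, by rwa [hc, add_sub_cancel_left]⟩
  choose c hc using hmove
  have huniq : ∀ (σ : I) (d : B), σ • π - π * d ∈ P ^ 2 →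
      Ideal.Quotient.mk P (c σ) = Ideal.Quotient.mk P d := fun σ d hd => by
    rw [Ideal.Quotient.mk_eq_mk_iff_sub_mem, ← pow_one P]
    refine FA.TateTwo.mem_pow_mul_cancel hP (k := 1) (a := 1) hπ' ?_
    rw [show (c σ - d) * π = (σ • π - π * d) - (σ • π - π * c σ) by ring]
    exact sub_mem hd (hc σ)
  let χ : I →* B ⧸ P :=
    { toFun := fun σ => Ideal.Quotient.mk P (c σ)
      map_one' := by rw [huniq 1 1 (by simp), map_one]
      map_mul' := fun σ τ => by
        rw [← map_mul]
        refine huniq _ _ ?_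
        rw [mul_smul, show σ • τ • π - π * (c σ * c τ) = σ • (τ • π - π * c τ) +
            (σ • π - π * c σ) * σ • c τ + π * c σ * (σ • c τ - c τ) by
          rw [smul_sub, smul_mul']; ring]
        refine add_mem (add_mem (FA.TateTwo.smul_mem_pow hI (hc τ))
          (Ideal.mul_mem_right _ _ (hc σ))) ?_
        rw [sq, mul_assoc]
        exact Ideal.mul_mem_mul hπ (Ideal.mul_mem_left _ _ (hI σ _)) }
  have hker : ∀ τ : I, χ τ = 1 → τ ^ p = 1 → τ = 1 := fun τ h1 hτp => by
    by_contra hne
    have hπ2 : τ • π - π ∈ P ^ 2 := by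
      have hc1 : c τ - 1 ∈ P := (Ideal.Quotient.mk_eq_mk_iff_sub_mem _ _).1 (h1.trans (map_one _).symm)
      rw [show τ • π - π = (τ • π - π * c τ) + π * (c τ - 1) by ring]
      refine add_mem (hc τ) ?_
      rw [sq]
      exact Ideal.mul_mem_mul hπ hc1
    have hall : ∀ x, τ • x - x ∈ P ^ 2 := FA.TateTwo.smul_sub_mem hP hI hπ hπ' hπ2
    set δ := τ • π - π with hδ
    have hδ0 : δ ≠ 0 := sub_ne_zero.2 (FA.TateTwo.smul_uniformiser_ne hP hI hπ hπ' hne)
    set m := FA.TateTwo.vP P δ
    have hδm : δ ∈ P ^ m := (FA.TateTwo.mem_pow_iff hP hδ0 m).2 le_rfl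
    have hstep := tame_step hI hall m δ hδm
    have hiter : ∀ j : ℕ, τ ^ j • π - π - j * δ ∈ P ^ (m + 1) := by
      intro j
      induction j with
      | zero => simp
      | succ j ih =>
        have hjj : τ • (j : B) = j := map_natCast (MulSemiringAction.toRingHom I B τ) j
        rw [pow_succ' τ, mul_smul, show τ • τ ^ j • π - π - ((j + 1 : ℕ) : B) * δ =
            τ • (τ ^ j • π - π - j * δ) + (j : B) * (τ • δ - δ) by
          rw [smul_sub, smul_sub, smul_mul', hjj, hδ]; push_cast; ring]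
        exact add_mem (FA.TateTwo.smul_mem_pow hI ih) (Ideal.mul_mem_left _ _ hstep)
    have h' := hiter p
    rw [hτp, one_smul, sub_self, zero_sub, neg_mem_iff, mul_comm] at h'
    have h'' := FA.TateTwo.mem_pow_mul_cancel hP (k := m + 1) (a := 0)
      (by rwa [zero_add, pow_one]) h'
    have := (FA.TateTwo.mem_pow_iff hP hδ0 (m + 1)).1 h''
    omega
  have hinj : Function.Injective χ.toHomUnits := by
    refine (injective_iff_map_eq_one _).2 fun σ hσ => ?_
    by_contra hne
    obtain ⟨k, hk⟩ := hG σ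
    haveI : Fact p.Prime := ⟨hp⟩
    obtain ⟨j, hj, hord⟩ := (Nat.dvd_prime_pow hp).1 (orderOf_dvd_of_pow_eq_one hk)
    rcases j with _ | j
    · exact hne (orderOf_eq_one_iff.1 (by rw [hord, pow_zero]))
    refine orderOf_ne_zero_iff.2 (isOfFinOrder_of_finite σ) ?_
    have hτ : σ ^ p ^ j = 1 := hker _ (by
      have h1 := congrArg Units.val hσ
      rw [MonoidHom.coe_toHomUnits, Units.val_one] at h1
      rw [map_pow, h1, one_pow]) (by rw [← pow_mul, ← pow_succ, ← hord, pow_orderOf_eq_one])
    exact absurd (Nat.le_of_dvd (pow_pos hp.pos j) (hord ▸ orderOf_dvd_of_pow_eq_one hτ))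
      (not_le.2 (pow_lt_pow_right₀ hp.one_lt j.lt_succ_self))
  exact isCyclic_of_injective χ.toHomUnits hinj

end tame

/-! ### Metacyclic groups -/

/-- A cyclic normal subgroup with cyclic quotient. -/
def IsMetacyclic (G : Type) [Group G] : Prop :=
  ∃ (N : Subgroup G) (_ : N.Normal), IsCyclic N ∧ IsCyclic (G ⧸ N)

theorem isMetacyclic_of_hom {G C : Type} [Group G] [Group C] [IsCyclic C] (f : G →* C)
    (h : IsCyclic f.ker) : IsMetacyclic G :=
  ⟨f.ker, inferInstance, h, isCyclic_of_injective (QuotientGroup.kerLift f)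
    (QuotientGroup.kerLift_injective f)⟩

theorem isMetacyclic_of_cyclic {G : Type} [Group G] [IsCyclic G] : IsMetacyclic G :=
  isMetacyclic_of_hom (MonoidHom.id G) (Subgroup.isCyclic _)

theorem IsMetacyclic.of_equiv {G G' : Type} [Group G] [Group G'] (e : G ≃* G')
    (h : IsMetacyclic G) : IsMetacyclic G' := by
  obtain ⟨N, hN, hNc, hQ⟩ := h
  let f := (QuotientGroup.mk' N).comp e.symm.toMonoidHom
  have hmem : ∀ x : f.ker, e.symm x ∈ N := fun x => (QuotientGroup.eq_one_iff _).1 x.2
  refine isMetacyclic_of_hom f ?_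
  exact isCyclic_of_injective ((e.symm.toMonoidHom.comp f.ker.subtype).codRestrict N hmem)
    fun x y hxy => Subtype.ext (e.symm.injective (congrArg Subtype.val hxy))

variable {K : Type} [Field K] [NumberField K] {L : Type} [Field L] [NumberField L] [Algebra K L]
  [IsGalois K L]

/-- **A decomposition group not over `p` with the full `p`-part has metacyclic Sylow subgroups.** -/
theorem sylow_metacyclic_of_decomposition {p : ℕ} [hp : Fact p.Prime]
    (Q : HeightOneSpectrum (𝓞 L)) (hpQ : (p : 𝓞 L) ∉ Q.asIdeal)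
    (hdvd : p ^ (Nat.card (L ≃ₐ[K] L)).factorization p ∣
      Nat.card (MulAction.stabilizer (L ≃ₐ[K] L) Q.asIdeal))
    (P : Sylow p (L ≃ₐ[K] L)) : IsMetacyclic P := by
  classical
  set G := L ≃ₐ[K] L
  set D := MulAction.stabilizer G Q.asIdeal with hD
  let S : Sylow p D := default
  have hfac : (Nat.card D).factorization p = (Nat.card G).factorization p :=
    le_antisymm ((Nat.factorization_le_iff_dvd Nat.card_pos.ne' Nat.card_pos.ne').2
        D.card_subgroup_dvd_card p)
      ((hp.out.pow_dvd_iff_le_factorization Nat.card_pos.ne').1 hdvd)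
  let e := (S : Subgroup D).equivMapOfInjective D.subtype D.subtype_injective
  let S' : Sylow p G := Sylow.ofCard ((S : Subgroup D).map D.subtype) (by
    rw [← Nat.card_congr e.toEquiv, S.card_eq_multiplicity, hfac])
  refine IsMetacyclic.of_equiv (G := S) (e.trans (S'.equiv P)) ?_
  set v := belowP K Q
  haveI : Q.asIdeal.LiesOver v.asIdeal := ⟨rfl⟩
  haveI := v.isMaximal
  haveI := Q.isMaximal
  haveI : Finite (𝓞 L ⧸ Q.asIdeal) := Ideal.finiteQuotientOfFreeOfNeBot _ Q.ne_bot
  letI := Ideal.Quotient.field v.asIdeal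
  letI := Ideal.Quotient.field Q.asIdeal
  let φ := (Ideal.Quotient.stabilizerHom Q.asIdeal v.asIdeal G).comp (S : Subgroup D).subtype
  refine isMetacyclic_of_hom φ ?_
  haveI : FaithfulSMul G (𝓞 L) :=
    (IsGaloisGroup.of_isFractionRing G (𝓞 K) (𝓞 L) K L).faithful
  have hI : ∀ (σ : φ.ker) (x : 𝓞 L), σ • x - x ∈ Q.asIdeal := fun σ x => by
    have h : ((σ : S) : D) ∈ (Ideal.Quotient.stabilizerHom Q.asIdeal v.asIdeal G).ker := σ.2
    rw [Ideal.Quotient.ker_stabilizerHom] at h
    exact h x
  haveI : FaithfulSMul φ.ker (𝓞 L) := ⟨fun {a b} h => Subtype.ext (Subtype.ext (Subtype.ext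
    (FaithfulSMul.eq_of_smul_eq_smul (M := G) (α := 𝓞 L) fun x => h x)))⟩
  exact isCyclic_of_tame (Ideal.prime_of_isPrime Q.ne_bot Q.isPrime) hI hp.out
    (S.isPGroup'.to_subgroup φ.ker) hpQ

/-- Over `ℚ` only one prime contains `p`. -/
theorem eq_of_natCast_mem {p : ℕ} (hp : p.Prime) {v v' : HeightOneSpectrum (𝓞 ℚ)}
    (hv : (p : 𝓞 ℚ) ∈ v.asIdeal) (hv' : (p : 𝓞 ℚ) ∈ v'.asIdeal) : v = v' := by
  let e := Rat.ringOfIntegersEquiv
  have key : ∀ w : HeightOneSpectrum (𝓞 ℚ), (p : 𝓞 ℚ) ∈ w.asIdeal →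
      w.asIdeal.comap e.symm = Ideal.span {(p : ℤ)} := fun w hw => by
    have hmax : (Ideal.span {(p : ℤ)}).IsMaximal := PrincipalIdealRing.isMaximal_of_irreducible
      (Nat.prime_iff_prime_int.mp hp).irreducible
    refine (hmax.eq_of_le
      (Ideal.comap_ne_top _ w.isPrime.ne_top) ?_).symm
    rw [Ideal.span_le, Set.singleton_subset_iff, SetLike.mem_coe, Ideal.mem_comap, map_natCast]
    exact hw
  refine HeightOneSpectrum.ext (Ideal.comap_injective_of_surjective e.symm e.symm.surjective ?_)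
  rw [key v hv, key v' hv']

/-- **Schacher's theorem: the Sylow subgroups of a `ℚ`-admissible group are metacyclic.** -/
theorem sylow_metacyclic_of_admissible {L : Type} [Field L] [NumberField L] [IsGalois ℚ L]
    (h : IsMaximalSubfield ℚ L) (p : ℕ) [hp : Fact p.Prime] (P : Sylow p (L ≃ₐ[ℚ] L)) :
    IsMetacyclic P := by
  set n := Nat.card (L ≃ₐ[ℚ] L) with hn
  have hP : Nat.card P = p ^ n.factorization p := P.card_eq_multiplicity
  by_cases hpn : p ∣ n
  swap
  · rw [Nat.factorization_eq_zero_of_not_dvd hpn, pow_zero] at hP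
    haveI : Subsingleton P := (Nat.card_eq_one_iff_unique.1 hP).1
    exact isMetacyclic_of_cyclic
  have hfin : finrank ℚ L = n := (IsGalois.card_aut_eq_finrank ℚ L).symm
  obtain ⟨s, t, hst, hs, ht⟩ := isMaximalSubfield_iff.1 h p hp.out (hfin ▸ hpn)
  rw [hfin, covers_iff] at hs ht
  have hinf : p ^ n.factorization p ∣ 2 → IsMetacyclic P := fun h2 => by
    rcases (Nat.dvd_prime Nat.prime_two).1 h2 with h1 | h1
    · rw [h1] at hP
      haveI : Subsingleton P := (Nat.card_eq_one_iff_unique.1 hP).1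
      exact isMetacyclic_of_cyclic
    · haveI : Fact (Nat.Prime 2) := ⟨Nat.prime_two⟩
      haveI : IsCyclic P := isCyclic_of_prime_card (p := 2) (hP.trans h1)
      exact isMetacyclic_of_cyclic
  rcases s with v | w
  swap
  · exact hinf hs.1
  rcases t with v' | w
  swap
  · exact hinf ht.1
  have main : ∀ u : HeightOneSpectrum (𝓞 ℚ), (p : 𝓞 ℚ) ∉ u.asIdeal →
      (∀ Q : HeightOneSpectrum (𝓞 L), belowP ℚ Q = u →
        p ^ n.factorization p ∣ Nat.card (MulAction.stabilizer (L ≃ₐ[ℚ] L) Q.asIdeal)) →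
      IsMetacyclic P := fun u hu hdvd => by
    obtain ⟨Q, hQ⟩ := exists_belowP ℚ L u
    refine sylow_metacyclic_of_decomposition Q (fun hmem => hu ?_) (hdvd Q hQ) P
    rw [← hQ]
    show algebraMap (𝓞 ℚ) (𝓞 L) (p : 𝓞 ℚ) ∈ Q.asIdeal
    rw [map_natCast]
    exact hmem
  by_cases hv : (p : 𝓞 ℚ) ∈ v.asIdeal
  · exact main v' (fun hv' => hst (congrArg Sum.inl (eq_of_natCast_mem hp.out hv hv'))) ht
  · exact main v hv hs

end FA.BrauerInvariant

end
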