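import Fermat.Agent.BrauerInvariant.Adapted
import Fermat.Agent.BrauerInvariant.Invariant
import Fermat.Agent.BrauerGlobal.Cyclic
import Mathlib.Analysis.Complex.Polynomial.Basic

/-!
# The sum of the invariants is zero

For a class split by a cyclic extension the invariant at a place where it is unramified, or at a
place where the class is trivial, is the value at the norm residue symbol of a fixed character of the
Galois group, so the vanishing of the sum is the product formula.
-/

set_option autoImplicit false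
set_option linter.style.haveILetI false

noncomputable section

open NumberField NumberField.InfinitePlace IsDedekindDomain Module IsMulCommutative
open FA.ArtinRec FA.Ideles FA.LocalCFT FA.NormResidue FA.BrauerTheory FA.BrauerLocal
open scoped Pointwise Classical

namespace FA.BrauerInvariant

variable {K : Type} [Field K] [NumberField K] {L : Type} [Field L] [NumberField L] [Algebra K L]
  [IsGalois K L] {σ : L ≃ₐ[K] L}

/-- The character `σ ↦ 1 / [L:K]`. -/
def genChar (hσ : ∀ g, g ∈ Subgroup.zpowers σ) :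
    (L ≃ₐ[K] L) →* Multiplicative (AddCircle (1 : ℚ)) :=
  monoidHomOfForallMemZpowers hσ
    (g' := Multiplicative.ofAdd ((((1 : ℤ) : ℚ) / finrank K L : ℚ) : AddCircle (1 : ℚ))) <| by
    rw [orderOf_eq_card_of_forall_mem_zpowers hσ, IsGalois.card_aut_eq_finrank,
      orderOf_dvd_iff_pow_eq_one, ← ofAdd_nsmul, ofAdd_eq_one, ← AddCircle.coe_nsmul, Int.cast_one,
      nsmul_eq_mul, mul_one_div_cancel (Nat.cast_ne_zero.2 Module.finrank_pos.ne'),
      AddCircle.coe_period]

theorem genChar_zpow (hσ : ∀ g, g ∈ Subgroup.zpowers σ) (i : ℤ) :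
    (genChar hσ (σ ^ i)).toAdd = (((i : ℚ) / finrank K L : ℚ) : AddCircle (1 : ℚ)) := by
  rw [map_zpow, genChar, monoidHomOfForallMemZpowers_apply_gen, toAdd_zpow, toAdd_ofAdd,
    ← AddCircle.coe_zsmul, zsmul_eq_mul, Int.cast_one, mul_one_div]

/-- An involution is the middle power of the generator. -/
theorem eq_pow_half (hσ : ∀ g, g ∈ Subgroup.zpowers σ) {h : ℕ} (hn : finrank K L = h * 2)
    {d : L ≃ₐ[K] L} (hd : d ^ 2 = 1) (hd1 : d ≠ 1) : d = σ ^ h := by
  have hord : orderOf σ = h * 2 := by
    rw [orderOf_eq_card_of_forall_mem_zpowers hσ, IsGalois.card_aut_eq_finrank, hn]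
  obtain ⟨i, rfl⟩ := Subgroup.mem_zpowers_iff.1 (hσ d)
  rw [← zpow_natCast, ← zpow_mul, ← orderOf_dvd_iff_zpow_eq_one, hord] at hd
  push_cast at hd
  obtain ⟨j, rfl⟩ := Int.dvd_of_mul_dvd_mul_right two_ne_zero hd
  obtain ⟨t, rfl | rfl⟩ := Int.even_or_odd' j
  · refine absurd ?_ hd1
    rw [← orderOf_dvd_iff_zpow_eq_one, hord]
    exact ⟨t, by push_cast; ring⟩
  · rw [← zpow_natCast, ← div_eq_one, div_eq_mul_inv, ← zpow_sub, ← orderOf_dvd_iff_zpow_eq_one, hord]
    exact ⟨t, by push_cast; ring⟩

section finite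

variable [IsMulCommutative (L ≃ₐ[K] L)]

/-- The restriction of a cyclic algebra to a completion, with the generator of the decomposition
group. -/
theorem exists_restriction_completion (hσ : ∀ g, g ∈ Subgroup.zpowers σ)
    (Q : HeightOneSpectrum (𝓞 L)) :
    ∃ (g : ℕ) (d : MulAction.stabilizer (L ≃ₐ[K] L) Q.asIdeal)
      (hd : ∀ t, t ∈ Subgroup.zpowers (IsGaloisGroup.mulEquivAlgEquiv
        (MulAction.stabilizer (L ≃ₐ[K] L) Q.asIdeal) ((belowP K Q).adicCompletion K)
        (Q.adicCompletion L) d)),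
      g * finrank ((belowP K Q).adicCompletion K) (Q.adicCompletion L) = finrank K L ∧
      (d : L ≃ₐ[K] L) = σ ^ g ∧ (∀ t, t ∈ Subgroup.zpowers d) ∧
      ∀ a : Kˣ, restriction ((belowP K Q).adicCompletion K) (cyclicHom hσ a) =
        cyclicHom hd (localEmb (belowP K Q) a) := by
  set D := MulAction.stabilizer (L ≃ₐ[K] L) Q.asIdeal
  set E := (belowP K Q).adicCompletion K
  set E' := Q.adicCompletion L
  set e := IsGaloisGroup.mulEquivAlgEquiv D E E'
  set g := D.index
  haveI : D.Normal := ⟨fun a ha b => by rwa [mul_comm b a, mul_inv_cancel_right]⟩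
  have hg0 : g ≠ 0 := Subgroup.index_ne_zero_of_finite
  have hcard : g * Nat.card D = finrank K L := by
    rw [mul_comm, D.card_mul_index, IsGalois.card_aut_eq_finrank]
  set d : D := ⟨σ ^ g, D.pow_index_mem σ⟩
  have hgen : ∀ t, t ∈ Subgroup.zpowers d := by
    have hord : orderOf d = Nat.card D := by
      rw [← Subgroup.orderOf_coe d, orderOf_pow_of_dvd hg0 (by
        rw [orderOf_eq_card_of_forall_mem_zpowers hσ, IsGalois.card_aut_eq_finrank, ← hcard]
        exact dvd_mul_right _ _), orderOf_eq_card_of_forall_mem_zpowers hσ,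
        IsGalois.card_aut_eq_finrank, ← hcard, Nat.mul_div_cancel_left _ (Nat.pos_of_ne_zero hg0)]
    exact fun t => (Subgroup.eq_top_of_card_eq _ ((Nat.card_zpowers d).trans hord)).symm ▸
      Subgroup.mem_top t
  have hd : ∀ t, t ∈ Subgroup.zpowers (e d) := fun t => by
    obtain ⟨t, rfl⟩ := e.surjective t
    obtain ⟨i, rfl⟩ := Subgroup.mem_zpowers_iff.1 (hgen t)
    exact ⟨i, (map_zpow e d i).symm⟩
  have hdeg : g * finrank E E' = finrank K L := by rw [finrank_above, hcard]
  refine ⟨g, d, hd, hdeg, rfl, hgen, fun a => ?_⟩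
  letI : Algebra K E' := ((algebraMap L E').comp (algebraMap K L)).toAlgebra
  haveI : IsScalarTower K L E' := IsScalarTower.of_algebraMap_eq fun _ => rfl
  haveI : IsScalarTower K E E' :=
    IsScalarTower.of_algebraMap_eq fun c => (belowHom_algebraMap (K := K) Q c).symm
  exact restriction_cyclicHom_general hσ hd (IsScalarTower.toAlgHom K L E') hdeg
    (fun l => decHom_algebraMap Q d l) a

/-- **A cyclic algebra is trivial at a prime exactly when the symbol is.** -/
theorem restriction_eq_one_iff_normSymbol (hσ : ∀ g, g ∈ Subgroup.zpowers σ) (a : Kˣ)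
    (v : HeightOneSpectrum (𝓞 K)) :
    restriction (v.adicCompletion K) (cyclicHom hσ a) = 1 ↔ normSymbol L v a = 1 := by
  obtain ⟨Q, rfl⟩ := exists_belowP K L v
  obtain ⟨g, d, hd, -, -, -, hres⟩ := exists_restriction_completion hσ Q
  rw [hres, ← MonoidHom.mem_ker, cyclicHom_ker, ← localArtin_localEmb]
  exact (SetLike.ext_iff.1 (range_normC (K := K) Q) _).trans MonoidHom.mem_ker

/-- **The invariant at an unramified prime is given by the symbol.** -/
theorem invAt_cyclicHom (hσ : ∀ g, g ∈ Subgroup.zpowers σ) (a : Kˣ) {v : HeightOneSpectrum (𝓞 K)}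
    (hv : ¬ IsRam L v) : invAt v (cyclicHom hσ a) = (genChar hσ (normSymbol L v a)).toAdd := by
  obtain ⟨Q, rfl⟩ := exists_belowP K L v
  obtain ⟨g, d, hd, hdeg, hdσ, hgen, hres⟩ := exists_restriction_completion hσ Q
  let e := IsGaloisGroup.mulEquivAlgEquiv (MulAction.stabilizer (L ≃ₐ[K] L) Q.asIdeal)
    ((belowP K Q).adicCompletion K) (Q.adicCompletion L)
  obtain ⟨hun, φ, hφ, hφgen, -, -⟩ := completion_facts (Q := Q) hv
  obtain ⟨δ, rfl⟩ := e.surjective φ
  have hart : (δ : L ≃ₐ[K] L) = artinAt L (belowP K Q) := (isFrobenius_iff hv δ).1 hφ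
  obtain ⟨m, hm : d ^ m = δ⟩ := (isOfFinOrder_of_finite d).mem_powers_iff_mem_zpowers.2 (hgen δ)
  have hm' : ∀ t, t ∈ Subgroup.zpowers (e d ^ m) := by
    rw [← map_pow, hm]; exact hφgen
  have hfrob : IsFrobenius (belowP K Q) (e d ^ m) := by rw [← map_pow, hm]; exact hφ
  rw [invAt, invariant_ofMul, hres, ← cyclicHom_pow_generator hd hm',
    invFun_cyclicHom hm' hun hfrob, locOrd_pow, locOrd_localEmb]
  rw [normSymbol_of_not_isRam hv, ← hart, ← hm, SubmonoidClass.coe_pow, hdσ, ← pow_mul,
    ← zpow_natCast, ← zpow_mul, genChar_zpow]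
  congr 1
  have hd0 : (finrank ((belowP K Q).adicCompletion K) (Q.adicCompletion L) : ℚ) ≠ 0 :=
    Nat.cast_ne_zero.2 Module.finrank_pos.ne'
  have hg0 : (g : ℚ) ≠ 0 := Nat.cast_ne_zero.2 fun h => (Module.finrank_pos (R := K) (M := L)).ne'
    (by rw [← hdeg, h, zero_mul])
  rw [← hdeg]
  push_cast
  rw [mul_assoc, mul_div_mul_left _ _ hg0]

/-- **The invariant at an infinite place, ramified if real.** -/
theorem invAtInf_cyclicHom (hσ : ∀ g, g ∈ Subgroup.zpowers σ) (a : Kˣ) {h : ℕ}
    (hn : finrank K L = h * 2) (w : InfinitePlace K) (hram : IsReal w → ¬ w.IsUnramifiedIn L) :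
    invAtInf w (cyclicHom hσ a) = (genChar hσ (infSymbol L w a)).toAdd := by
  by_cases hr : IsReal w
  swap
  · rw [invAtInf, dif_neg hr, (infSymbol_eq_one_iff).2 fun _ h' => absurd h' hr, map_one, toAdd_one]
  rw [invAtInf, dif_pos hr]
  set φ := embedding_of_isReal hr
  obtain ⟨u, hu, hu'⟩ : ∃ u : InfinitePlace L, u.comap (algebraMap K L) = w ∧
      ¬ u.IsUnramified K := by
    have := hram hr
    simp only [InfinitePlace.IsUnramifiedIn, not_forall] at this
    obtain ⟨u, hu, hn⟩ := this
    exact ⟨u, hu, hn⟩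
  set ψ := u.embedding
  obtain ⟨c, hc, hc1⟩ : ∃ c : L ≃ₐ[K] L, ComplexEmbedding.IsConj ψ c ∧ c ≠ 1 := by
    by_contra! hcon
    exact hu' (by rw [← mk_embedding u]; exact isUnramified_mk_iff_forall_isConj.2 hcon)
  have hψ : ∀ t : K, ψ (algebraMap K L t) = ((φ t : ℝ) : ℂ) := fun t => by
    have h1 : InfinitePlace.mk (ψ.comp (algebraMap K L)) = w := by
      rw [← comap_mk, mk_embedding, hu]
    rw [embedding_of_isReal_apply]
    conv_rhs => rw [← h1, embedding_mk_eq_of_isReal (isReal_mk_iff.1 (h1.symm ▸ hr))]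
    rfl
  have hsq : c ^ 2 = 1 := AlgEquiv.ext fun x => ψ.injective (by
    rw [pow_two, AlgEquiv.mul_apply, hc.eq, hc.eq, star_star]; rfl)
  rw [eq_pow_half hσ hn hsq hc1] at hc
  letI : Algebra K ℝ := φ.toAlgebra
  letI : Algebra K ℂ := (Complex.ofRealHom.comp φ).toAlgebra
  haveI : IsScalarTower K ℝ ℂ := IsScalarTower.of_algebraMap_eq fun _ => rfl
  haveI : Algebra.IsQuadraticExtension ℝ ℂ := ⟨Complex.finrank_real_complex⟩
  haveI : IsGalois ℝ ℂ := ⟨⟩
  have hconj : ∀ t, t ∈ Subgroup.zpowers (Complex.conjAe : ℂ ≃ₐ[ℝ] ℂ) := fun t => by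
    have ht : t Complex.I * t Complex.I = -1 := by rw [← map_mul, Complex.I_mul_I, map_neg, map_one]
    rcases mul_self_eq_mul_self_iff.1 (ht.trans Complex.I_mul_I.symm) with h1 | h1
    · rw [show t = 1 from AlgEquiv.coe_toAlgHom_injective (Complex.algHom_ext h1)]
      exact one_mem _
    · rw [show t = Complex.conjAe from AlgEquiv.coe_toAlgHom_injective (Complex.algHom_ext
        (h1.trans Complex.conj_I.symm))]
      exact Subgroup.mem_zpowers _
  let j : L →ₐ[K] ℂ := { ψ with commutes' := hψ }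
  have hres : restriction ℝ (cyclicHom hσ a) =
      cyclicHom hconj (Units.map (algebraMap K ℝ).toMonoidHom a) :=
    restriction_cyclicHom_general hσ hconj j (g := h)
      (by rw [Complex.finrank_real_complex, hn]) (fun l => (hc.eq l).symm) a
  have hone : restriction ℝ (cyclicHom hσ a) = 1 ↔ 0 < φ a := by
    rw [hres]
    refine (cyclicClass_eq_one_iff hconj _).trans ⟨?_, fun hp => ?_⟩
    · rintro ⟨z, hz⟩
      rw [Algebra.norm_complex_apply] at hz
      refine lt_of_le_of_ne ?_ ((map_ne_zero φ).2 a.ne_zero).symm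
      exact (Complex.normSq_nonneg z).trans_eq hz
    · refine ⟨(Real.sqrt (φ a) : ℂ), ?_⟩
      rw [Algebra.norm_complex_apply, Complex.normSq_ofReal, Real.mul_self_sqrt hp.le]
      rfl
  have hinf : infSymbol L w a = 1 ↔ 0 < φ a :=
    infSymbol_eq_one_iff.trans ⟨fun hh => hh (hram hr) hr, fun hp _ _ => hp⟩
  show invFunReal (restriction ℝ (cyclicHom hσ a)) = _
  by_cases hp : 0 < φ a
  · rw [invFunReal, if_pos (hone.2 hp), hinf.2 hp, map_one, toAdd_one]
  · have h2 : infSymbol L w a ^ 2 = 1 := by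
      rw [← map_pow]
      refine infSymbol_eq_one_iff.2 fun _ _ => ?_
      rw [Units.val_pow_eq_pow_val, map_pow]
      exact pow_two_pos_of_ne_zero ((map_ne_zero _).2 a.ne_zero)
    rw [invFunReal, if_neg (mt hone.1 hp), eq_pow_half hσ hn h2 (mt hinf.1 hp), ← zpow_natCast,
      genChar_zpow, hn]
    congr 1
    have h0 : (h : ℚ) ≠ 0 := Nat.cast_ne_zero.2 fun h0 =>
      (Module.finrank_pos (R := K) (M := L)).ne' (by rw [hn, h0, zero_mul])
    push_cast
    field_simp

end finite

/-- **The invariants of a class vanish outside a finite set.** -/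
theorem finite_invAt (x : BrauerGroup.{0, 0} K) :
    (Function.support fun v : HeightOneSpectrum (𝓞 K) => invAt v x).Finite :=
  (FA.BrauerGlobal.finite_nontrivial x).subset fun v hv h => hv (by
    show invAt v x = 0
    rw [invAt, h, ofMul_one, map_zero])

/-- A class killed by `N` is split by a cyclic extension of local degree `N` where it is not
trivial and without real places. -/
theorem restriction_eq_one_of_adapted {x : BrauerGroup.{0, 0} K} {N : ℕ} (hx : x ^ N = 1)
    [IsCyclic (L ≃ₐ[K] L)]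
    (hS : ∀ v : HeightOneSpectrum (𝓞 K), restriction (v.adicCompletion K) x ≠ 1 →
      ∀ Q : HeightOneSpectrum (𝓞 L), belowP K Q = v →
        Nat.card (MulAction.stabilizer (L ≃ₐ[K] L) Q.asIdeal) = N)
    (hreal : ∀ w : InfinitePlace K, IsReal w → ¬ w.IsUnramifiedIn L) : restriction L x = 1 := by
  refine eq_one_of_locallyTrivial ⟨fun w => ?_, fun φ => ?_⟩
  · letI : Algebra K (w.adicCompletion L) :=
      ((algebraMap L (w.adicCompletion L)).comp (algebraMap K L)).toAlgebra
    haveI : IsScalarTower K L (w.adicCompletion L) :=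
      IsScalarTower.of_algebraMap_eq fun _ => rfl
    haveI : IsScalarTower K ((belowP K w).adicCompletion K) (w.adicCompletion L) :=
      IsScalarTower.of_algebraMap_eq fun c => (belowHom_algebraMap (K := K) w c).symm
    rw [restriction_restriction,
      ← restriction_restriction ((belowP K w).adicCompletion K) (w.adicCompletion L)]
    by_cases hv : restriction ((belowP K w).adicCompletion K) x = 1
    · rw [hv, map_one]
    haveI : IsCyclic (MulAction.stabilizer (L ≃ₐ[K] L) w.asIdeal) := Subgroup.isCyclic _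
    let e₀ := IsGaloisGroup.mulEquivAlgEquiv (MulAction.stabilizer (L ≃ₐ[K] L) w.asIdeal)
      ((belowP K w).adicCompletion K) (w.adicCompletion L)
    haveI : IsCyclic (w.adicCompletion L ≃ₐ[(belowP K w).adicCompletion K] w.adicCompletion L) :=
      isCyclic_of_surjective e₀.toMonoidHom e₀.surjective
    refine (mem_ker_iff (n := N) (w.adicCompletion L) ?_ _).2 (by rw [← map_pow, hx, map_one])
    rw [finrank_above, hS _ hv w rfl]
  · exfalso
    set u := InfinitePlace.mk (Complex.ofRealHom.comp φ)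
    have hu : u.IsReal := InfinitePlace.isReal_mk_iff.2
      (NumberField.ComplexEmbedding.isReal_iff.2 (RingHom.ext fun c => Complex.conj_ofReal _))
    exact hreal (u.comap (algebraMap K L)) (hu.comap _)
      (InfinitePlace.isUnramifiedIn_comap.2 (InfinitePlace.isUnramified_iff.2 (Or.inl hu)))

/-- **The sum of the invariants of a global class is zero.** -/
theorem sum_invariants (x : BrauerGroup.{0, 0} K) :
    (∑ᶠ v : HeightOneSpectrum (𝓞 K), invAt v x) + ∑ w : InfinitePlace K, invAtInf w x = 0 := by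
  obtain ⟨N, hN, hx⟩ := exists_pow_eq_one x
  set S := (FA.BrauerGlobal.finite_nontrivial x).toFinset
  obtain ⟨L, _, _, _, _, _, hcyc, hdeg, hS, hreal⟩ := exists_adapted S hN
  obtain ⟨σ, hσ⟩ := IsCyclic.exists_generator (α := L ≃ₐ[K] L)
  have hsplit : restriction L x = 1 :=
    restriction_eq_one_of_adapted hx (fun v hv => (hS v ((Set.Finite.mem_toFinset _).2 hv)).2)
      hreal
  obtain ⟨a, rfl⟩ : x ∈ (cyclicHom hσ).range := by rw [cyclicHom_range hσ]; exact hsplit
  have hfin : ∀ v, invAt v (cyclicHom hσ a) = (genChar hσ (normSymbol L v a)).toAdd := fun v => by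
    by_cases hv : v ∈ S
    · exact invAt_cyclicHom hσ a (hS v hv).1
    · have h1 : restriction (v.adicCompletion K) (cyclicHom hσ a) = 1 :=
        not_not.1 fun h => hv ((Set.Finite.mem_toFinset _).2 h)
      rw [invAt, h1, ofMul_one, map_zero, (restriction_eq_one_iff_normSymbol hσ a v).1 h1, map_one,
        toAdd_one]
  set T := (normSymbol_finite_support (L := L) a).toFinset
  have hprod := congrArg (genChar hσ) (prod_normSymbol (L := L) a)
  rw [finprod_eq_prod_of_mulSupport_subset (s := T) _ (by simp [T]), map_mul, map_prod, map_prod,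
    map_one] at hprod
  replace hprod := congrArg Multiplicative.toAdd hprod
  rw [toAdd_mul, toAdd_prod, toAdd_prod, toAdd_one] at hprod
  rw [finsum_eq_sum_of_support_subset (s := T) _ fun v hv => ?_, Finset.sum_congr rfl fun v _ =>
    hfin v, Finset.sum_congr rfl fun w _ =>
      invAtInf_cyclicHom hσ a (hdeg.trans (mul_comm 2 N)) w (hreal w)]
  · exact hprod
  · refine (Set.Finite.mem_toFinset _).2 fun h1 => hv ?_
    show invAt v _ = 0
    rw [hfin, show normSymbol L v a = 1 from h1, map_one, toAdd_one]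

/-- **A global class is determined by its invariants.** -/
theorem eq_one_of_invariants {x : BrauerGroup.{0, 0} K}
    (h : ∀ v : HeightOneSpectrum (𝓞 K), invAt v x = 0)
    (h' : ∀ w : InfinitePlace K, invAtInf w x = 0) : x = 1 := by
  refine eq_one_of_locallyTrivial ⟨fun v => ?_, fun φ => ?_⟩
  · have h1 := h v
    rw [invAt, invariant_ofMul] at h1
    exact (invFun_eq_zero_iff v _).1 h1
  · set w := InfinitePlace.mk (Complex.ofRealHom.comp φ)
    have hconj : NumberField.ComplexEmbedding.IsReal (Complex.ofRealHom.comp φ) :=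
      NumberField.ComplexEmbedding.isReal_iff.2 (RingHom.ext fun c => Complex.conj_ofReal _)
    have hr : w.IsReal := InfinitePlace.isReal_mk_iff.2 hconj
    have hφ : embedding_of_isReal hr = φ := RingHom.ext fun c => Complex.ofReal_injective (by
      rw [embedding_of_isReal_apply, embedding_mk_eq_of_isReal hconj]
      rfl)
    have h1 := h' w
    rw [invAtInf, dif_pos hr] at h1
    rw [hφ] at h1
    exact invariantReal_injective (h1.trans (map_zero _).symm)

end FA.BrauerInvariant

end
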